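import Fermat.Agent.XHLite.Twist.Defs
import Fermat.Agent.J0Torsion.Main
import Fermat.Prelude.Def_AlgebraicCurve_BaseChangeGalois
import Fermat.Prelude.Def_FLTPrelim_Ramification

/-!
# The cover `F₀(y)` of `X₀(N q)` used for twisting at `q`

`TwistCover N q` is what the analytic construction supplies, `TwistCover.Relation` what the
geometry modulo `q` supplies.
-/

set_option autoImplicit false

noncomputable section

open AlgebraicCurve ModularCurve CongruenceSubgroup UpperHalfPlane
open Fermat.Agent.X0Analytic (perMero qSer)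

namespace Fermat.Agent.XHLite

local notation "Qbar" => AlgebraicClosure ℚ

/-- A function `y` with multiplier `χ(d)` on `Γ₀(N q)` and algebraic coefficients fixed by
inertia at `q`, with `y ^ d` in the function field of `X₀(N q)`. -/
structure TwistCover (N q : ℕ) [NeZero N] [NeZero q] where
  d : ℕ
  d_pos : 0 < d
  chi : (ZMod q)ˣ →* ℂ
  chi_pow : chi ^ d = 1
  chi_neg_one : chi (-1) = 1
  y : LaurentSeries Qbar
  y_ne : y ≠ 0
  Y : ℍ → ℂ
  mem_twFun : Y ∈ J0Torsion.twFun (chi.comp (dMod N q))
  mem_perMero : Y ∈ perMero 1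
  qSer_eq : qSer 1 ⟨Y, mem_perMero⟩ = coeffMap J0Torsion.jEmb y
  pow_mem : y ^ d ∈ modularFunctionFieldBar (N * q)
  inertia_fix : ∀ A : ValuationSubring Qbar, A.LiesOverPrime q →
    ∀ σ ∈ A.inertiaSubgroupIn ℚ, coeffMap (σ : Qbar →+* Qbar) y = y

namespace TwistCover

variable {N q : ℕ} [NeZero N] [NeZero q] (C : TwistCover N q)

/-- The field `F₀(y)`. -/
def field : IntermediateField Qbar (LaurentSeries Qbar) :=
  IntermediateField.adjoin Qbar
    ((modularFunctionFieldBar (N * q) : Set (LaurentSeries Qbar)) ∪ {C.y})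

theorem base_le : modularFunctionFieldBar (N * q) ≤ C.field :=
  fun _ hx => IntermediateField.subset_adjoin Qbar _ (Or.inl hx)

theorem y_mem : C.y ∈ C.field := IntermediateField.subset_adjoin Qbar _ (Or.inr rfl)

/-- `y` in the cover. -/
def yEl : C.field := ⟨C.y, C.y_mem⟩

/-- An automorphism of the cover over the base. -/
def IsOverBase (m : C.field ≃ₐ[Qbar] C.field) : Prop :=
  ∀ f : C.field, (f : LaurentSeries Qbar) ∈ modularFunctionFieldBar (N * q) → m f = f

/-- For `τ` acting coefficientwise by inertia at `q`, of cyclotomic character `κ`, and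
`a : y ↦ χ(κ) y`: `(m - 1)(τ - 1)(τ - a)` kills classes of degree zero of order prime to `q`. -/
def Relation : Prop :=
  ∀ A : ValuationSubring Qbar, A.LiesOverPrime q → ∀ σ ∈ A.inertiaSubgroupIn ℚ,
    ∀ τ : SemilinearAut Qbar C.field,
      (∀ f : C.field, ((τ • f : C.field) : LaurentSeries Qbar) =
        coeffMap (σ : Qbar →+* Qbar) (f : LaurentSeries Qbar)) →
      ∀ κ : (ZMod q)ˣ, (∀ μ : Qbar, μ ^ q = 1 → σ μ = μ ^ (κ : ZMod q).val) →
        ∀ a m : C.field ≃ₐ[Qbar] C.field, C.IsOverBase a → C.IsOverBase m →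
          ∀ c : Qbar, J0Torsion.jEmb c = C.chi κ → a C.yEl = c • C.yEl →
            ∀ n : ℕ, n.Coprime q → ∀ D : Divisor Qbar C.field, Divisor.degree D = 0 →
              (n : ℤ) • D ∈ Divisor.principal (K := Qbar) (F := C.field) →
              SemilinearAut.ofAlgAut m • (τ • (τ • D - SemilinearAut.ofAlgAut a • D) -
                  (τ • D - SemilinearAut.ofAlgAut a • D)) -
                (τ • (τ • D - SemilinearAut.ofAlgAut a • D) -
                  (τ • D - SemilinearAut.ofAlgAut a • D)) ∈
                Divisor.principal (K := Qbar) (F := C.field)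

end TwistCover

end Fermat.Agent.XHLite
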