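import Fermat.Agent.XHLite.TwistClass.Main
import Fermat.Agent.EigenRep.Main
import Fermat.Agent.Engine.TSide
import Fermat.Agent.Engine.TRep.TwistChain
import Fermat.Agent.Chebotarev.Trace
import Fermat.Agent.EigenRep.AdicRelation

/-!
# Inertia at a principal series prime

From the relation of the twisting functional with inertia (`TwistMonodromy`) and the non-vanishing
of the twisting functional, the trace of inertia at `q` is `ψ + ψ⁻¹`.
-/

set_option autoImplicit false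

noncomputable section

open AlgebraicCurve ModularCurve CongruenceSubgroup IsLocalRing Matrix
open Fermat.Agent.EigenRep

namespace Fermat.Agent.XHLite

local notation "Qbar" => AlgebraicClosure ℚ

/-- The twisting functional kills `(σ - ψ(e)) (σ - ψ(e)⁻¹)` for inertia at `q`. -/
def TwistMonodromy (N q p : ℕ) [NeZero N] [NeZero q] [Fact p.Prime] : Prop :=
  ∀ (K : Type) [CommRing K] [IsDomain K] [CharZero K] (ι : ℤ_[p] →+* K) (ψ : (ZMod q)ˣ →* Kˣ), ψ ^ 2 ≠ 1 →
    ∀ A : ValuationSubring Qbar, A.LiesOverPrime q → ∀ σ ∈ A.inertiaSubgroupIn ℚ,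
      ∀ e : (ZMod q)ˣ, (∀ μ : Qbar, μ ^ q = 1 → σ μ = μ ^ (e : ZMod q).val) →
        ∀ (k : twistKer N q) (w : Fin (HeckeJ0.rk (N * q * q)) → K),
          twistFun ψ (HeckeJ0.frickeTwist (HeckeJ0.ofCoords (N * q * q)
              (galEnd (HeckeJ0.torsionHeckeModel (N * q * q) p) ι σ
                (galEnd (HeckeJ0.torsionHeckeModel (N * q * q) p) ι σ w)))) k -
            (((ψ e : Kˣ) : K) + (((ψ e)⁻¹ : Kˣ) : K)) *
              twistFun ψ (HeckeJ0.frickeTwist (HeckeJ0.ofCoords (N * q * q)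
                (galEnd (HeckeJ0.torsionHeckeModel (N * q * q) p) ι σ w))) k +
            twistFun ψ (HeckeJ0.frickeTwist (HeckeJ0.ofCoords (N * q * q) w)) k = 0

section Linear

variable {N q : ℕ} [NeZero N] [NeZero q] {K : Type*} [CommRing K]

/-- The twisting functional on coordinate vectors. -/
def twistLam (ψ : (ZMod q)ˣ →* Kˣ) (k : twistKer N q) :
    (Fin (HeckeJ0.rk (N * q * q)) → K) →ₗ[K] K where
  toFun u := twistFun ψ (HeckeJ0.frickeTwist (HeckeJ0.ofCoords (N * q * q) u)) k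
  map_add' u u' := by
    simp only [twistFun, ← Finset.sum_add_distrib, ← mul_add]
    refine Finset.sum_congr rfl fun b _ => ?_
    refine congrArg _ (Finset.sum_congr rfl fun h _ => ?_)
    show HeckeJ0.ofCoords (N * q * q) (u + u') _ =
      HeckeJ0.ofCoords (N * q * q) u _ + HeckeJ0.ofCoords (N * q * q) u' _
    rw [HeckeJ0.ofCoords_eq_sum, HeckeJ0.ofCoords_eq_sum, HeckeJ0.ofCoords_eq_sum,
      ← Finset.sum_add_distrib]
    exact Finset.sum_congr rfl fun i _ => by simp only [Pi.add_apply]; ring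
  map_smul' c u := by
    simp only [twistFun, RingHom.id_apply, smul_eq_mul, Finset.mul_sum]
    refine Finset.sum_congr rfl fun b _ => Finset.sum_congr rfl fun h _ => ?_
    rw [mul_left_comm]
    refine congrArg _ ?_
    show HeckeJ0.ofCoords (N * q * q) (c • u) _ = c * HeckeJ0.ofCoords (N * q * q) u _
    rw [HeckeJ0.ofCoords_eq_sum, HeckeJ0.ofCoords_eq_sum, Finset.mul_sum]
    exact Finset.sum_congr rfl fun i _ => by simp only [Pi.smul_apply, smul_eq_mul]; ring

end Linear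

/-- If a representation is attached to a system, its trace satisfies the quadratic relation on the
eigenvectors. -/
theorem galEnd_trace_relation {N p : ℕ} [NeZero N] [Fact p.Prime] {O : Type} [CommRing O]
    [IsDomain O] [IsDiscreteValuationRing O] [IsAdicComplete (maximalIdeal O) O]
    (I : RepInputs N p) (hp : (p : O) ∈ maximalIdeal O) (ρ : GaloisRepAdic O) (S : Finset ℕ)
    (a : ℕ → O) (ha : ∀ ℓ : ℕ, ℓ.Prime → ℓ ∉ S → ∀ A : ValuationSubring Qbar, A.LiesOverPrime ℓ →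
      ∀ σ : Qbar ≃ₐ[ℚ] Qbar, A.IsFrobeniusAt σ ℓ → ρ.trace σ = a ℓ)
    {u : Fin I.model.d → O} (hu : u ∈ eigenSub I.model (↑S : Set ℕ) fun ℓ => a ℓ)
    (g : Qbar ≃ₐ[ℚ] Qbar) :
    galEnd I.model (padicHom p hp) g (galEnd I.model (padicHom p hp) g u) -
      ρ.trace g • galEnd I.model (padicHom p hp) g u +
      padicHom p hp (epsilonPadic p g : ℤ_[p]) • u = 0 := by
  funext k
  refine IsHausdorff.haus (I := maximalIdeal O) inferInstance _ fun n => ?_
  rw [SModEq.zero, smul_eq_mul, Ideal.mul_top, ← Ideal.Quotient.eq_zero_iff_mem]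
  obtain ⟨L₁, hL₁, hc₁⟩ := Chebotarev.exists_level_trace_congr ρ n
  obtain ⟨L₂, hL₂, hc₂⟩ := exists_level I n
  obtain ⟨ℓ, hℓ, hℓS, A, hA, σ, hσ, hag⟩ := I.dense (L₁ ⊔ L₂)
    (IntermediateField.finiteDimensional_sup L₁ L₂) g (S ∪ (N * p).primeFactors)
  rw [Finset.mem_union, not_or] at hℓS
  have hd : ¬ ℓ ∣ N * p := fun h => hℓS.2 (Nat.mem_primeFactors.mpr ⟨hℓ, h,
    mul_ne_zero (NeZero.ne N) (Fact.out : p.Prime).ne_zero⟩)
  obtain ⟨h₁, h₂⟩ := hc₂ _ (inv_mul_fixes fun b hb =>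
    hag b ((le_sup_right : L₂ ≤ L₁ ⊔ L₂) hb))
  have hgσ : g = σ * (σ⁻¹ * g) := (mul_inv_cancel_left σ g).symm
  have hg1 : matMod p I.model.d n (galMat I.model g) = matMod p I.model.d n (galMat I.model σ) := by
    rw [hgσ, map_mul, map_mul, h₁, mul_one]
  have hg2 : PadicInt.toZModPow n (epsilonPadic p g : ℤ_[p]) =
      PadicInt.toZModPow n (epsilonPadic p σ : ℤ_[p]) := by
    rw [hgσ, map_mul, Units.val_mul, map_mul, h₂, mul_one]
  let π := galEnd I.model (padicHom p hp)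
  let q := Ideal.Quotient.mk (maximalIdeal O ^ n)
  have hpn : q ((p : O) ^ n) = 0 :=
    Ideal.Quotient.eq_zero_iff_mem.mpr (Ideal.pow_mem_pow hp n)
  have hmat : ((galMat I.model g).map (padicHom p hp)).map q =
      ((galMat I.model σ).map (padicHom p hp)).map q := by
    ext r s
    obtain ⟨c, hc⟩ := sub_mem_span_pow (padicHom p hp) congr($hg1 r s)
    simp only [Matrix.map_apply]
    rw [hc, map_add, map_mul, hpn, zero_mul, add_zero]
  have hεq : q (padicHom p hp (epsilonPadic p g : ℤ_[p])) =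
      q (padicHom p hp (epsilonPadic p σ : ℤ_[p])) := by
    obtain ⟨c, hc⟩ := sub_mem_span_pow (padicHom p hp) hg2
    rw [hc, map_add, map_mul, hpn, zero_mul, add_zero]
  have hπ : ∀ (v : Fin I.model.d → O) r, q (π g v r) = q (π σ v r) := fun v r => by
    show q (((galMat I.model g).map (padicHom p hp) *ᵥ v) r) =
      q (((galMat I.model σ).map (padicHom p hp) *ᵥ v) r)
    rw [RingHom.map_mulVec, RingHom.map_mulVec, hmat]
  have hππ : q (π g (π g u) k) = q (π σ (π σ u) k) := by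
    rw [hπ (π g u) k]
    show q (((galMat I.model σ).map (padicHom p hp) *ᵥ π g u) k) =
      q (((galMat I.model σ).map (padicHom p hp) *ᵥ π σ u) k)
    rw [RingHom.map_mulVec, RingHom.map_mulVec, show q ∘ π g u = q ∘ π σ u from funext (hπ u)]
  have htr : q (ρ.trace g) = q (a ℓ) := by
    rw [← ha ℓ hℓ hℓS.1 A hA σ hσ]
    exact ((Ideal.Quotient.eq).mpr (hc₁ g σ fun b hb =>
      hag b ((le_sup_left : L₁ ≤ L₁ ⊔ L₂) hb))).symm
  have h := congrArg q (congrFun (galEnd_frobenius I.model (padicHom p hp) I.es I.equivariant hℓ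
    (by simpa using hℓS.1) hd hA hσ hu) k)
  have hεσ : padicHom p hp (epsilonPadic p σ : ℤ_[p]) = (ℓ : O) := by
    rw [epsilon_frobenius hℓ (fun h' => hd (h' ▸ dvd_mul_left p N)) hA hσ, map_natCast]
  simp only [Pi.add_apply, Pi.sub_apply, Pi.smul_apply, Pi.zero_apply, smul_eq_mul, map_add,
    map_sub, map_mul, map_zero] at h ⊢
  rw [hππ, htr, hπ u k, hεq, hεσ]
  exact h

/-- If a linear functional does not kill an eigenvector but kills `σ² - c σ + 1`, the trace of
`σ` is `c`. -/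
theorem trace_eq_of_functional {M p : ℕ} [NeZero M] [Fact p.Prime] {O : Type} [CommRing O]
    [IsDomain O] [IsDiscreteValuationRing O] [IsAdicComplete (maximalIdeal O) O]
    (I : RepInputs M p) (hp : (p : O) ∈ maximalIdeal O) (ρ : GaloisRepAdic O) (S : Finset ℕ)
    (a : ℕ → O) (ha : ∀ ℓ : ℕ, ℓ.Prime → ℓ ∉ S → ∀ A : ValuationSubring Qbar, A.LiesOverPrime ℓ →
      ∀ σ : Qbar ≃ₐ[ℚ] Qbar, A.IsFrobeniusAt σ ℓ → ρ.trace σ = a ℓ)
    {K : Type} [Field K] [Algebra O K] [IsFractionRing O K] {v : Fin I.model.d → K}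
    (hv : ∀ ℓ : Nat.Primes, (ℓ : ℕ) ∉ S →
      (I.model.T ℓ).map (Int.cast : ℤ → K) *ᵥ v = algebraMap O K (a ℓ) • v)
    (Λ : (Fin I.model.d → K) →ₗ[K] K) (hΛ : Λ v ≠ 0) (σ : Qbar ≃ₐ[ℚ] Qbar)
    (hε : epsilonPadic p σ = 1) (c : K)
    (hmono : ∀ w, Λ (galEnd I.model ((algebraMap O K).comp (padicHom p hp)) σ
        (galEnd I.model ((algebraMap O K).comp (padicHom p hp)) σ w)) -
      c * Λ (galEnd I.model ((algebraMap O K).comp (padicHom p hp)) σ w) + Λ w = 0) :
    algebraMap O K (ρ.trace σ) = c := by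
  let f : O →+* K := algebraMap O K
  obtain ⟨r, hr⟩ := IsLocalization.exist_integer_multiples_of_finite (nonZeroDivisors O) v
  choose v₁ hv₁ using hr
  have hr0 : f (r : O) ≠ 0 :=
    (map_ne_zero_iff f (IsFractionRing.injective O K)).mpr (nonZeroDivisors.coe_ne_zero r)
  have hv₁' : f ∘ v₁ = f (r : O) • v := funext fun i => by
    rw [Function.comp_apply, hv₁, Algebra.smul_def]; rfl
  have hv₁P : v₁ ∈ eigenSub I.model (↑S : Set ℕ) fun ℓ => a ℓ := by
    refine (mem_eigenSub I.model).mpr fun ℓ hℓ => funext fun i => ?_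
    refine IsFractionRing.injective O K ?_
    show f (((I.model.T ℓ).map (Int.cast : ℤ → O) *ᵥ v₁) i) = f (a ℓ * v₁ i)
    rw [RingHom.map_mulVec, Matrix.map_map, hv₁', map_mul]
    have hT : f ∘ (Int.cast : ℤ → O) = (Int.cast : ℤ → K) := funext fun z => map_intCast f z
    rw [hT, mulVec_smul, hv ℓ (by simpa using hℓ), smul_comm, Pi.smul_apply, smul_eq_mul, ← hv₁']
    rfl
  let π := galEnd I.model (padicHom p hp)
  let u := π σ⁻¹ v₁
  have hu : u ∈ eigenSub I.model (↑S : Set ℕ) fun ℓ => a ℓ :=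
    galEnd_mem_eigenSub I.model _ I.equivariant σ⁻¹ hv₁P
  have hπu : π σ u = v₁ := by
    rw [show π σ u = (π σ * π σ⁻¹) v₁ from rfl, ← map_mul, mul_inv_cancel, map_one,
      Module.End.one_apply]
  have hrel := galEnd_trace_relation I hp ρ S a ha hu σ
  rw [hε, Units.val_one, map_one, one_smul] at hrel
  have hcomm : ∀ w : Fin I.model.d → O,
      galEnd I.model (f.comp (padicHom p hp)) σ (f ∘ w) = f ∘ π σ w := fun w => by
    funext i
    show ((galMat I.model σ).map (f.comp (padicHom p hp)) *ᵥ (f ∘ w)) i =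
      f (((galMat I.model σ).map _ *ᵥ w) i)
    rw [RingHom.map_mulVec, Matrix.map_map]
    rfl
  have h := hmono (f ∘ u)
  rw [hcomm u, hcomm (π σ u)] at h
  have hrel' : f ∘ π σ (π σ u) = f (ρ.trace σ) • (f ∘ π σ u) - f ∘ u := funext fun i => by
    have := congrArg f (congrFun hrel i)
    simp only [Pi.add_apply, Pi.sub_apply, Pi.smul_apply, Pi.zero_apply, smul_eq_mul, map_add,
      map_sub, map_mul, map_zero] at this
    simp only [Function.comp_apply, Pi.sub_apply, Pi.smul_apply, smul_eq_mul]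
    linear_combination this
  have hne : Λ (f ∘ π σ u) ≠ 0 := by
    rw [hπu, hv₁', map_smul, smul_eq_mul]
    exact mul_ne_zero hr0 hΛ
  rw [hrel', map_sub, map_smul, smul_eq_mul] at h
  exact sub_eq_zero.mp ((mul_eq_zero.mp (show (f (ρ.trace σ) - c) * Λ (f ∘ π σ u) = 0 by
    linear_combination h)).resolve_right hne)

/-- Raising the level of a system without changing the character. -/
theorem occurs_raise {K : Type} [Field K] [CharZero K] {M M' : ℕ} [NeZero M'] (hd : 1 * M ∣ M')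
    {χ : (ZMod M)ˣ →* K} {χ' : (ZMod M')ˣ →* K} {S S' : Finset ℕ} {lam : ℕ → K}
    (h : Engine.Occurs K M χ S lam)
    (hχ : ∀ u, χ (ZMod.unitsMap (dvd_of_mul_left_dvd hd) u) = χ' u)
    (hS : ∀ ℓ, ℓ ∉ S' → ℓ ∉ S) : Engine.Occurs K M' χ' S' lam := by
  obtain rfl : χ.comp (ZMod.unitsMap (dvd_of_mul_left_dvd hd)) = χ' := MonoidHom.ext hχ
  obtain ⟨c, hc0, hc⟩ := h
  have hinj := Engine.TRep.degen_one_injective hd χ
  refine ⟨HeckeModule.degen (HeckeModule.scalarRep χ K) one_ne_zero hd c,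
    fun h0 => hc0 (hinj (h0.trans (map_zero _).symm)), fun ℓ hℓ hℓS hℓN => ?_⟩
  have hℓM : ¬ ℓ ∣ M := fun h => hℓN (h.trans (dvd_of_mul_left_dvd hd))
  show HeckeModule.heckeOp (HeckeModule.pullRep (HeckeModule.scalarRep χ K)
    (dvd_of_mul_left_dvd hd)) ℓ _ = _
  rw [← HeckeModule.degen_heckeOp _ one_ne_zero hd hℓ.out.not_dvd_one
    (fun h => absurd h hℓN), hc ℓ (hS ℓ hℓS) hℓM, map_smul]
  rfl

variable (O : Type) [CommRing O] [IsDomain O] [IsDiscreteValuationRing O]
  [IsAdicComplete (maximalIdeal O) O] [CharZero O]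

/-- **Trace of inertia at a principal series prime.** -/
theorem nebentypusInertia_of_monodromy (p N q : ℕ) [NeZero N] [NeZero q] [Fact p.Prime]
    (H : 5 ≤ q → q.Prime → q ≠ p → ¬ q ∣ N → TwistMonodromy (36 * N) q p) :
    Engine.NebentypusInertia O p N q := by
  intro ψ hψ hq hqp hqN S lam a ρ hqS hpS hNS hocc hlam hρ hne A hA σ hσ e he
  have : Fact q.Prime := ⟨hq⟩
  let K := FractionRing O
  have : CharZero K := charZero_of_injective_algebraMap (IsFractionRing.injective O K)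
  have h5 : 5 ≤ q := by
    by_contra hlt
    refine hψ (MonoidHom.ext fun u => ?_)
    rw [MonoidHom.pow_apply, ← map_pow]
    have h := ZMod.units_pow_card_sub_one_eq_one q u
    have h2 := hq.two_le
    obtain rfl | rfl : q = 2 ∨ q = 3 := by
      rcases (by omega : q = 2 ∨ q = 3 ∨ q = 4) with h | h | h
      · exact Or.inl h
      · exact Or.inr h
      · exact absurd (h ▸ hq) (by decide)
    · rw [show u = 1 by simpa using h, one_pow, map_one, MonoidHom.one_apply]
    · rw [h, map_one, MonoidHom.one_apply]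
  have hq23 : ¬ q ∣ 36 := fun h => by
    have h36 : q ∣ 2 ^ 2 * 3 ^ 2 := by simpa using h
    rcases hq.dvd_mul.mp h36 with h' | h' <;>
      have := Nat.le_of_dvd (by norm_num) (hq.dvd_of_dvd_pow h') <;> omega
  have hqN' : ¬ q ∣ 36 * N := fun h => (hq.dvd_mul.mp h).elim hq23 hqN
  -- the system at level `36 N q`
  let f : O →+* K := algebraMap O K
  let ψK : (ZMod q)ˣ →* Kˣ := (Units.map f.toMonoidHom).comp ψ
  have hψK : ψK ^ 2 ≠ 1 := fun h => hψ (MonoidHom.ext fun u => Units.ext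
    (IsFractionRing.injective O K (by
      simpa [ψK, f, Units.val_pow_eq_pow_val] using congrArg Units.val (DFunLike.congr_fun h u))))
  let S' : Finset ℕ := S ∪ {2, 3}
  have hSS : ∀ {ℓ : ℕ}, ℓ ∉ S' → ℓ ∉ S := fun h hS => h (Finset.mem_union_left _ hS)
  have hNS' : ∀ r : ℕ, r.Prime → r ∣ 36 * N → r ∈ S' := fun r hr h => by
    rcases hr.dvd_mul.mp h with h | h
    · have h36 : r ∣ 2 ^ 2 * 3 ^ 2 := by simpa using h
      rcases hr.dvd_mul.mp h36 with h' | h'
      · simp [S', (Nat.prime_dvd_prime_iff_eq hr Nat.prime_two).mp (hr.dvd_of_dvd_pow h')]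
      · simp [S', (Nat.prime_dvd_prime_iff_eq hr Nat.prime_three).mp (hr.dvd_of_dvd_pow h')]
    · exact Finset.mem_union_left _ (hNS r hr h)
  have hclass : ∃ c : HeckeModule.Coh1 (HeckeModule.scalarRep
      (((Units.coeHom K).comp (ψK ^ 2)).comp (ZMod.unitsMap (dvd_mul_left q (36 * N)))) K),
      c ≠ 0 ∧ ∀ (ℓ : ℕ) [Fact ℓ.Prime], ℓ ∉ S' → ¬ ℓ ∣ 36 * N * q →
        HeckeModule.heckeOp (HeckeModule.scalarRep
          (((Units.coeHom K).comp (ψK ^ 2)).comp (ZMod.unitsMap (dvd_mul_left q (36 * N)))) K) ℓ c =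
          f (lam ℓ) • c := by
    have hd : 1 * (N * q) ∣ 36 * N * q := ⟨36, by ring⟩
    refine occurs_raise hd hocc (fun u => ?_) fun _ h => hSS h
    simp [ψK, f, Units.val_pow_eq_pow_val, ← ZMod.unitsMap_comp (dvd_mul_left q N)
      (dvd_of_mul_left_dvd hd)]
    rfl
  obtain ⟨ℓ₀, hℓ₀, hℓ₀S, hℓ₀1, hℓ₀a⟩ := hne (36 * N * q * q)
    (Nat.pos_of_ne_zero (NeZero.ne _))
  obtain ⟨v, hv, k, hk⟩ := twistClassExists K (36 * N) q hq hqN' ψK hψK S'
    (fun ℓ => f (lam ℓ)) (fun ℓ => f (a ℓ)) (Finset.mem_union_left _ hqS) hNS' hclass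
    (fun ℓ hℓq hℓ hℓS => by
      show f (a ℓ) * f (ψ (ZMod.unitOfCoprime ℓ hℓq) : O) = f (lam ℓ)
      rw [← map_mul, hlam ℓ hℓq hℓ (hSS hℓS)])
    ⟨ℓ₀, hℓ₀, by
      have h36 : (ℓ₀ : ZMod 36) = 1 := by
        have h := congrArg (ZMod.castHom
          (show 36 ∣ 36 * N * q * q from ((dvd_mul_right 36 N).mul_right q).mul_right q)
          (ZMod 36)) hℓ₀1
        rwa [map_natCast, map_one] at h
      simp only [S', Finset.mem_union, Finset.mem_insert, Finset.mem_singleton, not_or]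
      refine ⟨hℓ₀S, ?_, ?_⟩ <;> rintro rfl <;> exact absurd h36 (by decide),
      hℓ₀1, fun h => hℓ₀a (IsFractionRing.injective O K (by simpa [f] using h))⟩
  -- the functional
  have hp : (p : O) ∈ maximalIdeal O := hρ.1.1
  refine IsFractionRing.injective O K ?_
  refine (trace_eq_of_functional (EigenRep.repInputs (N := 36 * N * q * q) (p := p)) hp ρ S' a
    (fun ℓ hℓ hℓS => hρ.2 ℓ hℓ (hSS hℓS)) hv (twistLam (N := 36 * N) ψK k) hk σ
    (epsilon_inertia hq hqp hA hσ) _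
    fun w => H h5 hq hqp hqN K (f.comp (padicHom p hp)) ψK hψK A hA σ hσ e he k w).trans ?_
  simp [ψK, f]

end Fermat.Agent.XHLite
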