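import Fermat.Agent.XHLite.Twist.Push
import Fermat.Agent.XHLite.Twist.Main
import Fermat.Agent.XHLite.Glue.Assembly

/-!
# The twisting functional and inertia

For a torsion point `x` of `J₀(N q²)` the functions translated by `b / q` and pushed down to
`F₀(y)` give classes of torsion whose monodromy on `twistKer` is the inner sum of the twisting
functional. The relation on the cover gives the relation of the twisting functional with inertia.
-/

set_option autoImplicit false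

noncomputable section

open CongruenceSubgroup UpperHalfPlane Matrix.SpecialLinearGroup ModularCurve AlgebraicCurve
open scoped MatrixGroups
open Fermat.Agent.X0Analytic
open Fermat.Agent.J0Torsion (jEmb)
open Fermat.Agent.FunctionFieldRR
open Fermat.Agent.EigenRep (galEnd galMat)

namespace Fermat.Agent.XHLite

local notation "Qbar" => AlgebraicClosure ℚ

variable {N q : ℕ} [NeZero N] [NeZero q]

/-- The inner sum of the twisting functional. -/
def monSum {K : Type*} [CommRing K] (ψ : (ZMod q)ˣ →* K) {A : Type*} [AddCommGroup A]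
    (φ : Additive (Gamma0 (N * q * q)) →+ A) (b : ZMod q) (k : twistKer N q) : A :=
  ∑ h : TwistCosets N q ψ, φ (Additive.ofMul (conjShift (b.val : ℤ) (conjRep h k)))

omit [NeZero N] in
theorem shiftGL_mul_twistKer (b : ℤ) (k : twistKer N q) :
    shiftGL q b * (((k : Gamma0 (N * q)) : SL(2, ℤ)) : GL (Fin 2) ℝ) =
      ((conjShift b k : SL(2, ℤ)) : GL (Fin 2) ℝ) * shiftGL q b := by
  obtain ⟨c, hc⟩ := twistKer_dvd k.2
  obtain ⟨e, he⟩ := twistKer_sub_dvd k.2
  push_cast at hc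
  set M : SL(2, ℤ) := ((k : Gamma0 (N * q)) : SL(2, ℤ)) with hM
  have hq : (q : ℤ) ≠ 0 := by exact_mod_cast NeZero.ne q
  have h1 : M 1 0 / (q : ℤ) = N * q * c := by
    rw [show M 1 0 = q * (N * q * c) by rw [hc]; ring, Int.mul_ediv_cancel_left _ hq]
  have h2 : M 1 0 / (q : ℤ) / q = N * c := by
    rw [h1, show (N : ℤ) * q * c = q * (N * c) by ring, Int.mul_ediv_cancel_left _ hq]
  have h3 : (M 1 1 - M 0 0) / (q : ℤ) = e := by rw [he, Int.mul_ediv_cancel_left _ hq]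
  have hcR : ((M 1 0 : ℤ) : ℝ) = N * q * q * c := by exact_mod_cast hc
  have heR : ((M 1 1 : ℤ) : ℝ) - M 0 0 = q * e := by exact_mod_cast he
  have hK : ((conjShift b k : Gamma0 (N * q * q)) : SL(2, ℤ)).1 =
      !![M 0 0 + b * (N * q * c), M 0 1 + b * e - b ^ 2 * (N * c);
        M 1 0, M 1 1 - b * (N * q * c)] := by
    show !![M 0 0 + b * (M 1 0 / q), M 0 1 + b * ((M 1 1 - M 0 0) / q) - b ^ 2 * (M 1 0 / q / q);
      M 1 0, M 1 1 - b * (M 1 0 / q)] = _
    rw [h2, h3, h1]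
  refine Matrix.GeneralLinearGroup.ext fun i j => ?_
  simp only [Units.val_mul, Matrix.mul_apply, Fin.sum_univ_two, coe_GL_apply, hK]
  fin_cases i <;> fin_cases j <;> simp [shiftGL, upperGL, ← hM]
  · linear_combination (b : ℝ) * hcR
  · linear_combination (b : ℝ) * heR
  · ring
  · linear_combination -(b : ℝ) * hcR

omit [NeZero N] [NeZero q] in
/-- Elements of level `M` with given lower right entry modulo a divisor. -/
theorem exists_gamma0_lowerRight {M : ℕ} [NeZero M] {m : ℕ} (hm : m ∣ M) (u : (ZMod m)ˣ) :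
    ∃ δ : SL(2, ℤ), δ ∈ Gamma0 M ∧ (((δ 1 1 : ℤ)) : ZMod m) = u := by
  obtain ⟨v, rfl⟩ := ZMod.unitsMap_surjective hm u
  have hcop : IsCoprime ((v : ZMod M).val : ℤ) (M : ℤ) :=
    Int.isCoprime_iff_nat_coprime.mpr (by
      rw [Int.natAbs_natCast, Int.natAbs_natCast]
      exact ZMod.val_coe_unit_coprime v)
  obtain ⟨a, b, hab⟩ := hcop
  refine ⟨⟨!![a, -b; (M : ℤ), ((v : ZMod M).val : ℤ)], by
    rw [Matrix.det_fin_two_of]; linear_combination hab⟩,
    (HeckeJ0.mem_Gamma0_iff_dvd _).mpr (by simp), ?_⟩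
  rw [ZMod.unitsMap_def, Units.coe_map, MonoidHom.coe_coe, ZMod.castHom_apply]
  simp [ZMod.natCast_val]

/-- A root of a function whose divisor is `n` times that of a torsion class. -/
theorem exists_root {M n : ℕ} [NeZero M] [NeZero n]
    (x : Pic0.torsion Qbar (modularFunctionFieldBar M) n)
    {D : Divisor.degZero (K := Qbar) (F := ↥(FLevel Qbar M))} {f : ↥(FLevel Qbar M)} (hf : f ≠ 0)
    (hD : Pic0.mk D = (x : Pic0 Qbar ↥(FLevel Qbar M)))
    (hdiv : ∀ P : Place Qbar ↥(FLevel Qbar M),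
      (n : ℤ) * (D : Divisor Qbar ↥(FLevel Qbar M)) P = P.ord f) :
    ∃ R : Mer, R ≠ 0 ∧ R ^ n = toMer jEmb f ∧ ∀ γ : Gamma0 M,
      TwistCover.compGamma (γ : SL(2, ℤ)) R = TwistCover.merC (ZMod.stdAddChar
        ((J0Torsion.torsionEquiv M n x : Additive (Gamma0 M) →+ ZMod n) (Additive.ofMul γ))) * R := by
  obtain ⟨χ, -, hχ⟩ := J0Torsion.exists_char_of_dvd_ord jEmb (NeZero.ne n) hf
    fun P => ⟨_, (hdiv P).symm⟩
  obtain ⟨G, B, A, a, b, hG, hG0, hB, hb, hA, hab, heq⟩ := J0Torsion.hasChar_data hχ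
  let ι : ↥(modFun M) →+* Mer := (algebraMap Hol Mer).comp (modToHol M).toRingHom
  have hι : Function.Injective ι :=
    (IsFractionRing.injective Hol Mer).comp modToHol_injective
  set G' : Mer := algebraMap Hol Mer ⟨G, hG.1⟩ with hG'
  have hιA : ι A = G' ^ n := by
    rw [hG', ← map_pow]
    exact congrArg (algebraMap Hol Mer) (Subtype.ext hA)
  have hιb : ι (toModFun jEmb b) ≠ 0 :=
    (map_ne_zero_iff ι hι).mpr ((map_ne_zero_iff _ (toModFun_injective jEmb)).mpr hb)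
  have hιB : ι B ≠ 0 := (map_ne_zero_iff ι hι).mpr hB
  have hG'0 : G' ≠ 0 := (map_ne_zero_iff _ (IsFractionRing.injective Hol Mer)).mpr fun h =>
    hG0 (congrArg Subtype.val h)
  have hmer : toMer jEmb f * ι B ^ n = G' ^ n := by
    refine mul_right_cancel₀ hιb ?_
    have h1 := congrArg ι heq
    rw [map_mul, map_mul, map_pow, hιA] at h1
    rw [← h1]
    have h2 : toMer jEmb f * ι (toModFun jEmb b) = ι (toModFun jEmb a) := by
      have := congrArg (toMer (N := M) jEmb) hab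
      rw [map_mul, toMer, fieldHom_algToField, fieldHom_algToField] at this
      exact this
    rw [← h2]; ring
  refine ⟨G' / ι B, div_ne_zero hG'0 hιB, ?_, fun γ => ?_⟩
  · rw [div_pow, ← hmer, mul_div_assoc, div_self (pow_ne_zero _ hιB), mul_one]
  · rw [TwistCover.compGamma, HeckeJ0.act, dif_pos (det_pos_SL (γ : SL(2, ℤ)))]
    exact J0Torsion.torsionEquiv_apply_of_root hf hD hdiv (R := G' / ι B) (by
      rw [div_pow, ← hmer, mul_div_assoc, div_self (pow_ne_zero _ hιB), mul_one]) γ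

theorem divisorOf_smul {E : Type*} [Field E] [Algebra Qbar E] [IsFunctionField Qbar E]
    (g : SemilinearAut Qbar E) (f : E) :
    divisorOf (K := Qbar) (g • f) = g • divisorOf (K := Qbar) f := by
  refine Finsupp.ext fun w => ?_
  rw [SemilinearAut.divisor_smul_apply, divisorOf_apply, divisorOf_apply]
  conv_lhs => rw [← smul_inv_smul g w, SemilinearAut.ord_smul]

theorem divisorOf_div {E : Type*} [Field E] [Algebra Qbar E] [IsFunctionField Qbar E]
    {f g : E} (hf : f ≠ 0) (hg : g ≠ 0) :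
    divisorOf (K := Qbar) (f / g) = divisorOf (K := Qbar) f - divisorOf (K := Qbar) g :=
  Finsupp.ext fun w => by
    rw [Finsupp.sub_apply, divisorOf_apply, divisorOf_apply, divisorOf_apply, ord_div w hf hg]

/-- The divisor of the iterated ratio of translates of a function. -/
theorem divisorOf_iterRatio {E : Type*} [Field E] [Algebra Qbar E] [IsFunctionField Qbar E]
    (τ a m : SemilinearAut Qbar E) {X : E} (hX : X ≠ 0) :
    divisorOf (K := Qbar) (m • (τ • (τ • X / a • X) / (τ • X / a • X)) /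
        (τ • (τ • X / a • X) / (τ • X / a • X))) =
      m • (τ • (τ • divisorOf X - a • divisorOf X) - (τ • divisorOf X - a • divisorOf X)) -
        (τ • (τ • divisorOf X - a • divisorOf X) - (τ • divisorOf X - a • divisorOf X)) := by
  have hne : ∀ (s : SemilinearAut Qbar E) {z : E}, z ≠ 0 → s • z ≠ 0 :=
    fun s z hz => by simpa using hz
  have hZ : τ • X / a • X ≠ 0 := div_ne_zero (hne _ hX) (hne _ hX)
  have hY : τ • (τ • X / a • X) / (τ • X / a • X) ≠ 0 := div_ne_zero (hne _ hZ) hZ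
  rw [divisorOf_div (hne _ hY) hY, divisorOf_smul, divisorOf_div (hne _ hZ) hZ, divisorOf_smul,
    divisorOf_div (hne _ hX) (hne _ hX), divisorOf_smul, divisorOf_smul]

namespace TwistCover

variable (C : TwistCover N q)

section HasMon

variable (hq : q.Prime) (hqN : ¬ q ∣ N) (n : ℕ) [NeZero n]

/-- `μ` is the monodromy on `twistKer` of an `n`-th root of `X`. -/
def HasMon (X : ↥C.field) (μ : twistKer N q → ZMod n) : Prop :=
  ∃ R : Mer, R ≠ 0 ∧ R ^ n = C.bigToMer hq hqN (C.fieldToBig X) ∧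
    ∀ k : twistKer N q, compGamma ((k : Gamma0 (N * q)) : SL(2, ℤ)) R =
      merC (ZMod.stdAddChar (μ k)) * R

theorem merC_mul (a b : ℂ) : merC (a * b) = merC a * merC b := by
  simp only [merC, map_mul]

theorem merC_one : merC 1 = 1 := by simp only [merC, map_one]

variable {C hq hqN n}

theorem HasMon.div {X X' : ↥C.field} {μ μ' : twistKer N q → ZMod n}
    (h : C.HasMon hq hqN n X μ) (h' : C.HasMon hq hqN n X' μ') :
    C.HasMon hq hqN n (X / X') fun k => μ k - μ' k := by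
  obtain ⟨R, hR0, hR, hRk⟩ := h
  obtain ⟨R', hR0', hR', hRk'⟩ := h'
  refine ⟨R / R', div_ne_zero hR0 hR0', by rw [div_pow, hR, hR', map_div₀, map_div₀], fun k => ?_⟩
  have hu : merC (ZMod.stdAddChar (μ' k)) ≠ 0 := fun h0 => by
    have := hRk' k
    rw [h0, zero_mul, map_eq_zero] at this
    exact hR0' this
  have hs : merC (ZMod.stdAddChar (μ k)) =
      merC (ZMod.stdAddChar (μ k - μ' k)) * merC (ZMod.stdAddChar (μ' k)) := by
    rw [← merC_mul, ← AddChar.map_add_eq_mul, sub_add_cancel]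
  rw [map_div₀, hRk, hRk', hs]
  field_simp

theorem HasMon.eq_zero (hn : twistKer N q ≤ charKer N q C.chi) {X : ↥C.field}
    {μ : twistKer N q → ZMod n} (h : C.HasMon hq hqN n X μ) {c : Qbar} {g : ↥C.field}
    (hX : X = algebraMap Qbar _ c * g ^ n) : μ = 0 := by
  obtain ⟨R, hR0, hR, hRk⟩ := h
  set g' := C.bigToMer hq hqN (C.fieldToBig g) with hg'
  rw [hX, map_mul, map_mul, AlgHom.commutes, bigToMer_algebraMap, map_pow, map_pow, ← hg'] at hR
  have hg0 : g' ≠ 0 := fun h0 => hR0 (pow_eq_zero_iff (NeZero.ne n) |>.mp (by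
    rw [hR, h0, zero_pow (NeZero.ne n), mul_zero]))
  have hc0 : jEmb c ≠ 0 := fun h0 => hR0 (pow_eq_zero_iff (NeZero.ne n) |>.mp (by
    rw [hR, h0, merC, map_zero, map_zero, zero_mul]))
  obtain ⟨r, hr⟩ := IsAlgClosed.exists_pow_nat_eq (jEmb c) (Nat.pos_of_ne_zero (NeZero.ne n))
  have hr0 : merC r ≠ 0 := by
    rw [merC]
    refine (map_ne_zero_iff _ (IsFractionRing.injective Hol Mer)).mpr ((map_ne_zero_iff _
      (algebraMap ℂ Hol).injective).mpr fun h0 => hc0 ?_)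
    rw [← hr, h0, zero_pow (NeZero.ne n)]
  have hprim := Complex.isPrimitiveRoot_exp n (NeZero.ne n)
  have hζ : IsPrimitiveRoot
      ((algebraMap Hol Mer).comp (algebraMap ℂ Hol)
        (Complex.exp (2 * Real.pi * Complex.I / n))) n :=
    hprim.map_of_injective ((algebraMap Hol Mer).comp (algebraMap ℂ Hol)).injective
  have hpow : (R / (merC r * g')) ^ n = 1 := by
    rw [div_pow, hR, mul_pow, show merC r ^ n = merC (jEmb c) by
      rw [merC, merC, ← map_pow, ← map_pow, hr], div_self]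
    refine mul_ne_zero ?_ (pow_ne_zero _ hg0)
    rw [merC]
    exact (map_ne_zero_iff _ (IsFractionRing.injective Hol Mer)).mpr ((map_ne_zero_iff _
      (algebraMap ℂ Hol).injective).mpr hc0)
  obtain ⟨i, -, hi⟩ := hζ.eq_pow_of_pow_eq_one hpow
  rw [← map_pow, RingHom.comp_apply, eq_div_iff (mul_ne_zero hr0 hg0)] at hi
  funext k
  have hk : compGamma ((k : Gamma0 (N * q)) : SL(2, ℤ)) g' = g' := by
    have h1 := C.bigToMer_move hq hqN (k : Gamma0 (N * q))⁻¹ (C.fieldToBig g)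
    rw [inv_inv, C.move_of_mem_field hq hqN ((charKer N q C.chi).inv_mem (hn k.2)) g.2] at h1
    exact h1.symm
  have hfix : compGamma ((k : Gamma0 (N * q)) : SL(2, ℤ)) R = R := by
    rw [← hi]
    show compGamma _ (merC _ * (merC r * g')) = merC _ * (merC r * g')
    rw [map_mul, map_mul, compGamma_merC, compGamma_merC, hk]
  have h1 := hRk k
  rw [hfix] at h1
  have h2 : merC (ZMod.stdAddChar (μ k)) = merC 1 := by
    rw [merC_one]
    exact mul_right_cancel₀ hR0 (by rw [one_mul, ← h1])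
  refine ZMod.injective_stdAddChar ?_
  rw [Pi.zero_apply, AddChar.map_zero_eq_one]
  exact (algebraMap ℂ Hol).injective (IsFractionRing.injective Hol Mer h2)

end HasMon

section Functions

variable (hq : q.Prime) (hqN : ¬ q ∣ N) {K : Type*} [CommRing K] (ψ : (ZMod q)ˣ →* K)

/-- The pushed down function. -/
def pushRot (b : ZMod q) (f : ↥(FLevel Qbar (N * q * q))) : ↥C.field :=
  C.normRot (b.val : ℤ) f ^ Fintype.card (TwistCosets N q ψ)

theorem move_rotMap_of_twistKer (b : ℤ) (f : ↥(FLevel Qbar (N * q * q))) {k : Gamma0 (N * q)}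
    (hk : k ∈ twistKer N q) :
    C.move hq hqN k (C.rotMap b f) = C.rotMap b f := by
  have hk' := (twistKer N q).inv_mem hk
  refine C.move_rotMap hq hqN hk'.1 ?_ f
  rw [← ZMod.intCast_zmod_eq_zero_iff_dvd]
  have h2 : dMod N q k⁻¹ ^ 2 = 1 := hk'.2
  have h3 : ((((k⁻¹ : Gamma0 (N * q)) : SL(2, ℤ)) 1 1 : ℤ) : ZMod q) ^ 2 = 1 := by
    rw [← coe_dMod, ← Units.val_pow_eq_pow_val, h2, Units.val_one]
  push_cast
  linear_combination -((b : ℤ) : ZMod q) * h3

theorem hasMon_pushRot (hH : charKer N q (ψ ^ 2) = charKer N q C.chi) {n : ℕ} [NeZero n]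
    {f : ↥(FLevel Qbar (N * q * q))} {φ : Additive (Gamma0 (N * q * q)) →+ ZMod n} {R : Mer}
    (hR0 : R ≠ 0) (hR : R ^ n = toMer jEmb f)
    (hRk : ∀ γ : Gamma0 (N * q * q), compGamma (γ : SL(2, ℤ)) R =
      merC (ZMod.stdAddChar (φ (Additive.ofMul γ))) * R) (b : ZMod q) :
    C.HasMon hq hqN n (C.pushRot ψ b f)
      fun k => Module.finrank ↥C.field ↥C.big • monSum ψ φ b k := by
  classical
  let T := shiftGL q (b.val : ℤ)
  set W := Module.finrank ↥C.field ↥C.big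
  let g : TwistCosets N q ψ → Gamma0 (N * q) := fun h => ((h.out : charKer N q (ψ ^ 2)) : Gamma0 _)
  let P : ↥C.big := ∏ h, C.move hq hqN (g h)⁻¹ (C.rotMap (b.val : ℤ) f)
  have hP : ∀ δ ∈ charKer N q C.chi, C.move hq hqN δ P = P := by
    intro δ hδ
    have hδ' : δ ∈ charKer N q (ψ ^ 2) := hH ▸ hδ
    let d : TwistCosets N q ψ := QuotientGroup.mk (⟨δ, hδ'⟩⁻¹ : charKer N q (ψ ^ 2))
    rw [show P = ∏ h, C.move hq hqN (g h)⁻¹ (C.rotMap (b.val : ℤ) f) from rfl, map_prod]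
    refine Fintype.prod_equiv (Equiv.mulRight d) _ _ fun h => ?_
    rw [Equiv.coe_mulRight, ← AlgEquiv.mul_apply, ← map_mul]
    obtain ⟨k', hk'⟩ := QuotientGroup.mk_out_eq_mul
      ((twistKer N q).subgroupOf (charKer N q (ψ ^ 2))) (h.out * ⟨δ, hδ'⟩⁻¹)
    have hmk : ((h.out * ⟨δ, hδ'⟩⁻¹ : charKer N q (ψ ^ 2)) : TwistCosets N q ψ) = h * d := by
      rw [QuotientGroup.mk_mul, QuotientGroup.out_eq']
    rw [hmk] at hk'
    have hg : g (h * d) = g h * δ⁻¹ * ((k'.1 : charKer N q (ψ ^ 2)) : Gamma0 (N * q)) := by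
      show (((h * d).out : charKer N q (ψ ^ 2)) : Gamma0 (N * q)) = _
      rw [hk']
      rfl
    have hk'' : ((g h * δ⁻¹) * ((k'.1 : charKer N q (ψ ^ 2)) : Gamma0 (N * q)) *
        (g h * δ⁻¹)⁻¹)⁻¹ ∈ twistKer N q :=
      (twistKer N q).inv_mem ((inferInstance : (twistKer N q).Normal).conj_mem _
        (Subgroup.mem_subgroupOf.mp k'.2) _)
    conv_rhs => rw [hg, show (g h * δ⁻¹ * ((k'.1 : charKer N q (ψ ^ 2)) : Gamma0 (N * q)))⁻¹ =
      δ * (g h)⁻¹ * ((g h * δ⁻¹) * ((k'.1 : charKer N q (ψ ^ 2)) : Gamma0 (N * q)) *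
        (g h * δ⁻¹)⁻¹)⁻¹ by group, map_mul, AlgEquiv.mul_apply,
      C.move_rotMap_of_twistKer hq hqN _ f hk'']
  let X : ↥C.field := ⟨P, C.mem_field_of_fixed hq hqN hP⟩
  have hXP : C.fieldToBig X = P := Subtype.ext (by rw [coe_fieldToBig])
  have hnorm : ∀ h, Algebra.norm ↥C.field (C.move hq hqN (g h)⁻¹ (C.rotMap (b.val : ℤ) f)) =
      C.normRot (b.val : ℤ) f := fun h => by
    have hmem : (g h)⁻¹ ∈ charKer N q C.chi := hH ▸ (charKer N q (ψ ^ 2)).inv_mem h.out.2
    let e : ↥C.big ≃ₐ[↥C.field] ↥C.big :=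
      { (C.move hq hqN (g h)⁻¹).toRingEquiv with
        commutes' := fun a => C.move_of_mem_field hq hqN hmem (x := C.fieldToBig a) (by
          rw [coe_fieldToBig]; exact a.2) }
    exact Algebra.norm_eq_of_algEquiv e _
  have hXW : C.pushRot ψ b f = X ^ W := by
    rw [pushRot, ← Algebra.norm_algebraMap (S := ↥C.big) X, show algebraMap ↥C.field ↥C.big X = P
      from hXP, map_prod, Finset.prod_congr rfl fun h _ => hnorm h, Finset.prod_const,
      Finset.card_univ]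
  let S : Mer := ∏ h, compGamma (g h : SL(2, ℤ)) (HeckeJ0.act T R)
  have hS : S ^ n = C.bigToMer hq hqN P := by
    rw [map_prod, ← Finset.prod_pow]
    refine Finset.prod_congr rfl fun h _ => ?_
    rw [bigToMer_move, inv_inv, bigToMer_rotMap, ← map_pow, ← map_pow, hR]
  refine ⟨S ^ W, pow_ne_zero _ (Finset.prod_ne_zero_iff.mpr fun h _ =>
    (map_ne_zero _).mpr ((map_ne_zero _).mpr hR0)), ?_, fun k => ?_⟩
  · rw [← pow_mul, mul_comm W n, pow_mul, hS, hXW, map_pow, map_pow, hXP]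
  · have hk : compGamma ((k : Gamma0 (N * q)) : SL(2, ℤ)) S =
        merC (ZMod.stdAddChar (monSum ψ φ b k)) * S := by
      have h1 : merC (ZMod.stdAddChar (monSum ψ φ b k)) = ∏ h : TwistCosets N q ψ,
          merC (ZMod.stdAddChar (φ (Additive.ofMul (conjShift (b.val : ℤ) (conjRep h k))))) := by
        simp only [merC, ← map_prod]
        rw [monSum]
        congr 2
        induction (Finset.univ : Finset (TwistCosets N q ψ)) using Finset.induction_on with
        | empty => simp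
        | insert a s ha ih => rw [Finset.sum_insert ha, Finset.prod_insert ha,
            AddChar.map_add_eq_mul, ih]
      rw [map_prod, h1, ← Finset.prod_mul_distrib]
      refine Finset.prod_congr rfl fun h _ => ?_
      have hT : ((g h : Gamma0 (N * q)) : SL(2, ℤ)) * ((k : Gamma0 (N * q)) : SL(2, ℤ)) =
          ((conjRep h k : Gamma0 (N * q)) : SL(2, ℤ)) * (g h : SL(2, ℤ)) := by
        rw [← Subgroup.coe_mul, ← Subgroup.coe_mul]
        refine congrArg Subtype.val ?_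
        show g h * (k : Gamma0 (N * q)) = g h * (k : Gamma0 (N * q)) * (g h)⁻¹ * g h
        rw [inv_mul_cancel_right]
      rw [← compGamma_mul, hT, compGamma_mul]
      have h2 : compGamma ((conjRep h k : Gamma0 (N * q)) : SL(2, ℤ)) (HeckeJ0.act T R) =
          merC (ZMod.stdAddChar (φ (Additive.ofMul (conjShift (b.val : ℤ) (conjRep h k))))) *
            HeckeJ0.act T R := by
        rw [compGamma, ← HeckeJ0.act_mul (det_pos_shiftGL _) (det_pos_SL _),
          shiftGL_mul_twistKer, HeckeJ0.act_mul (det_pos_SL _) (det_pos_shiftGL _)]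
        show HeckeJ0.act T (compGamma (conjShift (b.val : ℤ) (conjRep h k) : SL(2, ℤ)) R) = _
        rw [hRk, map_mul, act_merC (det_pos_shiftGL _)]
      rw [h2, map_mul, compGamma_merC]
    rw [map_pow, hk, mul_pow, merC, merC, ← map_pow, ← map_pow, AddChar.map_nsmul_eq_pow]

include hq hqN in
theorem pushRot_ne_zero (b : ZMod q) {f : ↥(FLevel Qbar (N * q * q))} (hf : f ≠ 0) :
    C.pushRot ψ b f ≠ 0 :=
  pow_ne_zero _ (C.normRot_ne_zero hq hqN _ hf)

theorem moveField_pushRot {γ : Gamma0 (N * q)}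
    (hγ : ((γ⁻¹ : Gamma0 (N * q)) : SL(2, ℤ)) ∈ Gamma0 (N * q * q)) {u : ZMod q}
    (hu : ((((γ⁻¹ : Gamma0 (N * q)) : SL(2, ℤ)) 1 1 : ℤ) : ZMod q) = u) (b : ZMod q)
    (f : ↥(FLevel Qbar (N * q * q))) :
    C.moveField hq hqN γ (C.pushRot ψ b f) = C.pushRot ψ (u * u * b) f := by
  rw [pushRot, pushRot, map_pow, C.moveField_normRot hq hqN hγ (c' := ((u * u * b).val : ℤ)) ?_ f]
  rw [← ZMod.intCast_zmod_eq_zero_iff_dvd]
  simp only [Int.cast_sub, Int.cast_mul, Int.cast_natCast]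
  rw [ZMod.natCast_zmod_val, ZMod.natCast_zmod_val, hu]
  ring

/-- Inertia on the pushed down functions. -/
theorem smul_pushRot {σ : Qbar ≃ₐ[ℚ] Qbar} {κ : (ZMod q)ˣ}
    (hy : coeffMap (σ : Qbar →+* Qbar) C.y = C.y)
    (hy' : coeffMap (σ.symm : Qbar →+* Qbar) C.y = C.y)
    (hκ : σ (zetaQ q) = zetaQ q ^ (κ : ZMod q).val)
    (hκ' : ∃ k : ℕ, σ.symm (zetaQ q) = zetaQ q ^ k) (b : ZMod q)
    (f : ↥(FLevel Qbar (N * q * q))) :
    semilinearOf C.field σ (fun _ h => C.coeffMap_mem_field hy h)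
        (fun _ h => C.coeffMap_mem_field hy' h) • C.pushRot ψ b f =
      C.pushRot ψ (κ * b) (arithmeticGalois (modularFunctionFieldFull (N * q * q)) σ • f) := by
  rw [pushRot, pushRot, smul_pow']
  refine congrArg (· ^ _) ?_
  let e₂ := semilinearOf C.big σ (fun _ h => C.coeffMap_mem_big hy ⟨_, hκ⟩ h)
    (fun _ h => C.coeffMap_mem_big hy' hκ' h)
  have h1 : SemilinearAut.toRingAut e₂ (C.rotMap (b.val : ℤ) f) =
      C.rotMap (((κ : ZMod q) * b).val : ℤ)
        (arithmeticGalois (modularFunctionFieldFull (N * q * q)) σ • f) := by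
    refine Subtype.ext (C.coeffMap_rotMap ?_ f)
    rw [zpow_natCast, map_pow, hκ, ← pow_mul, ← zpow_natCast]
    refine zetaQ_zpow_eq ?_
    rw [← ZMod.intCast_zmod_eq_zero_iff_dvd]
    push_cast
    rw [ZMod.natCast_zmod_val, ZMod.natCast_zmod_val, ZMod.natCast_zmod_val, sub_self]
  rw [normRot, normRot, ← h1, SemilinearAut.smul_def]
  refine C.norm_equivariant (fun a => Subtype.ext ?_) _
  rw [coe_fieldToBig]
  show coeffMap (σ : Qbar →+* Qbar) ((a : ↥C.field) : LaurentSeries Qbar) =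
    coeffMap (σ : Qbar →+* Qbar) ((C.fieldToBig a : ↥C.big) : LaurentSeries Qbar)
  rw [coe_fieldToBig]

end Functions

section Torsion

variable (hq : q.Prime) (hqN : ¬ q ∣ N) {K : Type*} [CommRing K] (ψ : (ZMod q)ˣ →* K)
  (hC : C.Relation) (hH : charKer N q (ψ ^ 2) = charKer N q C.chi)

/-- The alternating sum at `b`. -/
def altSum {A : Type*} [AddCommGroup A] (κ : (ZMod q)ˣ)
    (φ₀ φ₁ φ₂ : Additive (Gamma0 (N * q * q)) →+ A) (b : ZMod q) (k : twistKer N q) : A :=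
  monSum ψ φ₂ (κ * (κ * b)) k - monSum ψ φ₁ (κ * (κ * (κ * b))) k -
    (monSum ψ φ₁ (κ * b) k - monSum ψ φ₀ (κ * (κ * b)) k)

include hq hqN hC hH in
/-- The relation on the monodromy of a torsion point. -/
theorem altSum_torsion {A : ValuationSubring Qbar} (hA : A.LiesOverPrime q)
    {σ : Qbar ≃ₐ[ℚ] Qbar} (hσ : σ ∈ A.inertiaSubgroupIn ℚ) {κ : (ZMod q)ˣ}
    (hκ : ∀ μ : Qbar, μ ^ q = 1 → σ μ = μ ^ (κ : ZMod q).val) {n : ℕ} [NeZero n]
    (hn : n.Coprime q) (x : Pic0.torsion Qbar (modularFunctionFieldBar (N * q * q)) n)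
    (d : (ZMod q)ˣ) (b : ZMod q) (k : twistKer N q) :
    Module.finrank ↥C.field ↥C.big •
      (altSum ψ κ (J0Torsion.torsionEquiv (N * q * q) n x).1
          (J0Torsion.torsionEquiv (N * q * q) n (JZero.torsionGaloisRep (N * q * q) n σ x)).1
          (J0Torsion.torsionEquiv (N * q * q) n (JZero.torsionGaloisRep (N * q * q) n σ
            (JZero.torsionGaloisRep (N * q * q) n σ x))).1 (d * d * b) k -
        altSum ψ κ (J0Torsion.torsionEquiv (N * q * q) n x).1
          (J0Torsion.torsionEquiv (N * q * q) n (JZero.torsionGaloisRep (N * q * q) n σ x)).1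
          (J0Torsion.torsionEquiv (N * q * q) n (JZero.torsionGaloisRep (N * q * q) n σ
            (JZero.torsionGaloisRep (N * q * q) n σ x))).1 b k) = 0 := by
  have := C.isFunctionField_field hq hqN
  let x₁ := JZero.torsionGaloisRep (N * q * q) n σ x
  have hx₁ : x₁ = JZero.torsionGaloisRep (N * q * q) n σ x := rfl
  let x₂ := JZero.torsionGaloisRep (N * q * q) n σ x₁
  have hx₂ : x₂ = JZero.torsionGaloisRep (N * q * q) n σ x₁ := rfl
  let gal := arithmeticGalois (modularFunctionFieldFull (N * q * q)) σ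
  have hgal : gal = arithmeticGalois (modularFunctionFieldFull (N * q * q)) σ := rfl
  -- representatives
  obtain ⟨D, f, hD, hf, hdiv⟩ := J0Torsion.exists_div_of_mem_torsion x.2
  have hstep : ∀ {y : Pic0.torsion Qbar (modularFunctionFieldBar (N * q * q)) n}
      {D : Divisor.degZero (K := Qbar) (F := ↥(FLevel Qbar (N * q * q)))}
      {f : ↥(FLevel Qbar (N * q * q))}, Pic0.mk D = (y : Pic0 Qbar _) → f ≠ 0 →
      (∀ P : Place Qbar _, (n : ℤ) * (D : Divisor Qbar _) P = P.ord f) →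
      Pic0.mk (SemilinearAut.degZeroSMulHom gal D) =
          ((JZero.torsionGaloisRep (N * q * q) n σ y : _) : Pic0 Qbar _) ∧ gal • f ≠ 0 ∧
        ∀ P : Place Qbar _,
          (n : ℤ) * ((SemilinearAut.degZeroSMulHom gal D : Divisor.degZero) : Divisor Qbar _) P =
            P.ord (gal • f) := by
    intro y D f hD hf hdiv
    refine ⟨?_, by simpa using hf, fun P => ?_⟩
    · rw [JZero.coe_torsionGaloisRep_apply, ← hD]
      rfl
    · rw [SemilinearAut.coe_degZeroSMulHom, SemilinearAut.divisor_smul_apply, hdiv]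
      conv_rhs => rw [← smul_inv_smul gal P, SemilinearAut.ord_smul]
  obtain ⟨hD₁, hf₁, hdiv₁⟩ := hstep hD hf hdiv
  obtain ⟨hD₂, hf₂, hdiv₂⟩ := hstep hD₁ hf₁ hdiv₁
  obtain ⟨R, hR0, hR, hRk⟩ := exists_root x hf hD hdiv
  obtain ⟨R₁, hR₁0, hR₁, hR₁k⟩ := exists_root x₁ hf₁ hD₁ hdiv₁
  obtain ⟨R₂, hR₂0, hR₂, hR₂k⟩ := exists_root x₂ hf₂ hD₂ hdiv₂
  -- the automorphisms
  have hy := C.inertia_fix A hA σ hσ
  have hy' : coeffMap (σ.symm : Qbar →+* Qbar) C.y = C.y :=
    C.inertia_fix A hA σ⁻¹ ((A.inertiaSubgroupIn ℚ).inv_mem hσ)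
  have hz := hκ (zetaQ q) zetaQ_pow_q
  have hz' : ∃ j : ℕ, σ.symm (zetaQ q) = zetaQ q ^ j := by
    refine ⟨((κ⁻¹ : (ZMod q)ˣ) : ZMod q).val, σ.injective ?_⟩
    rw [AlgEquiv.apply_symm_apply, map_pow, hz, ← pow_mul, ← zpow_natCast]
    conv_lhs => rw [← zpow_one (zetaQ q)]
    refine zetaQ_zpow_eq ?_
    rw [← ZMod.intCast_zmod_eq_zero_iff_dvd]
    push_cast
    rw [ZMod.natCast_zmod_val, ZMod.natCast_zmod_val, Units.mul_inv, sub_self]
  let τ := semilinearOf C.field σ (fun _ h => C.coeffMap_mem_field hy h)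
    (fun _ h => C.coeffMap_mem_field hy' h)
  obtain ⟨δ, hδ, hδ11⟩ := exists_gamma0_lowerRight (M := N * q * q) (dvd_mul_left q (N * q)) κ
  obtain ⟨ε, hε, hε11⟩ := exists_gamma0_lowerRight (M := N * q * q) (dvd_mul_left q (N * q)) d
  have hle : ∀ {γ : SL(2, ℤ)}, γ ∈ Gamma0 (N * q * q) → γ ∈ Gamma0 (N * q) := fun {γ} h =>
    (HeckeJ0.mem_Gamma0_iff_dvd _).mpr ((Int.natCast_dvd_natCast.mpr (dvd_mul_right _ q)).trans
      ((HeckeJ0.mem_Gamma0_iff_dvd _).mp h))
  let γa : Gamma0 (N * q) := (⟨δ, hle hδ⟩ : Gamma0 (N * q))⁻¹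
  let γm : Gamma0 (N * q) := (⟨ε, hle hε⟩ : Gamma0 (N * q))⁻¹
  have hγa : ((γa⁻¹ : Gamma0 (N * q)) : SL(2, ℤ)) = δ := by simp [γa]
  have hγm : ((γm⁻¹ : Gamma0 (N * q)) : SL(2, ℤ)) = ε := by simp [γm]
  let a := C.moveField hq hqN γa
  let m := C.moveField hq hqN γm
  have hτp : ∀ (b : ZMod q) (f : ↥(FLevel Qbar (N * q * q))),
      τ • C.pushRot ψ b f = C.pushRot ψ (κ * b) (gal • f) :=
    fun b f => C.smul_pushRot ψ hy hy' hz hz' b f
  have hap : ∀ (b : ZMod q) (f : ↥(FLevel Qbar (N * q * q))),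
      SemilinearAut.ofAlgAut a • C.pushRot ψ b f = C.pushRot ψ (κ * κ * b) f := fun b f => by
    rw [SemilinearAut.ofAlgAut_smul]
    exact C.moveField_pushRot hq hqN ψ (hγa.symm ▸ hδ) (by rw [hγa]; exact hδ11) b f
  have hmp : ∀ (b : ZMod q) (f : ↥(FLevel Qbar (N * q * q))),
      SemilinearAut.ofAlgAut m • C.pushRot ψ b f = C.pushRot ψ (d * d * b) f := fun b f => by
    rw [SemilinearAut.ofAlgAut_smul]
    exact C.moveField_pushRot hq hqN ψ (hγm.symm ▸ hε) (by rw [hγm]; exact hε11) b f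
  -- the divisor and the relation
  let X₀ := C.pushRot ψ b f
  have hX₀ : X₀ = C.pushRot ψ b f := rfl
  have hdvd : ∀ v : Place Qbar ↥C.field, (n : ℤ) ∣ v.ord X₀ := fun v => by
    rw [hX₀, pushRot, ord_pow]
    exact dvd_mul_of_dvd_right (C.dvd_ord_normRot hq hqN _ hf (fun P => ⟨_, (hdiv P).symm⟩) v) _
  set E : Divisor Qbar ↥C.field :=
    (divisorOf (K := Qbar) X₀).mapRange (fun j => j / (n : ℤ)) (Int.zero_ediv _) with hE
  have hnE : (n : ℤ) • E = divisorOf (K := Qbar) X₀ := Finsupp.ext fun v => by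
    rw [Finsupp.smul_apply, smul_eq_mul, hE, Finsupp.mapRange_apply, divisorOf_apply,
      Int.mul_ediv_cancel' (hdvd v)]
  have hdeg : Divisor.degree E = 0 := by
    have h := degree_divisorOf (K := Qbar) X₀
    rw [← hnE, map_zsmul, smul_eq_mul] at h
    exact (mul_eq_zero.mp h).resolve_left (Int.natCast_ne_zero.mpr (NeZero.ne n))
  obtain ⟨g, hg0, hg⟩ := hC A hA σ hσ τ (fun _ => rfl) κ hκ a m
    (C.isOverBase_moveField hq hqN γa) (C.isOverBase_moveField hq hqN γm) (C.chiG γa⁻¹)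
    (by
      show jEmb (C.chiQ (dMod N q γa⁻¹)) = _
      rw [C.jEmb_chiQ]
      exact congrArg C.chi (Units.ext (by rw [coe_dMod, hγa, hδ11])))
    (C.moveField_yEl hq hqN γa) n hn E hdeg
    ⟨X₀, C.pushRot_ne_zero hq hqN ψ b hf, fun v => by rw [hnE, divisorOf_apply]⟩
  -- the function
  let Z := τ • X₀ / SemilinearAut.ofAlgAut a • X₀
  have hZ : Z = τ • X₀ / SemilinearAut.ofAlgAut a • X₀ := rfl
  let Y := τ • Z / Z
  have hY : Y = τ • Z / Z := rfl
  let G := SemilinearAut.ofAlgAut m • Y / Y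
  have hG : G = SemilinearAut.ofAlgAut m • Y / Y := rfl
  have hX0 : X₀ ≠ 0 := C.pushRot_ne_zero hq hqN ψ b hf
  have hne : ∀ (s : SemilinearAut Qbar ↥C.field) {z : ↥C.field}, z ≠ 0 → s • z ≠ 0 :=
    fun s z hz => by simpa using hz
  have hZ0 : Z ≠ 0 := div_ne_zero (hne _ hX0) (hne _ hX0)
  have hY0 : Y ≠ 0 := div_ne_zero (hne _ hZ0) hZ0
  have hG0 : G ≠ 0 := div_ne_zero (hne _ hY0) hY0
  have hGdiv : divisorOf (K := Qbar) G = (n : ℤ) • divisorOf (K := Qbar) g := by
    rw [show divisorOf (K := Qbar) g = SemilinearAut.ofAlgAut m •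
        (τ • (τ • E - SemilinearAut.ofAlgAut a • E) - (τ • E - SemilinearAut.ofAlgAut a • E)) -
        (τ • (τ • E - SemilinearAut.ofAlgAut a • E) - (τ • E - SemilinearAut.ofAlgAut a • E)) from
      Finsupp.ext fun v => by rw [divisorOf_apply, hg v]]
    refine (divisorOf_iterRatio τ (SemilinearAut.ofAlgAut a) (SemilinearAut.ofAlgAut m) hX0).trans ?_
    simp only [← hnE, smul_sub, smul_comm (n : ℤ)]
  obtain ⟨c, hc⟩ := exists_algebraMap_eq_of_forall_ord_nonneg (K := Qbar) (f := G / g ^ n)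
    fun v => by
      rw [ord_div v hG0 (pow_ne_zero _ hg0), ord_pow, ← divisorOf_apply G v, hGdiv,
        Finsupp.smul_apply, divisorOf_apply, smul_eq_mul, sub_self]
  rw [div_eq_iff (pow_ne_zero _ hg0)] at hc
  -- its monodromy
  have hM : ∀ (b : ZMod q) (i : Pic0.torsion Qbar (modularFunctionFieldBar (N * q * q)) n)
      (f : ↥(FLevel Qbar (N * q * q))),
      (∃ R : Mer, R ≠ 0 ∧ R ^ n = toMer jEmb f ∧ ∀ γ : Gamma0 (N * q * q),
        compGamma (γ : SL(2, ℤ)) R = merC (ZMod.stdAddChar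
          ((J0Torsion.torsionEquiv (N * q * q) n i).1 (Additive.ofMul γ))) * R) →
      C.HasMon hq hqN n (C.pushRot ψ b f) fun k => Module.finrank ↥C.field ↥C.big •
        monSum ψ (J0Torsion.torsionEquiv (N * q * q) n i).1 b k :=
    fun b i f ⟨R, h0, h1, h2⟩ => C.hasMon_pushRot hq hqN ψ hH h0 h1 h2 b
  have e₀ : ∀ b, _ := fun b => hM b x f ⟨R, hR0, hR, hRk⟩
  have e₁ : ∀ b, _ := fun b => hM b x₁ (gal • f) ⟨R₁, hR₁0, hR₁, hR₁k⟩
  have e₂ : ∀ b, _ := fun b => hM b x₂ (gal • gal • f) ⟨R₂, hR₂0, hR₂, hR₂k⟩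
  have key := fun (μ : twistKer N q → ZMod n) (h : C.HasMon hq hqN n G μ) =>
    congrFun (h.eq_zero (twistKer_le_charKer_of_neg hq C.chi C.chi_neg_one) hc) k
  simp only [hG, hY, hZ, hX₀, smul_div₀', hτp, hap, hmp] at key
  have hz0 := key _ ((((e₂ _).div (e₁ _)).div ((e₁ _).div (e₀ _))).div
    (((e₂ _).div (e₁ _)).div ((e₁ _).div (e₀ _))))
  simp only [Pi.zero_apply] at hz0
  simp only [altSum, smul_sub]
  simp only [mul_assoc, mul_comm (d : ZMod q), mul_left_comm (d : ZMod q)] at hz0 ⊢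
  exact hz0

end Torsion

end TwistCover

section Lattice

/-- The inner sum on coordinate vectors. -/
def monLam {R : Type*} [CommRing R] {K : Type*} [CommRing K] (ψ : (ZMod q)ˣ →* K) (b : ZMod q)
    (k : twistKer N q) : (Fin (HeckeJ0.rk (N * q * q)) → R) →ₗ[R] R where
  toFun u := monSum ψ (HeckeJ0.frickeTwist (HeckeJ0.ofCoords (N * q * q) u)) b k
  map_add' u u' := by
    simp only [monSum, ← Finset.sum_add_distrib]
    refine Finset.sum_congr rfl fun h _ => ?_
    show HeckeJ0.ofCoords (N * q * q) (u + u') _ =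
      HeckeJ0.ofCoords (N * q * q) u _ + HeckeJ0.ofCoords (N * q * q) u' _
    rw [HeckeJ0.ofCoords_eq_sum, HeckeJ0.ofCoords_eq_sum, HeckeJ0.ofCoords_eq_sum,
      ← Finset.sum_add_distrib]
    exact Finset.sum_congr rfl fun i _ => by simp only [Pi.add_apply]; ring
  map_smul' c u := by
    simp only [monSum, RingHom.id_apply, smul_eq_mul, Finset.mul_sum]
    refine Finset.sum_congr rfl fun h _ => ?_
    show HeckeJ0.ofCoords (N * q * q) (c • u) _ = c * HeckeJ0.ofCoords (N * q * q) u _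
    rw [HeckeJ0.ofCoords_eq_sum, HeckeJ0.ofCoords_eq_sum, Finset.mul_sum]
    exact Finset.sum_congr rfl fun i _ => by simp only [Pi.smul_apply, smul_eq_mul]; ring

theorem map_monLam {R R' : Type*} [CommRing R] [CommRing R'] {K : Type*} [CommRing K]
    (f : R →+* R') (ψ : (ZMod q)ˣ →* K) (b : ZMod q) (k : twistKer N q)
    (u : Fin (HeckeJ0.rk (N * q * q)) → R) :
    f (monLam ψ b k u) = monLam ψ b k (f ∘ u) := by
  show f (∑ _h : TwistCosets N q ψ, _) = ∑ _h : TwistCosets N q ψ, _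
  rw [map_sum]
  refine Finset.sum_congr rfl fun h _ => ?_
  exact DFunLike.congr_fun (HeckeJ0.map_ofCoords (N := N * q * q) f.toAddMonoidHom u) _

variable {p : ℕ} [Fact p.Prime]

/-- The alternating sum as a functional. -/
def altLam {R : Type*} [CommRing R] {K : Type*} [CommRing K] (ψ : (ZMod q)ˣ →* K)
    (κ : (ZMod q)ˣ) (G : Module.End R (Fin (HeckeJ0.rk (N * q * q)) → R)) (b : ZMod q)
    (k : twistKer N q) : (Fin (HeckeJ0.rk (N * q * q)) → R) →ₗ[R] R :=
  (monLam ψ (κ * (κ * b)) k).comp (G * G) - (monLam ψ (κ * (κ * (κ * b))) k).comp G -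
    ((monLam ψ (κ * b) k).comp G - monLam ψ (κ * (κ * b)) k)

theorem map_altLam {R R' : Type*} [CommRing R] [CommRing R'] {K : Type*} [CommRing K]
    (f : R →+* R') (ψ : (ZMod q)ˣ →* K) (κ : (ZMod q)ˣ)
    {G : Module.End R (Fin (HeckeJ0.rk (N * q * q)) → R)}
    {G' : Module.End R' (Fin (HeckeJ0.rk (N * q * q)) → R')}
    (hG : ∀ u, f ∘ G u = G' (f ∘ u)) (b : ZMod q) (k : twistKer N q)
    (u : Fin (HeckeJ0.rk (N * q * q)) → R) :
    f (altLam ψ κ G b k u) = altLam ψ κ G' b k (f ∘ u) := by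
  simp only [altLam, LinearMap.sub_apply, LinearMap.comp_apply, Module.End.mul_apply, map_sub,
    map_monLam, hG]

theorem altLam_padic (C : TwistCover N q) (hq : q.Prime) (hqN : ¬ q ∣ N) (hqp : q ≠ p)
    {K : Type*} [CommRing K] (ψ : (ZMod q)ˣ →* K) (hC : C.Relation)
    (hH : charKer N q (ψ ^ 2) = charKer N q C.chi) {A : ValuationSubring Qbar}
    (hA : A.LiesOverPrime q) {σ : Qbar ≃ₐ[ℚ] Qbar} (hσ : σ ∈ A.inertiaSubgroupIn ℚ)
    {κ : (ZMod q)ˣ} (hκ : ∀ μ : Qbar, μ ^ q = 1 → σ μ = μ ^ (κ : ZMod q).val) (d : (ZMod q)ˣ)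
    (b : ZMod q) (k : twistKer N q) (u : Fin (HeckeJ0.rk (N * q * q)) → ℤ_[p]) :
    altLam ψ κ (galEnd (HeckeJ0.torsionHeckeModel (N * q * q) p) (RingHom.id _) σ) (d * d * b)
        k u -
      altLam ψ κ (galEnd (HeckeJ0.torsionHeckeModel (N * q * q) p) (RingHom.id _) σ) b k u = 0 := by
  have := C.finite_over_field hq hqN
  suffices h : Module.finrank ↥C.field ↥C.big •
      (altLam ψ κ (galEnd (HeckeJ0.torsionHeckeModel (N * q * q) p) (RingHom.id _) σ) (d * d * b)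
        k u -
      altLam ψ κ (galEnd (HeckeJ0.torsionHeckeModel (N * q * q) p) (RingHom.id _) σ) b k u) = 0 by
    rw [nsmul_eq_mul] at h
    exact (mul_eq_zero.mp h).resolve_left
      (Nat.cast_ne_zero.mpr (Module.finrank_pos (R := ↥C.field) (M := ↥C.big)).ne')
  refine PadicInt.ext_of_toZModPow.mp fun i => ?_
  have : NeZero (p ^ i) := ⟨pow_ne_zero i (Fact.out : p.Prime).ne_zero⟩
  let M := HeckeJ0.torsionHeckeModel (N * q * q) p
  let r := PadicInt.toZModPow (p := p) i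
  let G : Module.End (ZMod (p ^ i)) (Fin (HeckeJ0.rk (N * q * q)) → ZMod (p ^ i)) :=
    Matrix.toLinAlgEquiv' (EigenRep.levelMat M i σ)
  have hG : ∀ v, r ∘ galEnd M (RingHom.id _) σ v = G (r ∘ v) := fun v => funext fun j => by
    show r ((((galMat M σ).map (RingHom.id ℤ_[p])).mulVec v) j) =
      ((EigenRep.levelMat M i σ).mulVec (r ∘ v)) j
    rw [RingHom.map_mulVec, ← EigenRep.matMod_galMat]
    rfl
  let x := (M.e i).symm (r ∘ u)
  have hx : M.e i x = r ∘ u := (M.e i).apply_symm_apply _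
  have hGx : ∀ y, G (M.e i y) = M.e i (JZero.torsionGaloisRep (N * q * q) (p ^ i) σ y) :=
    fun y => EigenRep.levelMat_mulVec M i σ y
  have hφ : ∀ y : Pic0.torsion Qbar (modularFunctionFieldBar (N * q * q)) (p ^ i),
      HeckeJ0.frickeTwist (HeckeJ0.ofCoords (N * q * q) (M.e i y)) =
        (J0Torsion.torsionEquiv (N * q * q) (p ^ i) y).1 := fun y =>
    congrArg Subtype.val ((HeckeJ0.twCoordsEquiv (p ^ i)).symm_apply_apply
      (J0Torsion.torsionEquiv (N * q * q) (p ^ i) y))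
  rw [map_zero, map_nsmul, map_sub, map_altLam r ψ κ hG, map_altLam r ψ κ hG, ← hx]
  have h := C.altSum_torsion hq hqN ψ hC hH hA hσ hκ
    (((Nat.coprime_primes (Fact.out : p.Prime) hq).mpr hqp.symm).pow_left i) x d b k
  simp only [TwistCover.altSum, ← hφ, ← hGx] at h
  exact h

/-- The relation of the twisting functional with inertia. -/
theorem twistMonodromy (h5 : 5 ≤ q) (h36 : 36 ∣ N) (hq : q.Prime) (hqp : q ≠ p)
    (hqN : ¬ q ∣ N) : TwistMonodromy N q p := by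
  intro K _ _ _ ι ψ hψ A hA σ hσ e he k w
  have : Fact q.Prime := ⟨hq⟩
  set ψ₁ : (ZMod q)ˣ →* K := (Units.coeHom K).comp ψ
  obtain ⟨g, hg⟩ := IsCyclic.exists_generator (α := (ZMod q)ˣ)
  have hord : ∀ {R : Type} [CommMonoid R] (χ : (ZMod q)ˣ →* R) (i : ℤ),
      χ (g ^ i) = 1 ↔ (orderOf χ : ℤ) ∣ i := by
    intro R _ χ i
    have h1 : orderOf χ = orderOf (χ.toHomUnits g) := by
      refine orderOf_eq_orderOf_iff.mpr fun j => ?_
      refine ⟨fun h => Units.ext (by simpa using DFunLike.congr_fun h g), fun h => ?_⟩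
      refine MonoidHom.ext fun u => ?_
      obtain ⟨j', rfl⟩ := Subgroup.mem_zpowers_iff.mp (hg u)
      rw [MonoidHom.pow_apply, MonoidHom.one_apply, ← MonoidHom.coe_toHomUnits χ,
        ← Units.val_pow_eq_pow_val, map_zpow, ← zpow_natCast, ← zpow_mul, mul_comm, zpow_mul,
        zpow_natCast, h, one_zpow, Units.val_one]
    rw [h1, orderOf_dvd_iff_zpow_eq_one, ← map_zpow, Units.ext_iff, MonoidHom.coe_toHomUnits,
      Units.val_one]
  have hψ₂ : ψ₁ ^ 2 ≠ 1 := fun h => hψ (MonoidHom.ext fun u => Units.ext (by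
    simpa [ψ₁, Units.val_pow_eq_pow_val] using DFunLike.congr_fun h u))
  have hpow : (ψ₁ ^ 2) ^ ((q - 1) / 2) = 1 := by
    refine MonoidHom.ext fun u => ?_
    rw [← pow_mul, Nat.mul_div_cancel' (hq.even_sub_one (by omega)).two_dvd, MonoidHom.pow_apply,
      ← map_pow, ZMod.units_pow_card_sub_one_eq_one, map_one, MonoidHom.one_apply]
  have hd1 : 1 < orderOf (ψ₁ ^ 2) := by
    have h0 : orderOf (ψ₁ ^ 2) ≠ 0 := (orderOf_pos_iff.mpr (isOfFinOrder_iff_pow_eq_one.mpr
      ⟨(q - 1) / 2, by omega, hpow⟩)).ne'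
    have h1 : orderOf (ψ₁ ^ 2) ≠ 1 := fun h => hψ₂ (orderOf_eq_one_iff.mp h)
    omega
  obtain ⟨C, -, hCord, hC⟩ := exists_twistCover_relation hq h5 h36 hqN
    (orderOf_dvd_of_pow_eq_one hpow) hd1
  have hH : charKer N q (ψ₁ ^ 2) = charKer N q C.chi := by
    ext γ
    show (ψ₁ ^ 2) (dMod N q γ) = 1 ↔ C.chi (dMod N q γ) = 1
    obtain ⟨i, hi⟩ := Subgroup.mem_zpowers_iff.mp (hg (dMod N q γ))
    rw [← hi, hord, hord, hCord]
  let G := galEnd (HeckeJ0.torsionHeckeModel (N * q * q) p) ι σ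
  have hB : ∀ (d : (ZMod q)ˣ) (b : ZMod q),
      altLam ψ₁ e G (d * d * b) k - altLam ψ₁ e G b k = 0 := by
    intro d b
    refine LinearMap.pi_ext' fun j => LinearMap.ext_ring ?_
    have h := congrArg ι (altLam_padic C hq hqN hqp ψ₁ hC hH hA hσ he d b k (Pi.single j 1))
    have hG : ∀ u, ι ∘ galEnd (HeckeJ0.torsionHeckeModel (N * q * q) p) (RingHom.id _) σ u =
        G (ι ∘ u) := fun u => funext fun r => by
      show ι ((((galMat _ σ).map (RingHom.id ℤ_[p])).mulVec u) r) =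
        (((galMat _ σ).map ι).mulVec (ι ∘ u)) r
      rw [RingHom.map_mulVec, Matrix.map_map]
      rfl
    have hs : ι ∘ (Pi.single j 1 : Fin (HeckeJ0.rk (N * q * q)) → ℤ_[p]) = Pi.single j 1 :=
      funext fun r => by
        rw [Function.comp_apply, Pi.single_apply, Pi.single_apply]
        split_ifs <;> simp
    rw [map_sub, map_zero, map_altLam ι ψ₁ e hG, map_altLam ι ψ₁ e hG, hs] at h
    simpa using h
  obtain ⟨d, hd⟩ : ∃ d, ψ d ^ 2 ≠ 1 := by
    by_contra h
    push Not at h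
    exact hψ (MonoidHom.ext fun u => h u)
  let S : (ZMod q)ˣ → K := fun u => ((ψ u : Kˣ) : K)
  let Λ : (Fin (HeckeJ0.rk (N * q * q)) → K) → K := fun v =>
    twistFun ψ (HeckeJ0.frickeTwist (HeckeJ0.ofCoords (N * q * q) v)) k
  have hsum : ∀ (c : (ZMod q)ˣ) (v : Fin (HeckeJ0.rk (N * q * q)) → K),
      ∑ b : (ZMod q)ˣ, (((ψ b)⁻¹ : Kˣ) : K) * monLam ψ₁ ((c : ZMod q) * b) k v = S c * Λ v := by
    intro c v
    rw [show Λ v = ∑ b : (ZMod q)ˣ, (((ψ b)⁻¹ : Kˣ) : K) * monLam ψ₁ (b : ZMod q) k v from rfl,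
      Finset.mul_sum]
    refine Fintype.sum_equiv (Equiv.mulLeft c) _ _ fun b => ?_
    simp only [S, Equiv.coe_mulLeft, map_mul, mul_inv_rev, Units.val_mul]
    linear_combination (-(((ψ b)⁻¹ : Kˣ) : K) * monLam ψ₁ ((c : ZMod q) * b) k v) *
      Units.mul_inv (ψ c)
  have hsum2 : ∀ (x c : (ZMod q)ˣ) (v : Fin (HeckeJ0.rk (N * q * q)) → K),
      ∑ b : (ZMod q)ˣ, (((ψ b)⁻¹ : Kˣ) : K) * monLam ψ₁ ((x : ZMod q) * ((c : ZMod q) * b)) k v =
        S x * (S c * Λ v) := by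
    intro x c v
    have h := hsum (x * c) v
    simp only [S, map_mul, Units.val_mul, mul_assoc] at h ⊢
    exact h
  have hA : ∀ c : (ZMod q)ˣ,
      ∑ b : (ZMod q)ˣ, (((ψ b)⁻¹ : Kˣ) : K) * altLam ψ₁ e G ((c : ZMod q) * b) k w =
        S (e * e) * (S c * Λ (G (G w))) - S (e * e * e) * (S c * Λ (G w)) -
          (S e * (S c * Λ (G w)) - S (e * e) * (S c * Λ w)) := by
    intro c
    have h2 : ∀ y : ZMod q, (e : ZMod q) * ((e : ZMod q) * y) = ((e * e : (ZMod q)ˣ) : ZMod q) * y :=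
      fun y => by rw [Units.val_mul, mul_assoc]
    have h3 : ∀ y : ZMod q, (e : ZMod q) * ((e : ZMod q) * ((e : ZMod q) * y)) =
        ((e * e * e : (ZMod q)ˣ) : ZMod q) * y :=
      fun y => by rw [Units.val_mul, Units.val_mul, mul_assoc, mul_assoc]
    show ∑ b : (ZMod q)ˣ, (((ψ b)⁻¹ : Kˣ) : K) *
        ((monLam ψ₁ ((e : ZMod q) * ((e : ZMod q) * ((c : ZMod q) * b))) k (G (G w)) -
          monLam ψ₁ ((e : ZMod q) * ((e : ZMod q) * ((e : ZMod q) * ((c : ZMod q) * b)))) k (G w)) -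
        (monLam ψ₁ ((e : ZMod q) * ((c : ZMod q) * b)) k (G w) -
          monLam ψ₁ ((e : ZMod q) * ((e : ZMod q) * ((c : ZMod q) * b))) k w)) = _
    simp only [h3]
    simp only [h2, mul_sub, Finset.sum_sub_distrib, hsum2]
  have hT := Finset.sum_eq_zero (s := (Finset.univ : Finset (ZMod q)ˣ))
    (f := fun b : (ZMod q)ˣ => (((ψ b)⁻¹ : Kˣ) : K) *
      (altLam ψ₁ e G ((d : ZMod q) * d * b) k - altLam ψ₁ e G (b : ZMod q) k) w)
    fun b _ => by rw [hB, LinearMap.zero_apply, mul_zero]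
  simp only [LinearMap.sub_apply, mul_sub, Finset.sum_sub_distrib] at hT
  have hd2 := hA (d * d)
  have h1 := hA 1
  simp only [Units.val_mul] at hd2
  simp only [Units.val_one, one_mul] at h1
  rw [hd2, h1] at hT
  simp only [S, map_mul, map_one, Units.val_mul, Units.val_one] at hT
  change Λ (G (G w)) - _ * Λ (G w) + Λ w = 0
  refine mul_left_cancel₀ (mul_ne_zero (sub_ne_zero.mpr (fun h => hd (Units.ext h)))
    (pow_ne_zero 2 (Units.ne_zero (ψ e))) : (((ψ d ^ 2 : Kˣ) : K) - 1) * (ψ e : K) ^ 2 ≠ 0) ?_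
  rw [mul_zero]
  simp only [Units.val_pow_eq_pow_val]
  linear_combination hT - ((((ψ d : Kˣ) : K) ^ 2 - 1) * ((ψ e : K)) * Λ (G w)) *
    Units.mul_inv (ψ e)

variable (O : Type) [CommRing O] [IsDomain O] [IsDiscreteValuationRing O]
  [IsAdicComplete (IsLocalRing.maximalIdeal O) O] [CharZero O]

/-- **Trace of inertia at a principal series prime.** -/
theorem nebentypusInertia (p N q : ℕ) [NeZero N] [NeZero q] [Fact p.Prime] :
    Engine.NebentypusInertia O p N q :=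
  nebentypusInertia_of_monodromy O p N q fun h5 hq hqp hqN =>
    twistMonodromy h5 (dvd_mul_right 36 N) hq hqp fun h => (hq.dvd_mul.mp h).elim
      (fun h36 => by
        have h36' : q ∣ 2 ^ 2 * 3 ^ 2 := by simpa using h36
        rcases hq.dvd_mul.mp h36' with h' | h' <;>
          have := Nat.le_of_dvd (by norm_num) (hq.dvd_of_dvd_pow h') <;> omega)
      hqN

end Lattice

end Fermat.Agent.XHLite

end
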