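import Fermat.Agent.HeckeModule.Localize
import Fermat.Agent.HeckeJ0.Lattice
import Fermat.Agent.HeckeJ0.Act
import Fermat.Agent.HeckeJ0.Periods

/-!
# Twisting at a prime `q`: groups and the twisting functional

`M = N q`, `M₂ = N q²`. The subgroup `twistKer N q` of `Γ₀(M)` consists of the elements of
`Γ₀(M₂)` with lower right entry `±1` mod `q`; its conjugates by `(1 b/q; 0 1)` lie in `Γ₀(M₂)`.
-/

set_option autoImplicit false

noncomputable section

open CongruenceSubgroup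
open scoped MatrixGroups

namespace Fermat.Agent.XHLite

variable (N q : ℕ)

/-- The lower right entry modulo `q`. -/
def dMod : Gamma0 (N * q) →* (ZMod q)ˣ :=
  (ZMod.unitsMap (dvd_mul_left q N)).comp (HeckeModule.dUnit (N * q))

theorem coe_dMod (γ : Gamma0 (N * q)) :
    ((dMod N q γ : (ZMod q)ˣ) : ZMod q) = (((γ : SL(2, ℤ)) 1 1 : ℤ) : ZMod q) := by
  rw [dMod, MonoidHom.comp_apply, ZMod.unitsMap_def, Units.coe_map, MonoidHom.coe_coe,
    HeckeModule.coe_dUnit, map_intCast]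

/-- Elements of level `N q²` whose diagonal is `±1` mod `q`. -/
def twistKer : Subgroup (Gamma0 (N * q)) :=
  (Gamma0 (N * q * q)).comap (Gamma0 (N * q)).subtype ⊓ ((powMonoidHom 2).comp (dMod N q)).ker

/-- The elements whose lower right entry is killed by a character. -/
def charKer {R : Type*} [MulOneClass R] (χ : (ZMod q)ˣ →* R) : Subgroup (Gamma0 (N * q)) :=
  (χ.comp (dMod N q)).ker

variable {N q}

theorem twistKer_dvd {k : Gamma0 (N * q)} (hk : k ∈ twistKer N q) :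
    ((N * q * q : ℕ) : ℤ) ∣ (k : SL(2, ℤ)) 1 0 :=
  (HeckeJ0.mem_Gamma0_iff_dvd _).mp hk.1

theorem twistKer_sub_dvd {k : Gamma0 (N * q)} (hk : k ∈ twistKer N q) :
    (q : ℤ) ∣ (k : SL(2, ℤ)) 1 1 - (k : SL(2, ℤ)) 0 0 := by
  have h2 : ((((k : SL(2, ℤ)) 1 1 : ℤ) : ZMod q)) ^ 2 = 1 := by
    rw [← coe_dMod, ← Units.val_pow_eq_pow_val]
    exact congrArg Units.val hk.2
  have h3 := congrArg (ZMod.castHom (dvd_mul_left q N) (ZMod q)) (HeckeModule.gamma0_diag k)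
  rw [map_mul, map_intCast, map_one, HeckeModule.coe_dUnit, map_intCast] at h3
  rw [← ZMod.intCast_eq_intCast_iff_dvd_sub]
  calc (((k : SL(2, ℤ)) 0 0 : ℤ) : ZMod q)
      = ((k : SL(2, ℤ)) 0 0 : ℤ) * (((k : SL(2, ℤ)) 1 1 : ℤ) : ZMod q) ^ 2 := by rw [h2, mul_one]
    _ = _ := by rw [pow_two, ← mul_assoc, h3, one_mul]

theorem twistKer_le_charKer {R : Type*} [CommMonoid R] (ψ : (ZMod q)ˣ →* R) :
    twistKer N q ≤ charKer N q (ψ ^ 2) := fun k hk => by
  show (ψ ^ 2) (dMod N q k) = 1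
  rw [MonoidHom.pow_apply, ← map_pow]
  have h : dMod N q k ^ 2 = 1 := hk.2
  rw [h, map_one]

instance : (twistKer N q).Normal where
  conj_mem k hk g := by
    refine ⟨?_, ?_⟩
    · show ((g * k * g⁻¹ : Gamma0 (N * q)) : SL(2, ℤ)) ∈ Gamma0 (N * q * q)
      rw [HeckeJ0.mem_Gamma0_iff_dvd]
      obtain ⟨s, hs⟩ := (HeckeJ0.mem_Gamma0_iff_dvd _).mp g.2
      obtain ⟨c, hc⟩ := twistKer_dvd hk
      obtain ⟨e, he⟩ := twistKer_sub_dvd hk
      refine ⟨(g : SL(2, ℤ)) 1 1 ^ 2 * c - (N : ℤ) * s ^ 2 * (k : SL(2, ℤ)) 0 1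
        - s * (g : SL(2, ℤ)) 1 1 * e, ?_⟩
      simp [Matrix.SpecialLinearGroup.coe_mul, Matrix.SpecialLinearGroup.coe_inv,
        Matrix.mul_apply, Fin.sum_univ_two, Matrix.adjugate_fin_two]
      push_cast at hs hc
      rw [hs]
      linear_combination ((g : SL(2, ℤ)) 1 1 ^ 2) * hc
        - ((N : ℤ) * q * s * (g : SL(2, ℤ)) 1 1) * he
    · show (powMonoidHom 2).comp (dMod N q) (g * k * g⁻¹) = 1
      rw [map_mul, map_mul, map_inv, hk.2, mul_one, mul_inv_cancel]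

/-- Conjugation by `(1 b/q; 0 1)`. -/
def conjShift (b : ℤ) (k : twistKer N q) : Gamma0 (N * q * q) :=
  let M : SL(2, ℤ) := (k : Gamma0 (N * q))
  ⟨⟨!![M 0 0 + b * (M 1 0 / q), M 0 1 + b * ((M 1 1 - M 0 0) / q) - b ^ 2 * (M 1 0 / q / q);
      M 1 0, M 1 1 - b * (M 1 0 / q)], by
    obtain ⟨c, hc⟩ := twistKer_dvd k.2
    obtain ⟨e, he⟩ := twistKer_sub_dvd k.2
    have hdet := M.det_coe
    rw [Matrix.det_fin_two] at hdet
    rw [Matrix.det_fin_two_of]
    rcases eq_or_ne (q : ℤ) 0 with hq | hq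
    · push_cast at hc
      simp [hq] at hdet ⊢
      linear_combination hdet
    · push_cast at hc
      have h1 : M 1 0 / (q : ℤ) = N * q * c := by
        rw [show M 1 0 = q * (N * q * c) by rw [hc]; ring, Int.mul_ediv_cancel_left _ hq]
      have h2 : M 1 0 / (q : ℤ) / q = N * c := by
        rw [h1, show (N : ℤ) * q * c = q * (N * c) by ring, Int.mul_ediv_cancel_left _ hq]
      have h3 : (M 1 1 - M 0 0) / (q : ℤ) = e := by
        rw [he, Int.mul_ediv_cancel_left _ hq]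
      rw [h2, h3, h1]
      linear_combination hdet + (b * N * q * c) * he - (b * e - b ^ 2 * N * c) * hc⟩,
    (HeckeJ0.mem_Gamma0_iff_dvd _).mpr (twistKer_dvd k.2)⟩

variable [NeZero N] [NeZero q]

instance : (twistKer N q).FiniteIndex := by
  have h0 : (Gamma0 (N * q * q)).FiniteIndex := inferInstance
  have h1 : ((Gamma0 (N * q * q)).comap (Gamma0 (N * q)).subtype).FiniteIndex :=
    inferInstanceAs ((Gamma0 (N * q * q)).subgroupOf (Gamma0 (N * q))).FiniteIndex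
  have : Finite (Gamma0 (N * q) ⧸ ((powMonoidHom 2).comp (dMod N q)).ker) :=
    Finite.of_equiv _ (QuotientGroup.quotientKerEquivRange _).symm.toEquiv
  have h2 : ((powMonoidHom 2).comp (dMod N q)).ker.FiniteIndex :=
    Subgroup.finiteIndex_of_finite_quotient
  exact inferInstanceAs ((_ ⊓ _ : Subgroup (Gamma0 (N * q))).FiniteIndex)

variable {K : Type*} [CommRing K]

/-- The cosets of `twistKer` inside `charKer`. -/
abbrev TwistCosets (N q : ℕ) (ψ : (ZMod q)ˣ →* K) : Type :=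
  charKer N q (ψ ^ 2) ⧸ (twistKer N q).subgroupOf (charKer N q (ψ ^ 2))

instance (ψ : (ZMod q)ˣ →* K) : Fintype (TwistCosets N q ψ) := Fintype.ofFinite _

/-- A conjugate of an element of `twistKer` by a coset representative. -/
def conjRep {ψ : (ZMod q)ˣ →* K} (h : TwistCosets N q ψ) (k : twistKer N q) : twistKer N q :=
  MulAut.conjNormal (h.out : Gamma0 (N * q)) k

/-- `Σ_b ψ(b)⁻¹ Σ_h φ(T_b h k h⁻¹ T_b⁻¹)`. -/
def twistFun (ψ : (ZMod q)ˣ →* Kˣ) (φ : Additive (Gamma0 (N * q * q)) →+ K)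
    (k : twistKer N q) : K :=
  ∑ b : (ZMod q)ˣ, (((ψ b)⁻¹ : Kˣ) : K) *
    ∑ h : TwistCosets N q ((Units.coeHom K).comp ψ),
      φ (Additive.ofMul (conjShift ((b : ZMod q).val : ℤ) (conjRep h k)))

/-- The non-vanishing input of the twisting argument: if a system `lam` occurs at level `N q` with
character `ψ²` and is not Eisenstein, its twist by `ψ⁻¹` occurs in the lattice of level `N q²` on a
vector which the twisting functional does not kill. -/
def TwistClassExists (K : Type) [Field K] (N q : ℕ) [NeZero N] [NeZero q] : Prop :=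
  q.Prime → ¬ q ∣ N → ∀ ψ : (ZMod q)ˣ →* Kˣ, ψ ^ 2 ≠ 1 →
    ∀ (S : Finset ℕ) (lam a : ℕ → K), q ∈ S → (∀ r : ℕ, r.Prime → r ∣ N → r ∈ S) →
      (∃ c : HeckeModule.Coh1 (HeckeModule.scalarRep
          (((Units.coeHom K).comp (ψ ^ 2)).comp (ZMod.unitsMap (dvd_mul_left q N))) K),
        c ≠ 0 ∧ ∀ (ℓ : ℕ) [Fact ℓ.Prime], ℓ ∉ S → ¬ ℓ ∣ N * q →
          HeckeModule.heckeOp (HeckeModule.scalarRep
            (((Units.coeHom K).comp (ψ ^ 2)).comp (ZMod.unitsMap (dvd_mul_left q N))) K) ℓ c =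
            lam ℓ • c) →
      (∀ (ℓ : ℕ) (hℓ : ℓ.Coprime q), ℓ.Prime → ℓ ∉ S →
        a ℓ * ((ψ (ZMod.unitOfCoprime ℓ hℓ) : Kˣ) : K) = lam ℓ) →
      (∃ ℓ : ℕ, ℓ.Prime ∧ ℓ ∉ S ∧ (ℓ : ZMod (N * q * q)) = 1 ∧ a ℓ ≠ (ℓ : K) + 1) →
      ∃ v : Fin (HeckeJ0.rk (N * q * q)) → K,
        (∀ ℓ : Nat.Primes, (ℓ : ℕ) ∉ S →
          Matrix.mulVec ((HeckeJ0.heckeMatAt (N * q * q) ℓ).map (Int.cast : ℤ → K)) v =
            a ℓ • v) ∧
        ∃ k : twistKer N q,
          twistFun ψ (HeckeJ0.frickeTwist (HeckeJ0.ofCoords (N * q * q) v)) k ≠ 0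

end Fermat.Agent.XHLite
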