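import Fermat.Agent.XHLite.Twist.Gens
import Fermat.Agent.HeckeJ0.Act
import Mathlib.RingTheory.RootsOfUnity.AlgebraicallyClosed

/-!
# The field generated by `y` and the `j (e (τ + c / q))`, and the action of `Γ₀(N q)`
-/

set_option autoImplicit false

noncomputable section

open CongruenceSubgroup UpperHalfPlane Matrix.SpecialLinearGroup ModularCurve
open scoped MatrixGroups
open Fermat.Agent.X0Analytic
open Fermat.Agent.J0Torsion (jEmb)

namespace Fermat.Agent.XHLite

local notation "Qbar" => AlgebraicClosure ℚ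

/-- Constants of finite order are algebraic. -/
theorem exists_jEmb_eq {d : ℕ} (hd : 0 < d) {c : ℂ} (hc : c ^ d = 1) :
    ∃ b : Qbar, jEmb b = c := by
  have : NeZero d := ⟨hd.ne'⟩
  have : NeZero (d : Qbar) := ⟨Nat.cast_ne_zero.mpr hd.ne'⟩
  obtain ⟨ζ, hζ⟩ := HasEnoughRootsOfUnity.exists_primitiveRoot Qbar d
  obtain ⟨i, -, hi⟩ := (hζ.map_of_injective jEmb.injective).eq_pow_of_pow_eq_one hc
  exact ⟨ζ ^ i, by rw [map_pow, hi]⟩

theorem qp_eq_pow (A B : ℕ) [NeZero A] [NeZero B] (τ : ℍ) : qp A τ = qp (A * B) τ ^ B := by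
  simp only [qp, Function.Periodic.qParam, ← Complex.exp_nat_mul]
  congr 1
  push_cast
  field_simp [NeZero.ne A, NeZero.ne B]

variable {N q : ℕ} [NeZero N] [NeZero q]

variable (N q) in
/-- Functions of period `1`, meromorphic at every cusp. -/
def growFun : Subalgebra ℂ (ℍ → ℂ) where
  carrier := {f | f ∈ perMero 1 ∧
    ∀ g : SL(2, ℤ), ∃ m : ℕ, IsBoundedAtImInfty ((fun τ : ℍ => f (g • τ)) * qp (N * q * q) ^ m)}
  mul_mem' := by
    rintro f f' ⟨hf, hf'⟩ ⟨hg, hg'⟩
    refine ⟨mul_mem hf hg, fun g => ?_⟩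
    obtain ⟨m, hm⟩ := hf' g
    obtain ⟨k, hk⟩ := hg' g
    refine ⟨m + k, ?_⟩
    rw [show (fun τ : ℍ => (f * f') (g • τ)) * qp (N * q * q) ^ (m + k)
        = ((fun τ : ℍ => f (g • τ)) * qp (N * q * q) ^ m) *
          ((fun τ : ℍ => f' (g • τ)) * qp (N * q * q) ^ k) from by
      funext τ; simp only [Pi.mul_apply, Pi.pow_apply, pow_add]; ring]
    exact Filter.BoundedAtFilter.mul hm hk
  add_mem' := by
    rintro f f' ⟨hf, hf'⟩ ⟨hg, hg'⟩
    refine ⟨add_mem hf hg, fun g => ?_⟩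
    obtain ⟨m, hm⟩ := hf' g
    obtain ⟨k, hk⟩ := hg' g
    refine ⟨m + k, ?_⟩
    rw [show (fun τ : ℍ => (f + f') (g • τ)) * qp (N * q * q) ^ (m + k)
        = (fun τ : ℍ => f (g • τ)) * qp (N * q * q) ^ (m + k) +
          (fun τ : ℍ => f' (g • τ)) * qp (N * q * q) ^ (m + k) from by rw [← add_mul]; rfl]
    exact Filter.BoundedAtFilter.add (isBounded_mul_qp_of_le hm (Nat.le_add_right _ _))
      (isBounded_mul_qp_of_le hk (Nat.le_add_left _ _))
  algebraMap_mem' c := ⟨Subalgebra.algebraMap_mem _ c, fun g => ⟨0, by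
    rw [pow_zero, mul_one]; exact Filter.const_boundedAtFilter _ c⟩⟩

theorem growFun_le : growFun N q ≤ perMero 1 := fun _ hf => hf.1

/-- A function of `growFun` as a periodic function. -/
def growToPer : ↥(growFun N q) →ₐ[ℂ] ↥(perMero 1) := Subalgebra.inclusion growFun_le

theorem growToPer_injective : Function.Injective (growToPer (N := N) (q := q)) :=
  Subalgebra.inclusion_injective growFun_le

/-- A root of unity of order `q` in `Qbar`, sent to `exp (2 π i / q)`. -/
theorem exists_zetaQ (q : ℕ) [NeZero q] :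
    ∃ ζ : Qbar, ζ ≠ 0 ∧ jEmb ζ = Complex.exp (2 * Real.pi * Complex.I / q) := by
  obtain ⟨ζ, hζ⟩ := exists_jEmb_eq (Nat.pos_of_ne_zero (NeZero.ne q))
    (Complex.isPrimitiveRoot_exp q (NeZero.ne q)).pow_eq_one
  exact ⟨ζ, fun h => Complex.exp_ne_zero _ (by rw [← hζ, h, map_zero]), hζ⟩

/-- The root of unity of order `q` sent to `exp (2 π i / q)`. -/
def zetaQ (q : ℕ) [NeZero q] : Qbar := (exists_zetaQ q).choose

theorem zetaQ_ne_zero : zetaQ q ≠ 0 := (exists_zetaQ q).choose_spec.1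

theorem jEmb_zetaQ : jEmb (zetaQ q) = Complex.exp (2 * Real.pi * Complex.I / q) :=
  (exists_zetaQ q).choose_spec.2

theorem zetaQ_pow_q : zetaQ q ^ q = 1 :=
  jEmb.injective (by
    rw [map_pow, jEmb_zetaQ, map_one, (Complex.isPrimitiveRoot_exp q (NeZero.ne q)).pow_eq_one])

variable (q) in
/-- The series of `τ ↦ f (τ + c / q)`. -/
def rotSer (c : ℤ) : LaurentSeries Qbar →+* LaurentSeries Qbar :=
  rot (zetaQ q ^ c) (zpow_ne_zero c zetaQ_ne_zero)

theorem coeffMap_rotSer (c : ℤ) (x : LaurentSeries Qbar) :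
    coeffMap jEmb (rotSer q c x) =
      rot (Complex.exp (2 * Real.pi * Complex.I * c / q)) (Complex.exp_ne_zero _)
        (coeffMap jEmb x) := by
  ext n
  rw [coeffMap_coeff, rot_coeff, rotSer, rot_coeff, coeffMap_coeff, map_mul, map_zpow₀, map_zpow₀,
    jEmb_zetaQ, ← Complex.exp_int_mul]
  congr 3
  ring

/-- Translation by `c / q` rotates series. -/
theorem qSer_shift (f : ↥(perMero 1)) {x : LaurentSeries Qbar}
    (hx : qSer 1 f = coeffMap jEmb x) (c : ℤ) :
    ∃ h : (fun τ => (f : ℍ → ℂ) (shiftGL q c • τ)) ∈ perMero 1,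
      qSer 1 ⟨_, h⟩ = coeffMap jEmb (rotSer q c x) := by
  obtain ⟨h, hs⟩ := qSer_subst (h := 1) (h' := 1) (M := 1) f (fun τ => shiftGL q c • τ)
    (mdifferentiable_smul (det_pos_upperGL q c q)) (Complex.exp (2 * Real.pi * Complex.I * c / q))
    (Complex.exp_ne_zero _) (fun τ => qp_one_upperGL q c q 1 1 (by simp) τ)
  refine ⟨h, hs.trans ?_⟩
  rw [qExpand_one_apply, hx, coeffMap_rotSer]

namespace TwistCover

variable (C : TwistCover N q)

/-- The generating functions. -/
def allGens : Set (ℍ → ℂ) := rotGens N q ∪ {f | ∃ a : (ZMod q)ˣ, f = C.chi a • C.Y}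

theorem Y_mem_allGens : C.Y ∈ C.allGens := Or.inr ⟨1, by rw [map_one, one_smul]⟩

theorem allGens_comp (hq : q.Prime) (hqN : ¬ q ∣ N) {f : ℍ → ℂ} (hf : f ∈ C.allGens)
    (γ : Gamma0 (N * q)) : (fun τ => f ((γ : SL(2, ℤ)) • τ)) ∈ C.allGens := by
  rcases hf with hf | ⟨a, rfl⟩
  · exact Or.inl (rotGens_comp hq hqN hf γ.2)
  · refine Or.inr ⟨a * dMod N q γ, funext fun τ => ?_⟩
    simp only [Pi.smul_apply, smul_eq_mul, J0Torsion.twFun_smul C.mem_twFun,
      MonoidHom.comp_apply, map_mul]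
    ring

theorem allGens_finite : C.allGens.Finite :=
  rotGens_finite.union <| (Set.finite_range fun a : (ZMod q)ˣ => C.chi a • C.Y).subset
    fun _ ⟨a, ha⟩ => ⟨a, ha.symm⟩

theorem allGens_spec (hq : q.Prime) (hqN : ¬ q ∣ N) {f : ℍ → ℂ} (hf : f ∈ C.allGens) :
    ∃ hg : f ∈ growFun N q, ∃ x : LaurentSeries Qbar,
      qSer 1 (growToPer ⟨f, hg⟩) = coeffMap jEmb x := by
  rcases hf with hf | ⟨a, rfl⟩
  · obtain ⟨e₀, _, g₀, he₀, hfg⟩ := exists_eq_scaledJ_comp hq hqN hf
    obtain ⟨e, _, he, c, rfl⟩ := hf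
    obtain ⟨h1, hs⟩ := qSer_shift (q := q)
      (toPerOne (N * q * q) ⟨scaledJ e, scaledJ_mem he⟩) (x := jL Qbar e)
      (ser_scaledJ_eq jEmb he) c
    have h0 : rotJ q e c ∈ perMero 1 := h1
    have h2 : (⟨rotJ q e c, h0⟩ : ↥(perMero 1)) = ⟨_, h1⟩ := Subtype.ext rfl
    suffices hg : rotJ q e c ∈ growFun N q by
      have h3 : growToPer (⟨rotJ q e c, hg⟩ : ↥(growFun N q)) = ⟨rotJ q e c, h0⟩ := rfl
      exact ⟨hg, rotSer q c (jL Qbar e), (congrArg (qSer 1) (h3.trans h2)).trans hs⟩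
    refine ⟨h0, fun g => ?_⟩
    obtain ⟨-, -, m, hm⟩ := (scaledJ_mem (N := N * q * q) he₀).2.2 (g₀ * g)
    refine ⟨m, ?_⟩
    rw [show (fun τ : ℍ => rotJ q e c (g • τ)) = fun τ : ℍ => scaledJ e₀ ((g₀ * g) • τ) from
      funext fun τ => by rw [mul_smul]; exact congrFun hfg (g • τ)]
    exact hm
  · have hY : C.Y ∈ growFun N q := ⟨C.mem_perMero, fun g => by
      obtain ⟨m, hm⟩ := C.mem_twFun.2.2 g
      refine ⟨q * m, ?_⟩
      have hqp : qp (N * q) ^ m = qp (N * q * q) ^ (q * m) := funext fun τ => by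
        simp [pow_mul, ← qp_eq_pow (N * q) q τ]
      rw [← hqp]
      exact hm⟩
    obtain ⟨b, hb⟩ := exists_jEmb_eq C.d_pos (c := C.chi a) (by
      rw [← MonoidHom.pow_apply, C.chi_pow, MonoidHom.one_apply])
    refine ⟨Subalgebra.smul_mem _ hY _, algebraMap Qbar _ b * C.y, ?_⟩
    rw [map_mul, algebraMap_laurentSeries_eq_single, coeffMap_single, hb, ← qSer_algebraMap (h := 1),
      ← C.qSer_eq, ← map_mul]
    refine congrArg (qSer 1) (Subtype.ext ?_)
    funext τ
    simp [growToPer]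

/-- The series of the generators. -/
def serGens : Set (LaurentSeries Qbar) :=
  {x | ∃ f ∈ C.allGens, ∃ h : f ∈ perMero 1, qSer 1 ⟨f, h⟩ = coeffMap jEmb x}

theorem serGens_finite : C.serGens.Finite := by
  refine (C.allGens_finite.biUnion (t := fun f => {x : LaurentSeries Qbar |
    ∃ h : f ∈ perMero 1, qSer 1 ⟨f, h⟩ = coeffMap jEmb x}) fun f _ =>
    Set.Subsingleton.finite fun x hx x' hx' => ?_).subset fun x ⟨f, hf, h⟩ => by
      simpa using ⟨f, hf, h⟩
  obtain ⟨_, h1⟩ := hx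
  obtain ⟨_, h2⟩ := hx'
  exact coeffMap_injective jEmb.injective (h1.symm.trans h2)

/-- The field generated by the generators. -/
def big : IntermediateField Qbar (LaurentSeries Qbar) := IntermediateField.adjoin Qbar C.serGens

/-- The algebra generated by the generators. -/
def bigAlg : Subalgebra Qbar (LaurentSeries Qbar) := Algebra.adjoin Qbar C.serGens

theorem bigAlg_le : C.bigAlg ≤ C.big.toSubalgebra := IntermediateField.algebra_adjoin_le_adjoin _ _

/-- The inclusion of the algebra into the field. -/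
def bigToField : ↥C.bigAlg →ₐ[Qbar] ↥C.big :=
  AlgHom.codRestrict C.bigAlg.val C.big.toSubalgebra fun x => C.bigAlg_le x.2

@[simp]
theorem coe_bigToField (x : ↥C.bigAlg) :
    ((C.bigToField x : ↥C.big) : LaurentSeries Qbar) = x := rfl

instance algebraBigAlg : Algebra ↥C.bigAlg ↥C.big := C.bigToField.toRingHom.toAlgebra

theorem bigToField_injective : Function.Injective C.bigToField := fun _ _ h =>
  Subtype.ext (congrArg (fun x : ↥C.big => (x : LaurentSeries Qbar)) h)

theorem exists_big_div (x : ↥C.big) :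
    ∃ a b : ↥C.bigAlg, b ≠ 0 ∧ x * C.bigToField b = C.bigToField a := by
  obtain ⟨a, ha, b, hb, hab⟩ := IntermediateField.mem_adjoin_iff_div.mp x.2
  rcases eq_or_ne b 0 with rfl | hb0
  · refine ⟨0, 1, one_ne_zero, Subtype.ext ?_⟩
    simp [hab]
  · refine ⟨⟨a, ha⟩, ⟨b, hb⟩, fun h => hb0 (congrArg Subtype.val h), Subtype.ext ?_⟩
    simp [hab, hb0]

instance isFractionRing_bigAlg : IsFractionRing ↥C.bigAlg ↥C.big := by
  have : FaithfulSMul ↥C.bigAlg ↥C.big :=
    (faithfulSMul_iff_algebraMap_injective _ _).mpr C.bigToField_injective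
  refine IsFractionRing.of_field _ _ fun z => ?_
  obtain ⟨a, b, hb, hab⟩ := C.exists_big_div z
  have hb' : C.bigToField b ≠ 0 := (map_ne_zero_iff _ C.bigToField_injective).mpr hb
  refine ⟨a, b, ?_⟩
  show z = C.bigToField a / C.bigToField b
  rw [eq_div_iff hb', hab]

variable (hq : q.Prime) (hqN : ¬ q ∣ N)

include hq hqN in
theorem exists_grow {x : LaurentSeries Qbar} (hx : x ∈ C.bigAlg) :
    ∃ f : ↥(growFun N q), qSer 1 (growToPer f) = coeffMap jEmb x := by
  induction hx using Algebra.adjoin_induction with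
  | mem y hy =>
    obtain ⟨f, hf, h, hs⟩ := hy
    exact ⟨⟨f, (C.allGens_spec hq hqN hf).1⟩, hs⟩
  | algebraMap c =>
    exact ⟨algebraMap ℂ _ (jEmb c), by
      rw [AlgHom.commutes, qSer_algebraMap, algebraMap_laurentSeries_eq_single, coeffMap_single]⟩
  | add y z _ _ hy hz =>
    obtain ⟨f, hf⟩ := hy
    obtain ⟨g, hg⟩ := hz
    exact ⟨f + g, by rw [map_add, map_add, map_add, hf, hg]⟩
  | mul y z _ _ hy hz =>
    obtain ⟨f, hf⟩ := hy
    obtain ⟨g, hg⟩ := hz
    exact ⟨f * g, by rw [map_mul, map_mul, map_mul, hf, hg]⟩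

theorem grow_ext {f g : ↥(growFun N q)}
    (h : qSer 1 (growToPer f) = qSer 1 (growToPer g)) : f = g :=
  growToPer_injective (qSer_injective h)

/-- The function with a given series. -/
def toGrowFun (x : ↥C.bigAlg) : ↥(growFun N q) := (C.exists_grow hq hqN x.2).choose

theorem ser_toGrowFun (x : ↥C.bigAlg) :
    qSer 1 (growToPer (C.toGrowFun hq hqN x)) = coeffMap jEmb x :=
  (C.exists_grow hq hqN x.2).choose_spec

/-- The realisation of the algebra by functions. -/
def toGrow : ↥C.bigAlg →+* ↥(growFun N q) where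
  toFun := C.toGrowFun hq hqN
  map_one' := grow_ext (by
    rw [ser_toGrowFun, map_one, OneMemClass.coe_one, map_one, map_one])
  map_mul' x y := grow_ext (by
    rw [map_mul, map_mul, ser_toGrowFun, ser_toGrowFun, ser_toGrowFun, MulMemClass.coe_mul,
      map_mul])
  map_zero' := grow_ext (by
    rw [ser_toGrowFun, map_zero, ZeroMemClass.coe_zero, map_zero, map_zero])
  map_add' x y := grow_ext (by
    rw [map_add, map_add, ser_toGrowFun, ser_toGrowFun, ser_toGrowFun, AddMemClass.coe_add,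
      map_add])

theorem ser_toGrow (x : ↥C.bigAlg) :
    qSer 1 (growToPer (C.toGrow hq hqN x)) = coeffMap jEmb x := C.ser_toGrowFun hq hqN x

/-- `growFun` in meromorphic functions. -/
def growToMer : ↥(growFun N q) →+* Mer :=
  (algebraMap Hol Mer).comp ((perToHol 1).comp growToPer).toRingHom

theorem growToMer_injective : Function.Injective (growToMer (N := N) (q := q)) :=
  (IsFractionRing.injective Hol Mer).comp
    ((Subalgebra.inclusion_injective (perMero_le_holFun 1)).comp growToPer_injective)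

theorem toGrow_injective : Function.Injective (C.toGrow hq hqN) := fun x y h =>
  Subtype.ext (coeffMap_injective jEmb.injective (by
    rw [← C.ser_toGrow hq hqN x, h, C.ser_toGrow hq hqN y]))

/-- The embedding into meromorphic functions on `ℍ`. -/
def bigToMer : ↥C.big →+* Mer :=
  IsFractionRing.lift (A := ↥C.bigAlg) (g := growToMer.comp (C.toGrow hq hqN))
    (growToMer_injective.comp (C.toGrow_injective hq hqN))

theorem bigToMer_bigToField (a : ↥C.bigAlg) :
    C.bigToMer hq hqN (C.bigToField a) = growToMer (C.toGrow hq hqN a) :=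
  IsFractionRing.lift_algebraMap _ a

/-- A constant in meromorphic functions. -/
def merC (c : ℂ) : Mer := algebraMap Hol Mer (algebraMap ℂ Hol c)

theorem bigToMer_algebraMap (c : Qbar) :
    C.bigToMer hq hqN (algebraMap Qbar ↥C.big c) = merC (jEmb c) := by
  rw [← C.bigToField.commutes c, bigToMer_bigToField]
  have : C.toGrow hq hqN (algebraMap Qbar _ c) = algebraMap ℂ _ (jEmb c) := grow_ext (by
    rw [ser_toGrow, AlgHom.commutes, qSer_algebraMap, Subalgebra.coe_algebraMap,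
      algebraMap_laurentSeries_eq_single, coeffMap_single])
  rw [this]
  rfl

/-- On a function of `growFun` with the given series the embedding is that function. -/
theorem bigToMer_eq {x : ↥C.big} (hx : (x : LaurentSeries Qbar) ∈ C.bigAlg)
    (f : ↥(growFun N q)) (h : qSer 1 (growToPer f) = coeffMap jEmb (x : LaurentSeries Qbar)) :
    C.bigToMer hq hqN x = growToMer f := by
  rw [show x = C.bigToField ⟨x, hx⟩ from Subtype.ext rfl, bigToMer_bigToField]
  exact congrArg _ (grow_ext (by rw [ser_toGrow, h]))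

/-- Precomposition with an element of `SL₂(ℤ)`. -/
def compGamma (γ : SL(2, ℤ)) : Mer →+* Mer := HeckeJ0.act (γ : GL (Fin 2) ℝ)

theorem compGamma_mul (γ δ : SL(2, ℤ)) (F : Mer) :
    compGamma (γ * δ) F = compGamma δ (compGamma γ F) := by
  rw [compGamma, map_mul]
  exact HeckeJ0.act_mul (det_pos_SL γ) (det_pos_SL δ) F

theorem compGamma_one (F : Mer) : compGamma 1 F = F := by
  have h := compGamma_mul 1 1 F
  rw [one_mul] at h
  exact ((compGamma 1).injective h).symm

theorem compGamma_merC (γ : SL(2, ℤ)) (c : ℂ) : compGamma γ (merC c) = merC c := by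
  rw [compGamma, merC, HeckeJ0.act_algebraMap (det_pos_SL γ), AlgHom.commutes]

theorem growToMer_apply_eq (γ : SL(2, ℤ)) (f f' : ↥(growFun N q))
    (h : ∀ τ : ℍ, (f' : ℍ → ℂ) τ = (f : ℍ → ℂ) (γ • τ)) :
    compGamma γ (growToMer f) = growToMer f' := by
  rw [compGamma, growToMer, RingHom.comp_apply, HeckeJ0.act_algebraMap (det_pos_SL γ)]
  exact congrArg (algebraMap Hol Mer) (Subtype.ext (funext fun τ => (h τ).symm))

theorem exists_big_comp (γ : Gamma0 (N * q)) (x : ↥C.big) :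
    ∃ x' : ↥C.big, C.bigToMer hq hqN x' = compGamma (γ : SL(2, ℤ)) (C.bigToMer hq hqN x) := by
  obtain ⟨x, hx⟩ := x
  induction hx using IntermediateField.adjoin_induction with
  | mem y hy =>
    obtain ⟨f, hf, h, hs⟩ := hy
    have hf' := C.allGens_comp hq hqN hf γ
    obtain ⟨hg', x', hx'⟩ := C.allGens_spec hq hqN hf'
    have hmem : x' ∈ C.serGens := ⟨_, hf', hg'.1, hx'⟩
    refine ⟨⟨x', IntermediateField.subset_adjoin Qbar _ hmem⟩, ?_⟩
    have e1 := C.bigToMer_eq hq hqN (x := ⟨x', IntermediateField.subset_adjoin Qbar _ hmem⟩)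
      (Algebra.subset_adjoin hmem) ⟨_, hg'⟩ hx'
    have e2 := C.bigToMer_eq hq hqN
      (x := ⟨y, IntermediateField.subset_adjoin Qbar _ ⟨f, hf, h, hs⟩⟩)
      (Algebra.subset_adjoin ⟨f, hf, h, hs⟩) ⟨f, (C.allGens_spec hq hqN hf).1⟩ hs
    exact e1.trans ((growToMer_apply_eq (γ : SL(2, ℤ)) _ _ fun τ => rfl).symm.trans
      (congrArg _ e2.symm))
  | algebraMap c =>
    refine ⟨algebraMap Qbar _ c, ?_⟩
    rw [show (⟨algebraMap Qbar (LaurentSeries Qbar) c, _⟩ : ↥C.big) = algebraMap Qbar _ c from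
      Subtype.ext rfl, C.bigToMer_algebraMap, compGamma_merC]
  | add y z hy hz ihy ihz =>
    obtain ⟨y', hy'⟩ := ihy
    obtain ⟨z', hz'⟩ := ihz
    refine ⟨y' + z', ?_⟩
    rw [show (⟨y + z, _⟩ : ↥C.big) = ⟨y, hy⟩ + ⟨z, hz⟩ from rfl]
    simp only [RingHom.map_add, hy', hz']
  | inv y hy ih =>
    obtain ⟨y', hy'⟩ := ih
    refine ⟨y'⁻¹, ?_⟩
    rw [show (⟨y⁻¹, _⟩ : ↥C.big) = (⟨y, hy⟩ : ↥C.big)⁻¹ from rfl]
    simp only [map_inv₀, hy']
  | mul y z hy hz ihy ihz =>
    obtain ⟨y', hy'⟩ := ihy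
    obtain ⟨z', hz'⟩ := ihz
    refine ⟨y' * z', ?_⟩
    rw [show (⟨y * z, _⟩ : ↥C.big) = ⟨y, hy⟩ * ⟨z, hz⟩ from rfl]
    simp only [RingHom.map_mul, hy', hz']

/-- `x ↦ x ∘ γ⁻¹`. -/
def moveFun (γ : Gamma0 (N * q)) (x : ↥C.big) : ↥C.big := (C.exists_big_comp hq hqN γ⁻¹ x).choose

theorem bigToMer_moveFun (γ : Gamma0 (N * q)) (x : ↥C.big) :
    C.bigToMer hq hqN (C.moveFun hq hqN γ x) =
      compGamma ((γ⁻¹ : Gamma0 (N * q)) : SL(2, ℤ)) (C.bigToMer hq hqN x) :=
  (C.exists_big_comp hq hqN γ⁻¹ x).choose_spec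

theorem moveFun_mul (γ δ : Gamma0 (N * q)) (x : ↥C.big) :
    C.moveFun hq hqN (γ * δ) x = C.moveFun hq hqN γ (C.moveFun hq hqN δ x) :=
  (C.bigToMer hq hqN).injective (by
    simp only [bigToMer_moveFun]
    rw [mul_inv_rev, Subgroup.coe_mul, compGamma_mul])

theorem moveFun_one (x : ↥C.big) : C.moveFun hq hqN 1 x = x :=
  (C.bigToMer hq hqN).injective (by
    rw [bigToMer_moveFun, inv_one, OneMemClass.coe_one, compGamma_one])

/-- The action of an element of `Γ₀(N q)`. -/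
def moveEquiv (γ : Gamma0 (N * q)) : ↥C.big ≃ₐ[Qbar] ↥C.big where
  toFun := C.moveFun hq hqN γ
  invFun := C.moveFun hq hqN γ⁻¹
  left_inv x := by rw [← moveFun_mul, inv_mul_cancel, moveFun_one]
  right_inv x := by rw [← moveFun_mul, mul_inv_cancel, moveFun_one]
  map_mul' x y := (C.bigToMer hq hqN).injective (by simp only [bigToMer_moveFun, RingHom.map_mul])
  map_add' x y := (C.bigToMer hq hqN).injective (by simp only [bigToMer_moveFun, RingHom.map_add])
  commutes' c := (C.bigToMer hq hqN).injective (by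
    simp only [bigToMer_moveFun, bigToMer_algebraMap, compGamma_merC])

/-- `Γ₀(N q)` acts on the field. -/
def move : Gamma0 (N * q) →* (↥C.big ≃ₐ[Qbar] ↥C.big) where
  toFun := C.moveEquiv hq hqN
  map_one' := AlgEquiv.ext fun x => C.moveFun_one hq hqN x
  map_mul' γ δ := AlgEquiv.ext fun x => C.moveFun_mul hq hqN γ δ x

theorem bigToMer_move (γ : Gamma0 (N * q)) (x : ↥C.big) :
    C.bigToMer hq hqN (C.move hq hqN γ x) =
      compGamma ((γ⁻¹ : Gamma0 (N * q)) : SL(2, ℤ)) (C.bigToMer hq hqN x) :=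
  C.bigToMer_moveFun hq hqN γ x

end TwistCover

end Fermat.Agent.XHLite

end
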