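import Fermat.Agent.XHLite.Twist.Field
import Fermat.Agent.J0Torsion.SerMem
import Fermat.Agent.J0Torsion.CoeffDescent

/-!
# Fixed fields of `Γ₀(N q)` and of the kernel of `χ`

The functions fixed by `Γ₀(N q)` are the field of `X₀(N q)`; those fixed by the kernel of `χ` are
`F₀(y)`.
-/

set_option autoImplicit false

noncomputable section

open CongruenceSubgroup UpperHalfPlane Matrix.SpecialLinearGroup ModularCurve
open scoped MatrixGroups Manifold
open Fermat.Agent.X0Analytic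
open Fermat.Agent.J0Torsion (jEmb)

namespace Fermat.Agent.XHLite

local notation "Qbar" => AlgebraicClosure ℚ

variable {N q : ℕ} [NeZero N] [NeZero q]

omit [NeZero N] [NeZero q] in
theorem twistKer_le_charKer_of_neg {R : Type*} [CommMonoid R] (hq : q.Prime)
    (χ : (ZMod q)ˣ →* R) (hχ : χ (-1) = 1) : twistKer N q ≤ charKer N q χ := fun k hk => by
  have : Fact q.Prime := ⟨hq⟩
  show χ (dMod N q k) = 1
  have h : dMod N q k ^ 2 = 1 := hk.2
  rcases sq_eq_one_iff.mp (show ((dMod N q k : (ZMod q)ˣ) : ZMod q) ^ 2 = 1 by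
      rw [← Units.val_pow_eq_pow_val, h, Units.val_one]) with h1 | h1
  · rw [show dMod N q k = 1 from Units.ext h1, map_one]
  · rw [show dMod N q k = -1 from Units.ext (by rw [h1, Units.val_neg, Units.val_one]), hχ]

theorem mem_growFun_of_level {M : ℕ} [NeZero M] (hM : M ∣ N * q * q) {f : ℍ → ℂ}
    (hf : f ∈ perMero 1)
    (hg : ∀ g : SL(2, ℤ), ∃ m : ℕ, IsBoundedAtImInfty ((fun τ : ℍ => f (g • τ)) * qp M ^ m)) :
    f ∈ growFun N q := by
  obtain ⟨r, hr⟩ := hM
  have : NeZero r := ⟨fun h => NeZero.ne (N * q * q) (by rw [hr, h, mul_zero])⟩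
  refine ⟨hf, fun g => ?_⟩
  obtain ⟨m, hm⟩ := hg g
  refine ⟨r * m, ?_⟩
  have hqp : qp M ^ m = qp (N * q * q) ^ (r * m) := funext fun τ => by
    simp [pow_mul, hr, ← qp_eq_pow M r τ]
  rw [← hqp]
  exact hm

variable (N q) in
/-- Modular functions of level `N q` in `growFun`. -/
def modToGrow : ↥(modFun (N * q)) →+* ↥(growFun N q) where
  toFun f := ⟨f, mem_growFun_of_level (dvd_mul_right _ _) (modFun_mem_perMero_one f)
    fun g => (f.2.2.2 g).2.2⟩
  map_one' := rfl
  map_mul' _ _ := rfl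
  map_zero' := rfl
  map_add' _ _ := rfl

namespace TwistCover

variable (C : TwistCover N q)

-- shortcuts: the generic searches on these fields are slow
local instance : Algebra Qbar ↥C.big := inferInstance

theorem y_mem_serGens : C.y ∈ C.serGens := ⟨C.Y, C.Y_mem_allGens, C.mem_perMero, C.qSer_eq⟩

theorem jL_mem_serGens {e : ℕ} [NeZero e] (he : e ∣ N * q * q) : jL Qbar e ∈ C.serGens :=
  ⟨scaledJ e, Or.inl (scaledJ_mem_rotGens he), modFun_mem_perMero_one ⟨_, scaledJ_mem he⟩,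
    ser_scaledJ_eq jEmb he⟩

theorem FLevel_le_big {M : ℕ} (hM : M ∣ N * q * q) : FLevel Qbar M ≤ C.big := by
  rw [FLevel_eq_adjoin, IntermediateField.adjoin_le_iff]
  rintro x ⟨e, _, he, rfl⟩
  exact IntermediateField.subset_adjoin Qbar _ (C.jL_mem_serGens (he.trans hM))

theorem base_le_big : modularFunctionFieldBar (N * q) ≤ C.big :=
  C.FLevel_le_big (dvd_mul_right _ _)

theorem field_le_big : C.field ≤ C.big :=
  IntermediateField.adjoin_le_iff.mpr (Set.union_subset C.base_le_big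
    (Set.singleton_subset_iff.mpr (IntermediateField.subset_adjoin Qbar _ C.y_mem_serGens)))

/-- `y` in the big field. -/
def yBig : ↥C.big := ⟨C.y, IntermediateField.subset_adjoin Qbar _ C.y_mem_serGens⟩

theorem exists_chiQ (a : (ZMod q)ˣ) : ∃ b : Qbar, jEmb b = C.chi a :=
  exists_jEmb_eq C.d_pos (by rw [← MonoidHom.pow_apply, C.chi_pow, MonoidHom.one_apply])

/-- `χ` with algebraic values. -/
def chiQ : (ZMod q)ˣ →* Qbar where
  toFun a := (C.exists_chiQ a).choose
  map_one' := jEmb.injective (by rw [(C.exists_chiQ 1).choose_spec, map_one, map_one])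
  map_mul' a b := jEmb.injective (by
    rw [(C.exists_chiQ (a * b)).choose_spec, map_mul jEmb, (C.exists_chiQ a).choose_spec,
      (C.exists_chiQ b).choose_spec, map_mul])

theorem jEmb_chiQ (a : (ZMod q)ˣ) : jEmb (C.chiQ a) = C.chi a := (C.exists_chiQ a).choose_spec

theorem chiQ_pow (a : (ZMod q)ˣ) : C.chiQ a ^ C.d = 1 :=
  jEmb.injective (by rw [map_pow, jEmb_chiQ, ← MonoidHom.pow_apply, C.chi_pow, map_one,
    MonoidHom.one_apply])

/-- `χ` on `Γ₀(N q)`, with algebraic values. -/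
def chiG : Gamma0 (N * q) →* Qbar := C.chiQ.comp (dMod N q)

theorem chiG_ne_zero (γ : Gamma0 (N * q)) : C.chiG γ ≠ 0 := fun h => by
  have h1 := C.chiQ_pow (dMod N q γ)
  rw [show C.chiQ (dMod N q γ) = C.chiG γ from rfl, h, zero_pow C.d_pos.ne'] at h1
  exact zero_ne_one h1

theorem chiG_inv (γ : Gamma0 (N * q)) : C.chiG γ⁻¹ = (C.chiG γ)⁻¹ :=
  eq_inv_of_mul_eq_one_left (by rw [← map_mul, inv_mul_cancel, map_one])

theorem mem_charKer_iff (γ : Gamma0 (N * q)) : γ ∈ charKer N q C.chi ↔ C.chiG γ = 1 := by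
  show C.chi (dMod N q γ) = 1 ↔ C.chiQ (dMod N q γ) = 1
  rw [← C.jEmb_chiQ, ← map_one jEmb, jEmb.injective.eq_iff]

variable (hq : q.Prime) (hqN : ¬ q ∣ N)

theorem bigToMer_base (x : ↥(modularFunctionFieldBar (N * q))) :
    C.bigToMer hq hqN (IntermediateField.inclusion C.base_le_big x) = toMer jEmb x := by
  suffices h : ((C.bigToMer hq hqN).comp (IntermediateField.inclusion C.base_le_big).toRingHom :
      ↥(FLevel Qbar (N * q)) →+* Mer) = toMer jEmb from RingHom.congr_fun h x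
  refine IsFractionRing.ringHom_ext (A := ↥(algGen Qbar (N * q))) fun a => ?_
  show C.bigToMer hq hqN (IntermediateField.inclusion C.base_le_big (algToField Qbar (N * q) a)) =
    toMer jEmb (algToField Qbar (N * q) a)
  have hmem : ((IntermediateField.inclusion C.base_le_big (algToField Qbar (N * q) a) : ↥C.big) :
      LaurentSeries Qbar) ∈ C.bigAlg := by
    refine Algebra.adjoin_mono (R := Qbar) ?_ a.2
    rintro _ ⟨e, _, he, rfl⟩
    exact C.jL_mem_serGens (dvd_mul_of_dvd_left he q)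
  rw [C.bigToMer_eq hq hqN hmem (modToGrow N q (toModFun jEmb a)) (ser_toModFun jEmb a)]
  exact (fieldHom_algToField jEmb ((algebraMap Hol Mer).comp (modToHol (N * q)).toRingHom)
    ((IsFractionRing.injective Hol Mer).comp modToHol_injective) a).symm

theorem move_of_base (γ : Gamma0 (N * q)) {x : ↥C.big}
    (hx : (x : LaurentSeries Qbar) ∈ modularFunctionFieldBar (N * q)) :
    C.move hq hqN γ x = x := by
  refine (C.bigToMer hq hqN).injective ?_
  rw [bigToMer_move, show x = IntermediateField.inclusion C.base_le_big ⟨_, hx⟩ from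
    Subtype.ext rfl, bigToMer_base]
  set δ : SL(2, ℤ) := ((γ⁻¹ : Gamma0 (N * q)) : SL(2, ℤ)) with hδ
  have h : (compGamma δ).comp (toMer (N := N * q) jEmb) = toMer jEmb := by
    refine IsFractionRing.ringHom_ext (A := ↥(algGen Qbar (N * q))) fun a => ?_
    show compGamma δ (toMer jEmb (algToField Qbar (N * q) a)) =
      toMer jEmb (algToField Qbar (N * q) a)
    rw [show toMer jEmb (algToField Qbar (N * q) a) =
      growToMer (modToGrow N q (toModFun jEmb a)) from fieldHom_algToField jEmb _ _ a]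
    exact growToMer_apply_eq δ _ _ fun τ =>
      ((toModFun jEmb a).2.2.1 δ (γ⁻¹).2 τ).symm
  exact RingHom.congr_fun h ⟨_, hx⟩

theorem move_yBig (γ : Gamma0 (N * q)) :
    C.move hq hqN γ C.yBig = algebraMap Qbar ↥C.big (C.chiG γ⁻¹) * C.yBig := by
  refine (C.bigToMer hq hqN).injective ?_
  have hY : C.Y ∈ growFun N q := (C.allGens_spec hq hqN C.Y_mem_allGens).1
  have e : C.bigToMer hq hqN C.yBig = growToMer ⟨C.Y, hY⟩ :=
    C.bigToMer_eq hq hqN (Algebra.subset_adjoin C.y_mem_serGens) _ C.qSer_eq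
  rw [bigToMer_move, map_mul, bigToMer_algebraMap, e,
    growToMer_apply_eq _ _ (algebraMap ℂ _ (jEmb (C.chiG γ⁻¹)) * ⟨C.Y, hY⟩) fun τ => ?_, map_mul]
  · rfl
  · show jEmb (C.chiG γ⁻¹) * C.Y τ = C.Y (((γ⁻¹ : Gamma0 (N * q)) : SL(2, ℤ)) • τ)
    rw [J0Torsion.twFun_smul C.mem_twFun, MonoidHom.comp_apply, ← C.jEmb_chiQ]
    rfl

theorem exists_serGens_move (γ : Gamma0 (N * q)) {x : ↥C.big}
    (hx : (x : LaurentSeries Qbar) ∈ C.serGens) :
    (C.move hq hqN γ x : LaurentSeries Qbar) ∈ C.serGens := by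
  obtain ⟨f, hf, h, hs⟩ := hx
  have hf' := C.allGens_comp hq hqN hf γ⁻¹
  obtain ⟨hg', x', hx'⟩ := C.allGens_spec hq hqN hf'
  have hmem : x' ∈ C.serGens := ⟨_, hf', hg'.1, hx'⟩
  suffices C.move hq hqN γ x = ⟨x', IntermediateField.subset_adjoin Qbar _ hmem⟩ by
    rw [this]; exact hmem
  refine (C.bigToMer hq hqN).injective ?_
  rw [bigToMer_move]
  have e1 := C.bigToMer_eq hq hqN (x := ⟨x', IntermediateField.subset_adjoin Qbar _ hmem⟩)
    (Algebra.subset_adjoin hmem) ⟨_, hg'⟩ hx'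
  have e2 := C.bigToMer_eq hq hqN (x := x) (Algebra.subset_adjoin ⟨f, hf, h, hs⟩)
    ⟨f, (C.allGens_spec hq hqN hf).1⟩ hs
  rw [e1, e2]
  exact growToMer_apply_eq _ _ _ fun τ => rfl

theorem move_mem_bigAlg (γ : Gamma0 (N * q)) {x : ↥C.big}
    (hx : (x : LaurentSeries Qbar) ∈ C.bigAlg) :
    (C.move hq hqN γ x : LaurentSeries Qbar) ∈ C.bigAlg := by
  obtain ⟨x, hxb⟩ := x
  change x ∈ C.bigAlg at hx
  induction hx using Algebra.adjoin_induction with
  | mem y hy => exact Algebra.subset_adjoin (C.exists_serGens_move hq hqN γ hy)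
  | algebraMap c =>
    rw [show (⟨algebraMap Qbar (LaurentSeries Qbar) c, hxb⟩ : ↥C.big) = algebraMap Qbar _ c from
      Subtype.ext rfl, AlgEquiv.commutes]
    exact Subalgebra.algebraMap_mem _ c
  | add y z hy hz ihy ihz =>
    rw [show (⟨y + z, hxb⟩ : ↥C.big) = ⟨y, C.bigAlg_le hy⟩ + ⟨z, C.bigAlg_le hz⟩ from rfl, map_add]
    exact add_mem (ihy _) (ihz _)
  | mul y z hy hz ihy ihz =>
    rw [show (⟨y * z, hxb⟩ : ↥C.big) = ⟨y, C.bigAlg_le hy⟩ * ⟨z, C.bigAlg_le hz⟩ from rfl, map_mul]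
    exact mul_mem (ihy _) (ihz _)

theorem eq_of_serGens {σ τ : ↥C.big ≃ₐ[Qbar] ↥C.big}
    (h : ∀ x : ↥C.big, (x : LaurentSeries Qbar) ∈ C.serGens → σ x = τ x) : σ = τ := by
  refine AlgEquiv.ext fun ⟨x, hx⟩ => ?_
  induction hx using IntermediateField.adjoin_induction with
  | mem y hy => exact h _ hy
  | algebraMap c =>
    rw [show (⟨algebraMap Qbar (LaurentSeries Qbar) c, _⟩ : ↥C.big) = algebraMap Qbar _ c from
      Subtype.ext rfl, AlgEquiv.commutes, AlgEquiv.commutes]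
  | add y z hy hz ihy ihz =>
    rw [show (⟨y + z, _⟩ : ↥C.big) = ⟨y, hy⟩ + ⟨z, hz⟩ from rfl]
    simp only [map_add, ihy, ihz]
  | inv y hy ih =>
    rw [show (⟨y⁻¹, _⟩ : ↥C.big) = (⟨y, hy⟩ : ↥C.big)⁻¹ from rfl]
    simp only [map_inv₀, ih]
  | mul y z hy hz ihy ihz =>
    rw [show (⟨y * z, _⟩ : ↥C.big) = ⟨y, hy⟩ * ⟨z, hz⟩ from rfl]
    simp only [map_mul, ihy, ihz]

theorem finite_range_move : (Set.range (C.move hq hqN)).Finite := by
  let gens : Set ↥C.big := {x | (x : LaurentSeries Qbar) ∈ C.serGens}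
  have : Finite gens :=
    (C.serGens_finite.preimage Subtype.val_injective.injOn).to_subtype
  let φ : Gamma0 (N * q) → gens → gens := fun γ x =>
    ⟨C.move hq hqN γ x.1, C.exists_serGens_move hq hqN γ x.2⟩
  refine Set.Finite.of_finite_image
    (f := fun (σ : ↥C.big ≃ₐ[Qbar] ↥C.big) (x : gens) => σ x.1) ?_ fun σ _ τ _ h =>
      C.eq_of_serGens fun x hx => congrFun h ⟨x, hx⟩
  refine ((Set.finite_univ (α := gens → gens)).image fun g (x : gens) => (g x).1).subset ?_
  rintro _ ⟨_, ⟨γ, rfl⟩, rfl⟩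
  exact ⟨φ γ, trivial, rfl⟩

include hq hqN in
theorem mem_FLevel_of_move_eq {x : ↥C.big} (hx : (x : LaurentSeries Qbar) ∈ C.bigAlg)
    (h : ∀ γ, C.move hq hqN γ x = x) :
    (x : LaurentSeries Qbar) ∈ modularFunctionFieldBar (N * q) := by
  set f := C.toGrow hq hqN ⟨_, hx⟩ with hf
  have hfx : C.bigToMer hq hqN x = growToMer f :=
    C.bigToMer_eq hq hqN hx f (C.ser_toGrow hq hqN _)
  have hinv : ∀ γ ∈ Gamma0 (N * q), ∀ τ : ℍ, (f : ℍ → ℂ) (γ • τ) = (f : ℍ → ℂ) τ := by
    intro γ hγ τ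
    have h1 := congrArg (C.bigToMer hq hqN) (h ⟨γ, hγ⟩⁻¹)
    rw [bigToMer_move, inv_inv, hfx, compGamma, growToMer, RingHom.comp_apply,
      HeckeJ0.act_algebraMap (det_pos_SL γ)] at h1
    exact congrFun (congrArg Subtype.val (IsFractionRing.injective Hol Mer h1)) τ
  have hmd : MDiff (f : ℍ → ℂ) := f.2.1.1
  have hmod : (f : ℍ → ℂ) ∈ modFun (N * q) := by
    refine ⟨hmd, hinv, fun g => ⟨hmd.comp (mdifferentiable_smul (det_pos_SL g)),
      J0Torsion.isPer_comp_of_invariant hinv g, ?_⟩⟩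
    obtain ⟨m, hm⟩ := f.2.2 g
    refine ⟨m, ?_⟩
    have hqp : qp (N * q) ^ m = qp (N * q * q) ^ (q * m) := funext fun τ => by
      simp [pow_mul, ← qp_eq_pow (N * q) q τ]
    rw [hqp]
    exact isBounded_mul_qp_of_le hm
      (Nat.le_mul_of_pos_left m (Nat.pos_of_ne_zero (NeZero.ne q)))
  refine J0Torsion.mem_FLevel_of_coeffMap_mem jEmb ?_
  have hser : ser (N * q) ⟨_, hmod⟩ = coeffMap jEmb (x : LaurentSeries Qbar) :=
    C.ser_toGrow hq hqN _
  rw [← hser]
  exact J0Torsion.ser_mem_FLevel _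

include hq hqN in
/-- The functions fixed by `Γ₀(N q)` are the field of `X₀(N q)`. -/
theorem mem_base_of_fixed {x : ↥C.big} (h : ∀ γ, C.move hq hqN γ x = x) :
    (x : LaurentSeries Qbar) ∈ modularFunctionFieldBar (N * q) := by
  classical
  obtain ⟨a, b, hb, hab⟩ := C.exists_big_div x
  set G := (C.finite_range_move hq hqN).toFinset with hG
  have hGmul : ∀ γ, G.image (fun σ => C.move hq hqN γ * σ) = G := by
    intro γ
    ext σ
    simp only [hG, Finset.mem_image, Set.Finite.mem_toFinset, Set.mem_range]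
    refine ⟨?_, fun ⟨δ, hδ⟩ => ⟨C.move hq hqN (γ⁻¹ * δ), ⟨_, rfl⟩, ?_⟩⟩
    · rintro ⟨_, ⟨δ, rfl⟩, rfl⟩
      exact ⟨γ * δ, map_mul _ _ _⟩
    · rw [← map_mul, mul_inv_cancel_left, hδ]
  set B : ↥C.big := ∏ σ ∈ G, σ (C.bigToField b) with hB
  have hBinv : ∀ γ, C.move hq hqN γ B = B := by
    intro γ
    rw [hB, map_prod]
    conv_rhs => rw [← hGmul γ, Finset.prod_image fun σ _ τ _ hh => mul_left_cancel hh]
    exact Finset.prod_congr rfl fun σ _ => rfl
  have hBne : B ≠ 0 := Finset.prod_ne_zero_iff.mpr fun σ _ =>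
    (map_ne_zero σ).mpr ((map_ne_zero_iff _ C.bigToField_injective).mpr hb)
  have hone : (1 : ↥C.big ≃ₐ[Qbar] ↥C.big) ∈ G := by
    rw [hG, Set.Finite.mem_toFinset]; exact ⟨1, map_one _⟩
  have hmemσ : ∀ σ ∈ G, ((σ (C.bigToField b) : ↥C.big) : LaurentSeries Qbar) ∈ C.bigAlg := by
    intro σ hσ
    rw [hG, Set.Finite.mem_toFinset] at hσ
    obtain ⟨γ, rfl⟩ := hσ
    exact C.move_mem_bigAlg hq hqN γ b.2
  have hBmem : (B : LaurentSeries Qbar) ∈ C.bigAlg := by
    rw [hB, ← IntermediateField.coe_val, map_prod]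
    exact prod_mem hmemσ
  have hA : x * B = C.bigToField a * ∏ σ ∈ G.erase 1, σ (C.bigToField b) := by
    rw [hB, ← Finset.mul_prod_erase G _ hone, AlgEquiv.one_apply, ← mul_assoc, hab]
  have hAmem : ((x * B : ↥C.big) : LaurentSeries Qbar) ∈ C.bigAlg := by
    rw [hA, ← IntermediateField.coe_val, map_mul, map_prod]
    exact mul_mem a.2 (prod_mem fun σ hσ => hmemσ σ (Finset.mem_of_mem_erase hσ))
  have h1 := C.mem_FLevel_of_move_eq hq hqN hBmem hBinv
  have h2 := C.mem_FLevel_of_move_eq hq hqN hAmem fun γ => by rw [map_mul, h, hBinv]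
  rw [show (x : LaurentSeries Qbar) = ((x * B : ↥C.big) : LaurentSeries Qbar) / B by
    rw [MulMemClass.coe_mul, mul_div_cancel_right₀]
    exact fun h0 => hBne (Subtype.ext h0)]
  exact div_mem h2 h1

include hq hqN in
/-- The functions fixed by the kernel of `χ` are `F₀(y)`. -/
theorem mem_field_of_fixed {x : ↥C.big} (h : ∀ γ ∈ charKer N q C.chi, C.move hq hqN γ x = x) :
    (x : LaurentSeries Qbar) ∈ C.field := by
  classical
  have hfi : (charKer N q C.chi).FiniteIndex :=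
    Subgroup.finiteIndex_of_le (twistKer_le_charKer_of_neg hq C.chi C.chi_neg_one)
  let Q := Gamma0 (N * q) ⧸ charKer N q C.chi
  let _ : Fintype Q := Fintype.ofFinite Q
  let z : ℕ → ↥C.big := fun j =>
    ∑ Q' : Q, algebraMap Qbar ↥C.big (C.chiG Q'.out ^ j) * C.move hq hqN Q'.out x
  have hshift : ∀ (γ : Gamma0 (N * q)) (Q' : Q),
      C.chiG (γ • Q' : Q).out = C.chiG γ * C.chiG Q'.out ∧
        C.move hq hqN (γ • Q' : Q).out x = C.move hq hqN γ (C.move hq hqN Q'.out x) := by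
    intro γ Q'
    obtain ⟨k, hk⟩ : ∃ k : charKer N q C.chi, (γ • Q' : Q).out = γ * Q'.out * k := by
      have h1 : ((γ * Q'.out : Gamma0 (N * q)) : Q) = γ • Q' := by
        conv_rhs => rw [← QuotientGroup.out_eq' Q']
        rfl
      obtain ⟨k, hk⟩ := QuotientGroup.mk_out_eq_mul (charKer N q C.chi) (γ * Q'.out)
      rw [h1] at hk
      exact ⟨k, hk⟩
    constructor
    · rw [hk, map_mul, map_mul, (C.mem_charKer_iff _).mp k.2, mul_one]
    · rw [hk, map_mul, map_mul, AlgEquiv.mul_apply, AlgEquiv.mul_apply, h _ k.2]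
  have hz : ∀ j γ, C.move hq hqN γ (z j) =
      algebraMap Qbar ↥C.big ((C.chiG γ)⁻¹ ^ j) * z j := by
    intro j γ
    simp only [z, map_sum, map_mul, AlgEquiv.commutes, Finset.mul_sum]
    refine Fintype.sum_equiv (MulAction.toPerm γ) _ _ fun Q' => ?_
    rw [MulAction.toPerm_apply, (hshift γ Q').1, (hshift γ Q').2, ← mul_assoc,
      ← map_mul (algebraMap Qbar ↥C.big), ← mul_pow, ← mul_assoc,
      inv_mul_cancel₀ (C.chiG_ne_zero γ), one_mul]
  have hy0 : C.yBig ≠ 0 := fun h0 => C.y_ne (congrArg Subtype.val h0)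
  have hzmem : ∀ j, (z j : LaurentSeries Qbar) ∈ C.field := by
    intro j
    have h1 : ((z j / C.yBig ^ j : ↥C.big) : LaurentSeries Qbar) ∈
        modularFunctionFieldBar (N * q) := C.mem_base_of_fixed hq hqN fun γ => by
      have hc : algebraMap Qbar ↥C.big ((C.chiG γ)⁻¹ ^ j) ≠ 0 :=
        (map_ne_zero _).mpr (pow_ne_zero _ (inv_ne_zero (C.chiG_ne_zero γ)))
      rw [map_div₀, hz, map_pow (C.move hq hqN γ), C.move_yBig hq hqN, chiG_inv, mul_pow,
        ← map_pow (algebraMap Qbar ↥C.big),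
        mul_div_mul_left _ _ hc]
    rw [show (z j : LaurentSeries Qbar) =
      ((z j / C.yBig ^ j : ↥C.big) : LaurentSeries Qbar) * C.y ^ j by
        rw [show (C.y ^ j : LaurentSeries Qbar) = ((C.yBig ^ j : ↥C.big) : LaurentSeries Qbar)
          from rfl, ← MulMemClass.coe_mul, div_mul_cancel₀ _ (pow_ne_zero _ hy0)]]
    exact mul_mem (C.base_le h1) (_root_.pow_mem C.y_mem j)
  have hd : (C.d : ↥C.big) ≠ 0 := by
    rw [← map_natCast (algebraMap Qbar ↥C.big), map_ne_zero]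
    exact Nat.cast_ne_zero.mpr C.d_pos.ne'
  have hsum : ∑ j ∈ Finset.range C.d, z j = (C.d : ↥C.big) * x := by
    simp only [z]
    rw [Finset.sum_comm, Fintype.sum_eq_single ((1 : Gamma0 (N * q)) : Q)]
    · obtain ⟨k, hk⟩ := QuotientGroup.mk_out_eq_mul (charKer N q C.chi) (1 : Gamma0 (N * q))
      rw [hk, one_mul]
      simp [(C.mem_charKer_iff _).mp k.2, h _ k.2]
    · intro Q' hQ'
      rw [← Finset.sum_mul, ← map_sum]
      have hne : C.chiG Q'.out ≠ 1 := fun h1 => hQ' (by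
        rw [← QuotientGroup.out_eq' Q', QuotientGroup.eq]
        exact (charKer N q C.chi).mul_mem ((charKer N q C.chi).inv_mem
          ((C.mem_charKer_iff _).mpr h1)) (one_mem _))
      rw [geom_sum_eq hne, show C.chiG Q'.out ^ C.d = 1 from C.chiQ_pow _, sub_self, zero_div,
        map_zero, zero_mul]
  have hx : ((C.d : ↥C.big) : LaurentSeries Qbar) * x ∈ C.field := by
    rw [← MulMemClass.coe_mul, ← hsum, ← IntermediateField.coe_val, map_sum]
    exact sum_mem fun j _ => hzmem j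
  have hdF : ((C.d : ↥C.big) : LaurentSeries Qbar) ∈ C.field := by
    rw [show ((C.d : ↥C.big) : LaurentSeries Qbar) = (C.d : LaurentSeries Qbar) by simp]
    exact natCast_mem _ _
  rw [show (x : LaurentSeries Qbar) = ((C.d : ↥C.big) : LaurentSeries Qbar) * x /
    ((C.d : ↥C.big) : LaurentSeries Qbar) by
      rw [mul_div_cancel_left₀]; exact fun h0 => hd (Subtype.ext h0)]
  exact div_mem hx hdF

theorem move_of_mem_field {γ : Gamma0 (N * q)} (hγ : γ ∈ charKer N q C.chi) {x : ↥C.big}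
    (hx : (x : LaurentSeries Qbar) ∈ C.field) : C.move hq hqN γ x = x := by
  obtain ⟨x, hxb⟩ := x
  change x ∈ C.field at hx
  induction hx using IntermediateField.adjoin_induction with
  | mem y hy =>
    rcases hy with hy | rfl
    · exact C.move_of_base hq hqN γ hy
    · rw [show (⟨C.y, hxb⟩ : ↥C.big) = C.yBig from rfl, C.move_yBig hq hqN,
        (C.mem_charKer_iff _).mp ((charKer N q C.chi).inv_mem hγ), map_one, one_mul]
  | algebraMap c =>
    rw [show (⟨algebraMap Qbar (LaurentSeries Qbar) c, hxb⟩ : ↥C.big) = algebraMap Qbar _ c from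
      Subtype.ext rfl, AlgEquiv.commutes]
  | add y z hy hz ihy ihz =>
    rw [show (⟨y + z, hxb⟩ : ↥C.big) = ⟨y, C.field_le_big hy⟩ + ⟨z, C.field_le_big hz⟩ from rfl]
    simp only [map_add, ihy, ihz]
  | inv y hy ih =>
    rw [show (⟨y⁻¹, hxb⟩ : ↥C.big) = (⟨y, C.field_le_big hy⟩ : ↥C.big)⁻¹ from rfl]
    simp only [map_inv₀, ih]
  | mul y z hy hz ihy ihz =>
    rw [show (⟨y * z, hxb⟩ : ↥C.big) = ⟨y, C.field_le_big hy⟩ * ⟨z, C.field_le_big hz⟩ from rfl]
    simp only [map_mul, ihy, ihz]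

end TwistCover

end Fermat.Agent.XHLite

end
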