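import Fermat.Agent.XHLite.Twist.Cover
import Fermat.Agent.X0Analytic.Embedding

/-!
# The functions `j (e (τ + c / q))`

For `e ∣ N q²` they are permuted by `Γ₀(N q)`, they are translates of some `j (e' τ)` by elements
of `SL₂(ℤ)`, and their `q`-series are obtained from `j (q ^ e)` by rotating the variable.
-/

set_option autoImplicit false

noncomputable section

open CongruenceSubgroup UpperHalfPlane Matrix.SpecialLinearGroup
open scoped MatrixGroups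
open Fermat.Agent.X0Analytic

namespace Fermat.Agent.XHLite

local notation "Qbar" => AlgebraicClosure ℚ

variable {N q : ℕ} [NeZero N] [NeZero q]

/-- The matrix `(q c; 0 q)`, acting as the translation by `c / q`. -/
def shiftGL (q : ℕ) [NeZero q] (c : ℤ) : GL (Fin 2) ℝ := upperGL q c q

theorem coe_shiftGL_smul (c : ℤ) (τ : ℍ) :
    ((shiftGL q c • τ : ℍ) : ℂ) = (τ : ℂ) + (c : ℂ) / q := by
  rw [shiftGL, coe_upperGL_smul]
  field_simp [NeZero.ne q]

/-- `τ ↦ j (e (τ + c / q))`. -/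
def rotJ (q : ℕ) [NeZero q] (e : ℕ) [NeZero e] (c : ℤ) : ℍ → ℂ := fun τ =>
  scaledJ e (shiftGL q c • τ)

theorem rotJ_zero (e : ℕ) [NeZero e] : rotJ q e 0 = scaledJ e := funext fun τ => by
  rw [rotJ]
  congr 1
  exact UpperHalfPlane.ext (by rw [coe_shiftGL_smul]; simp)

theorem jFun_eq_of_int {σ τ : ℍ} (n : ℤ) (h : (σ : ℂ) = τ + n) : jFun σ = jFun τ := by
  have h1 : σ = ModularGroup.T ^ n • τ := by
    rw [UpperHalfPlane.modular_T_zpow_smul]
    exact UpperHalfPlane.ext (by rw [UpperHalfPlane.coe_vadd, h]; push_cast; ring)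
  rw [h1, jFun_smul]

theorem rotJ_eq_of_dvd {e : ℕ} [NeZero e] (h : q ∣ e) (c : ℤ) : rotJ q e c = scaledJ e := by
  obtain ⟨e₁, rfl⟩ := h
  funext τ
  refine jFun_eq_of_int ((e₁ : ℤ) * c) ?_
  rw [coe_scaleGL_smul, coe_shiftGL_smul, coe_scaleGL_smul]
  push_cast
  field_simp [NeZero.ne q]

theorem rotJ_congr {e : ℕ} [NeZero e] {c c' : ℤ} (h : (q : ℤ) ∣ c - c') :
    rotJ q e c = rotJ q e c' := by
  obtain ⟨t, ht⟩ := h
  funext τ
  refine jFun_eq_of_int ((e : ℤ) * t) ?_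
  rw [coe_scaleGL_smul, coe_shiftGL_smul, coe_scaleGL_smul, coe_shiftGL_smul,
    show c = c' + q * t by linarith]
  push_cast
  field_simp [NeZero.ne q]
  ring

variable (N q) in
/-- The elements `(1 0; N q t 1)`. -/
def lowerSL (t : ℤ) : SL(2, ℤ) :=
  ⟨!![1, 0; (N : ℤ) * q * t, 1], by simp [Matrix.det_fin_two_of]⟩

omit [NeZero N] [NeZero q] in
theorem lowerSL_mem (t : ℤ) : lowerSL N q t ∈ Gamma0 (N * q) :=
  (HeckeJ0.mem_Gamma0_iff_dvd _).mpr (by simp [lowerSL])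

omit [NeZero N] [NeZero q] in
theorem lowerSL_mul (t t' : ℤ) : lowerSL N q t * lowerSL N q t' = lowerSL N q (t + t') := by
  ext i j
  fin_cases i <;> fin_cases j <;>
    rw [Matrix.SpecialLinearGroup.coe_mul, Matrix.mul_apply, Fin.sum_univ_two] <;>
    simp [lowerSL, mul_add]

omit [NeZero N] [NeZero q] in
theorem lowerSL_zero : lowerSL N q 0 = 1 := by
  ext i j
  fin_cases i <;> fin_cases j <;> simp [lowerSL]

theorem smul_smul_of_eq {A B C D : GL (Fin 2) ℝ} (h : A * B = C * D) (τ : ℍ) :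
    A • B • τ = C • D • τ := by
  rw [← mul_smul, h, mul_smul]

theorem coe_GL_apply (g : SL(2, ℤ)) (i j : Fin 2) :
    ((g : GL (Fin 2) ℝ) : Matrix (Fin 2) (Fin 2) ℝ) i j = ((g i j : ℤ) : ℝ) := rfl

omit [NeZero N] in
/-- `(τ + s/q)` after `(1 0; N q t 1)`, generic case. -/
theorem exists_shift_lower {s t s' : ℤ} (h : (q : ℤ) ∣ s - s' * (1 + s * N * t)) :
    ∃ γ ∈ Gamma0 (N * q), ∀ τ : ℍ,
      shiftGL q s • lowerSL N q t • τ = γ • shiftGL q s' • τ := by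
  obtain ⟨w, hw⟩ := h
  let γ : SL(2, ℤ) := ⟨!![1 + s * N * t, w; (N : ℤ) * q * t, 1 - s' * N * t], by
    rw [Matrix.det_fin_two_of]; linear_combination ((N : ℤ) * t) * hw⟩
  refine ⟨γ, (HeckeJ0.mem_Gamma0_iff_dvd _).mpr (by simp [γ]),
    smul_smul_of_eq (C := (γ : GL (Fin 2) ℝ)) ?_⟩
  have hwR : (s : ℝ) - s' * (1 + s * N * t) = q * w := by exact_mod_cast hw
  refine Matrix.GeneralLinearGroup.ext fun i j => ?_
  simp only [Units.val_mul, Matrix.mul_apply, Fin.sum_univ_two, coe_GL_apply,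
    HeckeJ0.val_mapGL_apply]
  fin_cases i <;> fin_cases j <;>
    simp [shiftGL, upperGL, γ, lowerSL]
  · ring
  · linear_combination hwR
  · ring
  · ring

omit [NeZero N] in
/-- `(τ + s/q)` after `(1 0; N q t 1)`, the special case. -/
theorem exists_shift_lower_special {e : ℕ} [NeZero e] (he : e ∣ N) {s t : ℤ}
    (h : (q : ℤ) ∣ 1 + s * N * t) :
    ∃ δ : SL(2, ℤ), ∀ τ : ℍ,
      scaleGL e • shiftGL q s • lowerSL N q t • τ = δ • scaleGL (q * q * e) • τ := by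
  obtain ⟨u, hu⟩ := h
  obtain ⟨e', rfl⟩ := he
  have hu' : 1 + s * ((e : ℤ) * e') * t = q * u := by exact_mod_cast hu
  let δ : SL(2, ℤ) := ⟨!![u, (e : ℤ) * s; (e' : ℤ) * t, q], by
    rw [Matrix.det_fin_two_of]; linear_combination -hu'⟩
  refine ⟨δ, fun τ => ?_⟩
  show scaleGL e • shiftGL q s • (lowerSL (e * e') q t : GL (Fin 2) ℝ) • τ =
    (δ : GL (Fin 2) ℝ) • scaleGL (q * q * e) • τ
  rw [← mul_smul (shiftGL q s), smul_smul_of_eq ?_]
  have huR : (1 : ℝ) + s * (e * e') * t = q * u := by exact_mod_cast hu'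
  refine Matrix.GeneralLinearGroup.ext fun i j => ?_
  simp only [Units.val_mul, Matrix.mul_apply, Fin.sum_univ_two, coe_GL_apply]
  fin_cases i <;> fin_cases j <;>
    simp [shiftGL, upperGL, scaleGL, δ, lowerSL]
  · linear_combination ((e : ℝ) * q) * huR
  · ring

omit [NeZero N] in
theorem rotJ_lower_special {e : ℕ} [NeZero e] (he : e ∣ N) {s t : ℤ}
    (h : (q : ℤ) ∣ 1 + s * N * t) (τ : ℍ) :
    rotJ q e s (lowerSL N q t • τ) = scaledJ (q * q * e) τ := by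
  obtain ⟨δ, hδ⟩ := exists_shift_lower_special he h
  rw [rotJ, scaledJ, hδ, jFun_smul, scaledJ]

theorem exists_int_inv {q : ℕ} (hq : q.Prime) {a : ℤ} (h : ¬ (q : ℤ) ∣ a) :
    ∃ b : ℤ, (q : ℤ) ∣ 1 - b * a := by
  obtain ⟨u, v, huv⟩ := ((Nat.prime_iff_prime_int.mp hq).coprime_iff_not_dvd.mpr h)
  exact ⟨v, u, by linear_combination -huv⟩

theorem exists_rotJ_lower (hq : q.Prime) {e : ℕ} [NeZero e] (he : e ∣ N) (s t : ℤ) :
    (∃ s' : ℤ, ∀ τ : ℍ, rotJ q e s (lowerSL N q t • τ) = rotJ q e s' τ) ∨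
      ∀ τ : ℍ, rotJ q e s (lowerSL N q t • τ) = scaledJ (q * q * e) τ := by
  by_cases h : (q : ℤ) ∣ 1 + s * N * t
  · exact Or.inr (rotJ_lower_special he h)
  obtain ⟨b, hb⟩ := exists_int_inv hq h
  refine Or.inl ⟨b * s, fun τ => ?_⟩
  obtain ⟨γ, hγ, hγτ⟩ := exists_shift_lower (N := N) (q := q) (s := s) (t := t) (s' := b * s) (by
    rw [show s - b * s * (1 + s * N * t) = s * (1 - b * (1 + s * N * t)) by ring]
    exact dvd_mul_of_dvd_right hb _)
  rw [rotJ, hγτ, scaledJ_smul_of_mem (N := N * q) (dvd_mul_of_dvd_left he q) hγ, rotJ]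

variable (N q) in
/-- The functions `j (e (τ + c / q))`, `e ∣ N q²`. -/
def rotGens : Set (ℍ → ℂ) :=
  {f | ∃ (e : ℕ) (_ : NeZero e), e ∣ N * q * q ∧ ∃ c : ℤ, f = rotJ q e c}

omit [NeZero N] in
theorem scaledJ_mem_rotGens {e : ℕ} [NeZero e] (he : e ∣ N * q * q) :
    scaledJ e ∈ rotGens N q :=
  ⟨e, inferInstance, he, 0, (rotJ_zero e).symm⟩

omit [NeZero N] in
/-- `τ + c/q` after an element of `Γ₀(N q²)`. -/
theorem exists_shift_gamma {γ : SL(2, ℤ)} (hγ : γ ∈ Gamma0 (N * q * q)) (c : ℤ) :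
    ∃ γ' ∈ Gamma0 (N * q * q), ∃ c' : ℤ, ∀ τ : ℍ,
      shiftGL q c • γ • τ = γ' • shiftGL q c' • τ := by
  obtain ⟨C, hC⟩ := (HeckeJ0.mem_Gamma0_iff_dvd _).mp hγ
  push_cast at hC
  set a := γ 0 0 with ha
  set b := γ 0 1 with hb
  set d := γ 1 1 with hd
  have hdet : a * d - b * γ 1 0 = 1 := by
    have := γ.det_coe
    rwa [Matrix.det_fin_two] at this
  -- `c d - c' a` is divisible by `q` for `c' = c d²`
  obtain ⟨w, hw⟩ : (q : ℤ) ∣ c * d - c * d * d * a :=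
    ⟨-(c * d * (b * (N * q * C))), by linear_combination (-(c * d)) * hdet - (c * d * b) * hC⟩
  let γ' : SL(2, ℤ) := ⟨!![a + c * (N * q * C), b + w - c * (c * d * d) * (N * C);
    γ 1 0, d - c * d * d * (N * q * C)], by
    rw [Matrix.det_fin_two_of]
    linear_combination hdet + ((N : ℤ) * q * C) * hw -
      (w - c * (c * d * d) * (N * C)) * hC⟩
  refine ⟨γ', (HeckeJ0.mem_Gamma0_iff_dvd _).mpr ⟨C, by simp [γ', hC]⟩, c * d * d,
    smul_smul_of_eq (B := (γ : GL (Fin 2) ℝ)) (C := (γ' : GL (Fin 2) ℝ)) ?_⟩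
  have hwR : (c : ℝ) * d - c * d * d * a = q * w := by exact_mod_cast hw
  have hCR : ((γ 1 0 : ℤ) : ℝ) = N * q * q * C := by exact_mod_cast hC
  refine Matrix.GeneralLinearGroup.ext fun i j => ?_
  simp only [Units.val_mul, Matrix.mul_apply, Fin.sum_univ_two, coe_GL_apply]
  fin_cases i <;> fin_cases j <;>
    simp [shiftGL, upperGL, γ', ← ha, ← hb, ← hd]
  · linear_combination (c : ℝ) * hCR
  · linear_combination hwR
  · ring
  · linear_combination -((c : ℝ) * d * d) * hCR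

theorem rotJ_comp_gamma {e : ℕ} [NeZero e] (he : e ∣ N * q * q) {γ : SL(2, ℤ)}
    (hγ : γ ∈ Gamma0 (N * q * q)) (c : ℤ) :
    ∃ c' : ℤ, ∀ τ : ℍ, rotJ q e c (γ • τ) = rotJ q e c' τ := by
  obtain ⟨γ', hγ', c', h⟩ := exists_shift_gamma hγ c
  exact ⟨c', fun τ => by rw [rotJ, h, scaledJ_smul_of_mem he hγ', rotJ]⟩

omit [NeZero N] [NeZero q] in
/-- Elements of `Γ₀(N q)` are products of one of level `N q²` and one `(1 0; N q t 1)`. -/
theorem exists_eq_mul_lower (hq : q.Prime) {γ : SL(2, ℤ)} (hγ : γ ∈ Gamma0 (N * q)) :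
    ∃ γ₂ ∈ Gamma0 (N * q * q), ∃ t : ℤ, γ = γ₂ * lowerSL N q t := by
  obtain ⟨k, hk⟩ := (HeckeJ0.mem_Gamma0_iff_dvd _).mp hγ
  push_cast at hk
  set d := γ 1 1
  have hnd : ¬ (q : ℤ) ∣ d := fun ⟨w, hw⟩ => by
    have hdet := γ.det_coe
    rw [Matrix.det_fin_two, hk] at hdet
    have h1 : (q : ℤ) ∣ 1 :=
      ⟨γ 0 0 * w - γ 0 1 * (N * k), by linear_combination -hdet + (γ 0 0) * hw⟩
    have := Int.eq_one_of_dvd_one (by positivity) h1
    exact hq.ne_one (by exact_mod_cast this)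
  obtain ⟨v, w, hw⟩ := exists_int_inv hq hnd
  refine ⟨γ * lowerSL N q (-(k * v)), ?_, k * v, ?_⟩
  · rw [HeckeJ0.mem_Gamma0_iff_dvd]
    refine ⟨k * w, ?_⟩
    rw [Matrix.SpecialLinearGroup.coe_mul, Matrix.mul_apply, Fin.sum_univ_two, hk]
    simp [lowerSL]
    linear_combination ((N : ℤ) * q * k) * hw
  · rw [mul_assoc, lowerSL_mul, neg_add_cancel, lowerSL_zero, mul_one]

omit [NeZero N] [NeZero q] in
theorem dvd_or_dvd (hq : q.Prime) {e : ℕ} (he : e ∣ N * q * q) : q ∣ e ∨ e ∣ N := by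
  by_cases h : q ∣ e
  · exact Or.inl h
  have hc : Nat.Coprime e q := ((Nat.Prime.coprime_iff_not_dvd hq).mpr h).symm
  exact Or.inr (hc.dvd_of_dvd_mul_right (hc.dvd_of_dvd_mul_right he))

/-- `Γ₀(N q)` permutes the functions `j (e (τ + c / q))`. -/
theorem rotGens_comp (hq : q.Prime) (hqN : ¬ q ∣ N) {f : ℍ → ℂ} (hf : f ∈ rotGens N q)
    {γ : SL(2, ℤ)} (hγ : γ ∈ Gamma0 (N * q)) : (fun τ => f (γ • τ)) ∈ rotGens N q := by
  obtain ⟨e, _, he, c, rfl⟩ := hf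
  obtain ⟨γ₂, hγ₂, t, rfl⟩ := exists_eq_mul_lower hq hγ
  obtain ⟨c₁, hc₁⟩ := rotJ_comp_gamma he hγ₂ c
  have hcomp : (fun τ : ℍ => rotJ q e c ((γ₂ * lowerSL N q t) • τ)) =
      fun τ => rotJ q e c₁ (lowerSL N q t • τ) := funext fun τ => by rw [mul_smul, hc₁]
  rw [hcomp]
  -- `e` is coprime to `q`, or `e = q e₀`, or `e = q² e₀`
  rcases dvd_or_dvd hq he with hqe | heN
  · rw [rotJ_eq_of_dvd hqe]
    obtain ⟨e₁, rfl⟩ := hqe
    have he₁ : e₁ ∣ N * q :=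
      Nat.dvd_of_mul_dvd_mul_left hq.pos (by rwa [mul_comm q (N * q)])
    by_cases hq₁ : q ∣ e₁
    · obtain ⟨e₀, rfl⟩ := hq₁
      have he₀ : e₀ ∣ N := Nat.dvd_of_mul_dvd_mul_left hq.pos (by rwa [mul_comm q N])
      have : NeZero e₀ := ⟨fun h => NeZero.ne (q * (q * e₀)) (by rw [h]; simp)⟩
      -- `j (q² e₀ τ) = rotJ e₀ s (lowerSL 1 τ)` for a suitable `s`
      obtain ⟨v, hv⟩ := exists_int_inv hq (a := (N : ℤ))
        (fun h => hqN (Int.natCast_dvd_natCast.mp h))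
      have hs : (q : ℤ) ∣ 1 + -v * N * 1 := by
        rw [show 1 + -v * (N : ℤ) * 1 = 1 - v * N by ring]; exact hv
      have hrw : ∀ τ : ℍ, scaledJ (q * (q * e₀)) (lowerSL N q t • τ) =
          rotJ q e₀ (-v) (lowerSL N q (1 + t) • τ) := fun τ => by
        rw [← lowerSL_mul, mul_smul, rotJ_lower_special he₀ hs]
        simp only [mul_assoc]
      simp only [hrw]
      rcases exists_rotJ_lower hq he₀ (-v) (1 + t) with ⟨s', h'⟩ | h'
      · exact ⟨e₀, inferInstance, dvd_mul_of_dvd_left (dvd_mul_of_dvd_left he₀ q) q, s',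
          funext h'⟩
      · rw [funext h']
        exact scaledJ_mem_rotGens (by
          obtain ⟨r, rfl⟩ := he₀
          exact ⟨r, by ring⟩)
    · rw [show (fun τ : ℍ => scaledJ (q * e₁) (lowerSL N q t • τ)) = scaledJ (q * e₁) from
        funext fun τ => scaledJ_smul_of_mem (N := N * q) ?_ (lowerSL_mem t) τ]
      · exact scaledJ_mem_rotGens he
      · have hc : Nat.Coprime e₁ q := ((Nat.Prime.coprime_iff_not_dvd hq).mpr hq₁).symm
        rw [mul_comm N q]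
        exact mul_dvd_mul_left q (hc.dvd_of_dvd_mul_right he₁)
  · rcases exists_rotJ_lower hq heN c₁ t with ⟨s', h'⟩ | h'
    · exact ⟨e, inferInstance, he, s', funext h'⟩
    · rw [funext h']
      exact scaledJ_mem_rotGens (by
        obtain ⟨r, rfl⟩ := heN
        exact ⟨r, by ring⟩)

/-- Each of the functions is a translate of some `j (e τ)` by an element of `SL₂(ℤ)`. -/
theorem exists_eq_scaledJ_comp (hq : q.Prime) (hqN : ¬ q ∣ N) {f : ℍ → ℂ}
    (hf : f ∈ rotGens N q) :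
    ∃ (e : ℕ) (_ : NeZero e) (g : SL(2, ℤ)), e ∣ N * q * q ∧ f = fun τ => scaledJ e (g • τ) := by
  obtain ⟨e, _, he, c, rfl⟩ := hf
  rcases dvd_or_dvd hq he with hqe | heN
  · exact ⟨e, inferInstance, 1, he, by rw [rotJ_eq_of_dvd hqe]; simp⟩
  by_cases hc : (q : ℤ) ∣ c
  · exact ⟨e, inferInstance, 1, he, by
      rw [rotJ_congr (c' := 0) (by simpa using hc), rotJ_zero]; simp⟩
  have hcN : ¬ (q : ℤ) ∣ c * N := fun h =>
    ((Nat.prime_iff_prime_int.mp hq).dvd_or_dvd h).elim hc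
      fun h' => hqN (Int.natCast_dvd_natCast.mp h')
  obtain ⟨v, hv⟩ := exists_int_inv hq hcN
  have hspec : (q : ℤ) ∣ 1 + c * N * (-v) := by
    rw [show 1 + c * (N : ℤ) * (-v) = 1 - v * (c * N) by ring]; exact hv
  refine ⟨q * q * e, inferInstance, lowerSL N q v, ?_, funext fun τ => ?_⟩
  · obtain ⟨r, rfl⟩ := heN
    exact ⟨r, by ring⟩
  · rw [← rotJ_lower_special heN hspec, ← mul_smul, lowerSL_mul, neg_add_cancel, lowerSL_zero,
      one_smul]

theorem rotGens_finite : (rotGens N q).Finite := by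
  refine (Set.finite_range fun p : (N * q * q).divisors × Fin q =>
    @rotJ q _ p.1 ⟨(Nat.pos_of_mem_divisors p.1.2).ne'⟩ ((p.2 : ℕ) : ℤ)).subset ?_
  rintro f ⟨e, _, he, c, rfl⟩
  have hq0 : (q : ℤ) ≠ 0 := by exact_mod_cast NeZero.ne q
  have hc0 := Int.emod_nonneg c hq0
  have hc1 := Int.emod_lt_of_pos c (show (0 : ℤ) < q by
    exact_mod_cast Nat.pos_of_ne_zero (NeZero.ne q))
  refine ⟨(⟨e, Nat.mem_divisors.mpr ⟨he, NeZero.ne _⟩⟩, ⟨(c % q).toNat, by omega⟩), ?_⟩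
  show rotJ q e (((c % q).toNat : ℕ) : ℤ) = rotJ q e c
  refine rotJ_congr ?_
  rw [Int.toNat_of_nonneg hc0, Int.emod_def]
  exact ⟨-(c / q), by ring⟩

end Fermat.Agent.XHLite

end
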