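import Fermat.Agent.XHLite.Twist.Fixed
import Fermat.Agent.FunctionFieldRR.PushPull
import Fermat.Agent.Congruence.CurveFacts

/-!
# Functions translated by `b / q` and their norms to `F₀(y)`

The field generated by the `j (e (τ + c / q))` and `y` is finite over `F₀(y)`; a function of level
`N q²` gives a function on `F₀(y)` by translation by `b / q` and norm, compatibly with inertia
acting on coefficients and with `Γ₀(N q²)`.
-/

set_option autoImplicit false

noncomputable section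

open CongruenceSubgroup UpperHalfPlane Matrix.SpecialLinearGroup ModularCurve AlgebraicCurve
open scoped MatrixGroups
open Fermat.Agent.X0Analytic
open Fermat.Agent.J0Torsion (jEmb)
open Fermat.Agent.FunctionFieldRR

namespace Fermat.Agent.XHLite

local notation "Qbar" => AlgebraicClosure ℚ

/-- `act` only depends on the action on `ℍ`. -/
theorem act_congr {g h : GL (Fin 2) ℝ} (hg : 0 < g.det.val) (hh : 0 < h.det.val)
    (H : ∀ τ : ℍ, g • τ = h • τ) (F : Mer) : HeckeJ0.act g F = HeckeJ0.act h F := by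
  suffices h1 : HeckeJ0.act g = HeckeJ0.act h from RingHom.congr_fun h1 F
  refine IsLocalization.ringHom_ext (nonZeroDivisors Hol) (RingHom.ext fun f => ?_)
  simp only [RingHom.comp_apply, HeckeJ0.act_algebraMap hg, HeckeJ0.act_algebraMap hh]
  exact congrArg _ (Subtype.ext (funext fun τ => congrArg (f : ℍ → ℂ) (H τ)))

theorem act_merC {g : GL (Fin 2) ℝ} (hg : 0 < g.det.val) (c : ℂ) :
    HeckeJ0.act g (TwistCover.merC c) = TwistCover.merC c := by
  rw [TwistCover.merC, HeckeJ0.act_algebraMap hg, AlgHom.commutes]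

/-- A field is finite over the fixed field of a finite group. -/
theorem finite_of_fixedPoints (G : Type*) [Group G] [Finite G] (E : Type*) [Field E]
    {L : Type*} [Field L] [Algebra E L] [MulSemiringAction G L]
    (h : ∀ x : E, ∀ g : G, g • algebraMap E L x = algebraMap E L x)
    (h' : ∀ x : L, (∀ g : G, g • x = x) → ∃ y : E, algebraMap E L y = x) :
    Module.Finite E L := by
  let i : E →+* ↥(FixedPoints.subfield G L) := (algebraMap E L).codRestrict _ h
  have hi : Function.Surjective i := fun x =>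
    (h' x.1 x.2).imp fun y hy => Subtype.ext hy
  let e := (RingEquiv.ofBijective i ⟨i.injective, hi⟩).symm
  refine Module.Finite.of_equiv_equiv e (RingEquiv.refl L) (RingHom.ext fun x => ?_)
  obtain ⟨y, rfl⟩ := hi x
  show algebraMap E L (e (RingEquiv.ofBijective i ⟨i.injective, hi⟩ y)) = _
  rw [RingEquiv.symm_apply_apply]
  rfl

variable {N q : ℕ} [NeZero N] [NeZero q]

omit [NeZero N] in
theorem det_pos_shiftGL (c : ℤ) : 0 < (shiftGL q c).det.val := det_pos_upperGL q c q

omit [NeZero N] in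
/-- Translation commutes with `Γ₀(N q²)` up to a square. -/
theorem exists_shift_gamma_sq {γ : SL(2, ℤ)} (hγ : γ ∈ Gamma0 (N * q * q)) {c c' : ℤ}
    (hc : (q : ℤ) ∣ c' - c * γ 1 1 * γ 1 1) :
    ∃ γ' ∈ Gamma0 (N * q * q), ∀ τ : ℍ, shiftGL q c • γ • τ = γ' • shiftGL q c' • τ := by
  obtain ⟨C, hC⟩ := (HeckeJ0.mem_Gamma0_iff_dvd _).mp hγ
  push_cast at hC
  obtain ⟨t, ht⟩ := hc
  set a := γ 0 0 with ha
  set b := γ 0 1 with hb
  set d := γ 1 1 with hd
  have hdet : a * d - b * γ 1 0 = 1 := by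
    have := γ.det_coe
    rwa [Matrix.det_fin_two] at this
  obtain ⟨w, hw⟩ : (q : ℤ) ∣ c * d - c' * a :=
    ⟨-(c * d * (b * (N * q * C))) - t * a, by
      linear_combination (-(c * d)) * hdet - (c * d * b) * hC - a * ht⟩
  let γ' : SL(2, ℤ) := ⟨!![a + c * (N * q * C), b + w - c * c' * (N * C);
    γ 1 0, d - c' * (N * q * C)], by
    rw [Matrix.det_fin_two_of]
    linear_combination hdet + ((N : ℤ) * q * C) * hw - (w - c * c' * (N * C)) * hC⟩
  refine ⟨γ', (HeckeJ0.mem_Gamma0_iff_dvd _).mpr ⟨C, by simp [γ', hC]⟩,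
    smul_smul_of_eq (B := (γ : GL (Fin 2) ℝ)) (C := (γ' : GL (Fin 2) ℝ)) ?_⟩
  have hwR : (c : ℝ) * d - c' * a = q * w := by exact_mod_cast hw
  have hCR : ((γ 1 0 : ℤ) : ℝ) = N * q * q * C := by exact_mod_cast hC
  refine Matrix.GeneralLinearGroup.ext fun i j => ?_
  simp only [Units.val_mul, Matrix.mul_apply, Fin.sum_univ_two, coe_GL_apply]
  fin_cases i <;> fin_cases j <;>
    simp [shiftGL, upperGL, γ', ← ha, ← hb, ← hd]
  · linear_combination (c : ℝ) * hCR
  · linear_combination hwR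
  · ring
  · linear_combination -(c' : ℝ) * hCR

omit [NeZero N] [NeZero q] in
theorem coeffMap_rot {σ : Qbar →+* Qbar} {ζ ζ' : Qbar} (hζ : ζ ≠ 0) (hζ' : ζ' ≠ 0) (h : σ ζ = ζ')
    (x : LaurentSeries Qbar) :
    coeffMap σ (rot ζ hζ x) = rot ζ' hζ' (coeffMap σ x) := by
  ext n
  rw [coeffMap_coeff, rot_coeff, rot_coeff, coeffMap_coeff, map_mul, map_zpow₀, h]

omit [NeZero N] in
theorem zetaQ_zpow_eq {c c' : ℤ} (h : (q : ℤ) ∣ c - c') : zetaQ q ^ c = zetaQ q ^ c' := by
  obtain ⟨t, ht⟩ := h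
  rw [show c = c' + q * t by linarith, zpow_add₀ zetaQ_ne_zero, zpow_mul, zpow_natCast,
    zetaQ_pow_q, one_zpow, mul_one]

omit [NeZero N] in
theorem rotSer_algebraMap (c : ℤ) (a : Qbar) :
    rotSer q c (algebraMap Qbar (LaurentSeries Qbar) a) = algebraMap Qbar _ a := by
  rw [algebraMap_laurentSeries_eq_single]
  ext n
  rw [rotSer, rot_coeff, HahnSeries.coeff_single]
  split_ifs with h
  · rw [h, zpow_zero, one_mul]
  · rw [mul_zero]

/-- Rotation of series as an algebra map. -/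
def rotAlg (q : ℕ) [NeZero q] (c : ℤ) : LaurentSeries Qbar →ₐ[Qbar] LaurentSeries Qbar :=
  { rotSer q c with commutes' := rotSer_algebraMap c }

theorem exists_qSer_rotJ {e : ℕ} [NeZero e] (he : e ∣ N * q * q) (c : ℤ) :
    ∃ h : rotJ q e c ∈ perMero 1,
      qSer 1 ⟨rotJ q e c, h⟩ = coeffMap jEmb (rotSer q c (jL Qbar e)) :=
  qSer_shift (q := q) (toPerOne (N * q * q) ⟨scaledJ e, scaledJ_mem he⟩) (x := jL Qbar e)
    (ser_scaledJ_eq jEmb he) c

namespace TwistCover

variable (C : TwistCover N q)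

theorem rotSer_jL_mem_serGens {e : ℕ} [NeZero e] (he : e ∣ N * q * q) (c : ℤ) :
    rotSer q c (jL Qbar e) ∈ C.serGens :=
  ⟨rotJ q e c, Or.inl ⟨e, inferInstance, he, c, rfl⟩, exists_qSer_rotJ he c⟩

theorem serGens_cases {x : LaurentSeries Qbar} (hx : x ∈ C.serGens) :
    (∃ (e : ℕ) (_ : NeZero e), e ∣ N * q * q ∧ ∃ c : ℤ, x = rotSer q c (jL Qbar e)) ∨
      ∃ b : Qbar, x = algebraMap Qbar _ b * C.y := by
  obtain ⟨f, hf, h, hs⟩ := hx
  rcases hf with ⟨e, _, he, c, rfl⟩ | ⟨a, rfl⟩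
  · obtain ⟨h', hs'⟩ := exists_qSer_rotJ he c
    exact Or.inl ⟨e, inferInstance, he, c, coeffMap_injective jEmb.injective (hs.symm.trans hs')⟩
  · obtain ⟨b, hb⟩ := C.exists_chiQ a
    refine Or.inr ⟨b, coeffMap_injective jEmb.injective ?_⟩
    rw [← hs, map_mul, algebraMap_laurentSeries_eq_single, coeffMap_single, hb,
      ← qSer_algebraMap (h := 1), ← C.qSer_eq, ← map_mul]
    refine congrArg (qSer 1) (Subtype.ext ?_)
    funext τ
    simp

theorem rot_FLevel_le (c : ℤ) : (FLevel Qbar (N * q * q)).map (rotAlg q c) ≤ C.big := by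
  rw [FLevel_eq_adjoin, IntermediateField.adjoin_map, IntermediateField.adjoin_le_iff]
  rintro _ ⟨x, ⟨e, _, he, rfl⟩, rfl⟩
  exact IntermediateField.subset_adjoin Qbar _ (C.rotSer_jL_mem_serGens he c)

/-- A function of level `N q²` translated by `c / q`. -/
def rotMap (c : ℤ) : ↥(FLevel Qbar (N * q * q)) →ₐ[Qbar] ↥C.big :=
  AlgHom.codRestrict ((rotAlg q c).comp (FLevel Qbar (N * q * q)).val) C.big.toSubalgebra
    fun x => C.rot_FLevel_le c ⟨x, x.2, rfl⟩

@[simp]
theorem coe_rotMap (c : ℤ) (x : ↥(FLevel Qbar (N * q * q))) :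
    ((C.rotMap c x : ↥C.big) : LaurentSeries Qbar) = rotSer q c x := rfl

instance algebraBase : Algebra ↥(modularFunctionFieldBar (N * q)) ↥C.big :=
  (IntermediateField.inclusion C.base_le_big).toRingHom.toAlgebra

instance isScalarTower_base : IsScalarTower Qbar ↥(modularFunctionFieldBar (N * q)) ↥C.big :=
  IsScalarTower.of_algebraMap_eq fun _ => Subtype.ext rfl

section Embedding

variable (hq : q.Prime) (hqN : ¬ q ∣ N)

theorem bigToMer_rotMap (c : ℤ) (x : ↥(FLevel Qbar (N * q * q))) :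
    C.bigToMer hq hqN (C.rotMap c x) = HeckeJ0.act (shiftGL q c) (toMer jEmb x) := by
  suffices h : (C.bigToMer hq hqN).comp (C.rotMap c).toRingHom =
      (HeckeJ0.act (shiftGL q c)).comp (toMer jEmb) from RingHom.congr_fun h x
  refine IsFractionRing.ringHom_ext (A := ↥(algGen Qbar (N * q * q))) fun a => ?_
  show C.bigToMer hq hqN (C.rotMap c (algToField Qbar (N * q * q) a)) =
    HeckeJ0.act (shiftGL q c) (toMer jEmb (algToField Qbar (N * q * q) a))
  obtain ⟨a, ha⟩ := a
  induction ha using Algebra.adjoin_induction with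
  | mem y hy =>
    obtain ⟨e, _, he, rfl⟩ := hy
    obtain ⟨h', hs'⟩ := exists_qSer_rotJ he c
    have hmem := C.rotSer_jL_mem_serGens he c
    have hg : rotJ q e c ∈ growFun N q :=
      (C.allGens_spec hq hqN (Or.inl ⟨e, inferInstance, he, c, rfl⟩)).1
    rw [C.bigToMer_eq hq hqN (x := C.rotMap c (algToField Qbar (N * q * q)
        ⟨jL Qbar e, Algebra.subset_adjoin ⟨e, inferInstance, he, rfl⟩⟩))
        (Algebra.subset_adjoin hmem) ⟨rotJ q e c, hg⟩ hs', toMer, fieldHom_algToField, toModFun_jL jEmb he, growToMer, RingHom.comp_apply,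
      RingHom.comp_apply, HeckeJ0.act_algebraMap (det_pos_shiftGL c)]
    rfl
  | algebraMap b =>
    rw [show (⟨algebraMap Qbar (LaurentSeries Qbar) b, _⟩ : ↥(algGen Qbar (N * q * q))) =
      algebraMap Qbar _ b from rfl, AlgHom.commutes, AlgHom.commutes, bigToMer_algebraMap, toMer,
      fieldHom_algebraMap]
    show _ = HeckeJ0.act (shiftGL q c) (algebraMap Hol Mer (algebraMap ℂ Hol (jEmb b)))
    exact (act_merC (det_pos_shiftGL c) _).symm
  | add y z hy hz ihy ihz =>
    rw [show (⟨y + z, _⟩ : ↥(algGen Qbar (N * q * q))) = ⟨y, hy⟩ + ⟨z, hz⟩ from rfl]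
    simp only [map_add, ihy, ihz]
  | mul y z hy hz ihy ihz =>
    rw [show (⟨y * z, _⟩ : ↥(algGen Qbar (N * q * q))) = ⟨y, hy⟩ * ⟨z, hz⟩ from rfl]
    simp only [map_mul, ihy, ihz]

theorem move_rotMap_eq {γ : Gamma0 (N * q)} {γ' : SL(2, ℤ)} {c c' : ℤ}
    (h : ∀ τ : ℍ, shiftGL q c • ((γ⁻¹ : Gamma0 (N * q)) : SL(2, ℤ)) • τ =
      γ' • shiftGL q c' • τ) {x : ↥(FLevel Qbar (N * q * q))}
    (hx : HeckeJ0.act (γ' : GL (Fin 2) ℝ) (toMer jEmb x) = toMer jEmb x) :
    C.move hq hqN γ (C.rotMap c x) = C.rotMap c' x := by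
  refine (C.bigToMer hq hqN).injective ?_
  rw [bigToMer_move, bigToMer_rotMap, bigToMer_rotMap, compGamma,
    ← HeckeJ0.act_mul (det_pos_shiftGL c) (det_pos_SL _),
    act_congr (HeckeJ0.det_pos_mul (det_pos_shiftGL c) (det_pos_SL _))
      (HeckeJ0.det_pos_mul (det_pos_SL γ') (det_pos_shiftGL c'))
      (fun τ => by rw [mul_smul, mul_smul]; exact h τ),
    HeckeJ0.act_mul (det_pos_SL γ') (det_pos_shiftGL c'), hx]

/-- Modular functions are invariant. -/
theorem act_toMer {M : ℕ} [NeZero M] {γ : SL(2, ℤ)} (hγ : γ ∈ Gamma0 M)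
    (x : ↥(FLevel Qbar M)) :
    HeckeJ0.act (γ : GL (Fin 2) ℝ) (toMer jEmb x) = toMer jEmb x := by
  suffices h : (HeckeJ0.act (γ : GL (Fin 2) ℝ)).comp (toMer (N := M) jEmb) = toMer jEmb from
    RingHom.congr_fun h x
  refine IsFractionRing.ringHom_ext (A := ↥(algGen Qbar M)) fun a => ?_
  show HeckeJ0.act _ (toMer jEmb (algToField Qbar M a)) = toMer jEmb (algToField Qbar M a)
  rw [toMer, fieldHom_algToField, RingHom.comp_apply, HeckeJ0.act_algebraMap (det_pos_SL γ)]
  exact congrArg _ (Subtype.ext (funext fun τ => (toModFun jEmb a).2.2.1 γ hγ τ))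

/-- `Γ₀(N q²)` moves the translation by `c / q` to that by `c d² / q`. -/
theorem move_rotMap {γ : Gamma0 (N * q)}
    (hγ : ((γ⁻¹ : Gamma0 (N * q)) : SL(2, ℤ)) ∈ Gamma0 (N * q * q)) {c c' : ℤ}
    (hc : (q : ℤ) ∣ c' - c * ((γ⁻¹ : Gamma0 (N * q)) : SL(2, ℤ)) 1 1 *
      ((γ⁻¹ : Gamma0 (N * q)) : SL(2, ℤ)) 1 1)
    (x : ↥(FLevel Qbar (N * q * q))) :
    C.move hq hqN γ (C.rotMap c x) = C.rotMap c' x := by
  obtain ⟨γ', hγ', h⟩ := exists_shift_gamma_sq hγ hc
  exact C.move_rotMap_eq hq hqN h (act_toMer hγ' x)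

include hq hqN in
/-- The big field is finite over the field of `X₀(N q)`. -/
theorem finite_over_base : Module.Finite ↥(modularFunctionFieldBar (N * q)) ↥C.big := by
  let G := (C.move hq hqN).range
  have : Finite G := (C.finite_range_move hq hqN).to_subtype
  exact finite_of_fixedPoints G ↥(modularFunctionFieldBar (N * q))
    (fun x => by
      rintro ⟨_, γ, rfl⟩
      exact C.move_of_base hq hqN γ x.2)
    fun x hx => ⟨⟨(x : LaurentSeries Qbar), C.mem_base_of_fixed hq hqN fun γ =>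
      hx ⟨C.move hq hqN γ, γ, rfl⟩⟩, Subtype.ext rfl⟩

include hq hqN in
theorem isFunctionField_big : IsFunctionField Qbar ↥C.big := by
  have := C.finite_over_base hq hqN
  have := X0Analytic.isFunctionField (N := N * q) jEmb
  exact isFunctionField_of_finite Qbar ↥(modularFunctionFieldBar (N * q))

include hq hqN in
theorem isFunctionField_field : IsFunctionField Qbar ↥C.field := by
  let _ : Algebra ↥(modularFunctionFieldBar (N * q)) ↥C.field :=
    (IntermediateField.inclusion C.base_le).toRingHom.toAlgebra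
  have : IsScalarTower Qbar ↥(modularFunctionFieldBar (N * q)) ↥C.field :=
    IsScalarTower.of_algebraMap_eq fun _ => Subtype.ext rfl
  have := C.finite_over_base hq hqN
  let g : ↥C.field →ₗ[↥(modularFunctionFieldBar (N * q))] ↥C.big :=
    { toFun := IntermediateField.inclusion C.field_le_big
      map_add' := map_add _
      map_smul' := fun _ _ => Subtype.ext rfl }
  have : FiniteDimensional ↥(modularFunctionFieldBar (N * q)) ↥C.field :=
    FiniteDimensional.of_injective g (IntermediateField.inclusion C.field_le_big).injective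
  have := X0Analytic.isFunctionField (N := N * q) jEmb
  exact isFunctionField_of_finite Qbar ↥(modularFunctionFieldBar (N * q))

end Embedding

/-- The cover inside the big field. -/
def fieldToBig : ↥C.field →ₐ[Qbar] ↥C.big := IntermediateField.inclusion C.field_le_big

@[simp]
theorem coe_fieldToBig (x : ↥C.field) :
    ((C.fieldToBig x : ↥C.big) : LaurentSeries Qbar) = x := IntermediateField.coe_inclusion _ _

instance algebraField : Algebra ↥C.field ↥C.big := C.fieldToBig.toRingHom.toAlgebra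

instance isScalarTower_field : IsScalarTower Qbar ↥C.field ↥C.big :=
  IsScalarTower.of_algebraMap_eq fun _ => Subtype.ext rfl

section Galois

variable {σ : Qbar ≃ₐ[ℚ] Qbar}

theorem coeffMap_mem_big (hy : coeffMap (σ : Qbar →+* Qbar) C.y = C.y)
    (hz : ∃ k : ℕ, σ (zetaQ q) = zetaQ q ^ k) {x : LaurentSeries Qbar} (hx : x ∈ C.big) :
    coeffMap (σ : Qbar →+* Qbar) x ∈ C.big := by
  induction hx using IntermediateField.adjoin_induction with
  | mem y hy' =>
    obtain ⟨k, hk⟩ := hz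
    rcases C.serGens_cases hy' with ⟨e, _, he, c, rfl⟩ | ⟨b, rfl⟩
    · have h1 : σ (zetaQ q ^ c) = zetaQ q ^ ((k : ℤ) * c) := by
        rw [map_zpow₀, hk, zpow_mul, zpow_natCast]
      rw [rotSer, coeffMap_rot (σ := (σ : Qbar →+* Qbar)) _ (zpow_ne_zero _ zetaQ_ne_zero) h1,
        show coeffMap (σ : Qbar →+* Qbar) (jL Qbar e) = jL Qbar e by
          rw [jL, coeffEmb, coeffMap_coeffMap]
          exact coeffMap_congr (RingHom.ext fun r => σ.commutes r) _]
      exact IntermediateField.subset_adjoin Qbar _ (C.rotSer_jL_mem_serGens he _)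
    · rw [map_mul, hy, coeffMap_algebraMap]
      exact mul_mem (IntermediateField.algebraMap_mem _ _)
        (IntermediateField.subset_adjoin Qbar _ C.y_mem_serGens)
  | algebraMap b => rw [coeffMap_algebraMap]; exact IntermediateField.algebraMap_mem _ _
  | add y z _ _ ihy ihz => rw [map_add]; exact add_mem ihy ihz
  | inv y _ ih => rw [map_inv₀]; exact inv_mem ih
  | mul y z _ _ ihy ihz => rw [map_mul]; exact mul_mem ihy ihz

theorem coeffMap_mem_field (hy : coeffMap (σ : Qbar →+* Qbar) C.y = C.y)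
    {x : LaurentSeries Qbar} (hx : x ∈ C.field) : coeffMap (σ : Qbar →+* Qbar) x ∈ C.field := by
  induction hx using IntermediateField.adjoin_induction with
  | mem y hy' =>
    rcases hy' with hy' | rfl
    · exact C.base_le (coeffMap_mem_laurentBaseChange σ hy')
    · rw [hy]; exact C.y_mem
  | algebraMap b => rw [coeffMap_algebraMap]; exact IntermediateField.algebraMap_mem _ _
  | add y z _ _ ihy ihz => rw [map_add]; exact add_mem ihy ihz
  | inv y _ ih => rw [map_inv₀]; exact inv_mem ih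
  | mul y z _ _ ihy ihz => rw [map_mul]; exact mul_mem ihy ihz

end Galois

/-- An automorphism of `Qbar` on a field stable under it. -/
def semilinearOf (E : IntermediateField Qbar (LaurentSeries Qbar)) (σ : Qbar ≃ₐ[ℚ] Qbar)
    (h : ∀ x ∈ E, coeffMap (σ : Qbar →+* Qbar) x ∈ E)
    (h' : ∀ x ∈ E, coeffMap (σ.symm : Qbar →+* Qbar) x ∈ E) : SemilinearAut Qbar E :=
  ⟨({ toFun := fun x => ⟨coeffMap (σ : Qbar →+* Qbar) (x : LaurentSeries Qbar), h _ x.2⟩
      invFun := fun x => ⟨coeffMap (σ.symm : Qbar →+* Qbar) (x : LaurentSeries Qbar), h' _ x.2⟩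
      left_inv := fun x => Subtype.ext (by
        show coeffMap (σ.symm : Qbar →+* Qbar) (coeffMap (σ : Qbar →+* Qbar) _) = _
        rw [coeffMap_coeffMap, coeffMap_congr (g := RingHom.id Qbar)
          (RingHom.ext fun a => σ.symm_apply_apply a) _, coeffMap_id])
      right_inv := fun x => Subtype.ext (by
        show coeffMap (σ : Qbar →+* Qbar) (coeffMap (σ.symm : Qbar →+* Qbar) _) = _
        rw [coeffMap_coeffMap, coeffMap_congr (g := RingHom.id Qbar)
          (RingHom.ext fun a => σ.apply_symm_apply a) _, coeffMap_id])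
      map_mul' := fun x y => Subtype.ext (map_mul (coeffMap (σ : Qbar →+* Qbar)) _ _)
      map_add' := fun x y => Subtype.ext (map_add (coeffMap (σ : Qbar →+* Qbar)) _ _) },
    σ.toRingEquiv), fun a => Subtype.ext (coeffMap_algebraMap (σ : Qbar →+* Qbar) a)⟩

/-- Rotations under an automorphism of `Qbar`. -/
theorem coeffMap_rotMap {σ : Qbar ≃ₐ[ℚ] Qbar} {c c' : ℤ}
    (h : σ (zetaQ q ^ c) = zetaQ q ^ c') (x : ↥(FLevel Qbar (N * q * q))) :
    coeffMap (σ : Qbar →+* Qbar) ((C.rotMap c x : ↥C.big) : LaurentSeries Qbar) =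
      ((C.rotMap c' (arithmeticGalois (modularFunctionFieldFull (N * q * q)) σ • x) : ↥C.big) :
        LaurentSeries Qbar) := by
  rw [coe_rotMap, coe_rotMap, rotSer, coeffMap_rot (σ := (σ : Qbar →+* Qbar)) _
    (zpow_ne_zero _ zetaQ_ne_zero) h]
  rfl

section Norm

variable (hq : q.Prime) (hqN : ¬ q ∣ N)

include hq hqN in
theorem finite_over_field : Module.Finite ↥C.field ↥C.big := by
  have := C.isFunctionField_big hq hqN
  have := C.isFunctionField_field hq hqN
  exact FunctionFieldRR.finiteAlong C.fieldToBig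

/-- Norm of a translated function to `F₀(y)`. -/
def normRot (c : ℤ) (x : ↥(FLevel Qbar (N * q * q))) : ↥C.field :=
  Algebra.norm ↥C.field (C.rotMap c x)

include hq hqN in
theorem normRot_ne_zero (c : ℤ) {x : ↥(FLevel Qbar (N * q * q))} (hx : x ≠ 0) :
    C.normRot c x ≠ 0 := by
  have := C.finite_over_field hq hqN
  exact Algebra.norm_ne_zero_iff.mpr ((map_ne_zero _).mpr hx)

include hq hqN in
theorem dvd_ord_normRot {n : ℤ} (c : ℤ) {x : ↥(FLevel Qbar (N * q * q))} (hx : x ≠ 0)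
    (h : ∀ P : Place Qbar ↥(FLevel Qbar (N * q * q)), n ∣ P.ord x)
    (v : Place Qbar ↥C.field) : n ∣ v.ord (C.normRot c x) := by
  have := C.isFunctionField_big hq hqN
  have := C.isFunctionField_field hq hqN
  have := X0Analytic.isFunctionField (N := N * q * q) jEmb
  have := C.finite_over_field hq hqN
  rw [normRot, ord_norm v ((map_ne_zero _).mpr hx)]
  refine Finset.dvd_sum fun w _ => ?_
  let _ := algebraAlong (C.rotMap c)
  have := isScalarTower_along (C.rotMap c)
  have : Module.Finite ↥(FLevel Qbar (N * q * q)) ↥C.big := FunctionFieldRR.finiteAlong (C.rotMap c)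
  rw [show C.rotMap c x = algebraMap ↥(FLevel Qbar (N * q * q)) ↥C.big x from rfl, w.ord_restrict]
  exact dvd_mul_of_dvd_right (h _) _

/-- An automorphism of the base on norms. -/
theorem norm_equivariant {e₁ : ↥C.field ≃+* ↥C.field} {e₂ : ↥C.big ≃+* ↥C.big}
    (he : ∀ a : ↥C.field, C.fieldToBig (e₁ a) = e₂ (C.fieldToBig a)) (x : ↥C.big) :
    e₁ (Algebra.norm ↥C.field x) = Algebra.norm ↥C.field (e₂ x) := by
  have h := Algebra.norm_eq_of_equiv_equiv e₁ e₂ (RingHom.ext he) x
  rw [h, RingEquiv.apply_symm_apply]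

theorem move_mem_field (γ : Gamma0 (N * q)) {x : ↥C.big}
    (hx : (x : LaurentSeries Qbar) ∈ C.field) :
    (C.move hq hqN γ x : LaurentSeries Qbar) ∈ C.field := by
  obtain ⟨x, hxb⟩ := x
  change x ∈ C.field at hx
  induction hx using IntermediateField.adjoin_induction with
  | mem y hy =>
    rcases hy with hy | rfl
    · rw [C.move_of_base hq hqN γ hy]; exact C.base_le hy
    · rw [show (⟨C.y, hxb⟩ : ↥C.big) = C.yBig from rfl, C.move_yBig hq hqN]
      exact mul_mem (IntermediateField.algebraMap_mem _ _) C.y_mem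
  | algebraMap c =>
    rw [show (⟨algebraMap Qbar (LaurentSeries Qbar) c, hxb⟩ : ↥C.big) = algebraMap Qbar _ c from
      Subtype.ext rfl, AlgEquiv.commutes]
    exact IntermediateField.algebraMap_mem _ _
  | add y z hy hz ihy ihz =>
    rw [show (⟨y + z, hxb⟩ : ↥C.big) = ⟨y, C.field_le_big hy⟩ + ⟨z, C.field_le_big hz⟩ from rfl,
      map_add]
    exact add_mem (ihy _) (ihz _)
  | inv y hy ih =>
    rw [show (⟨y⁻¹, hxb⟩ : ↥C.big) = (⟨y, C.field_le_big hy⟩ : ↥C.big)⁻¹ from rfl, map_inv₀]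
    exact inv_mem (ih _)
  | mul y z hy hz ihy ihz =>
    rw [show (⟨y * z, hxb⟩ : ↥C.big) = ⟨y, C.field_le_big hy⟩ * ⟨z, C.field_le_big hz⟩ from rfl,
      map_mul]
    exact mul_mem (ihy _) (ihz _)

/-- An element of `Γ₀(N q)` on `F₀(y)`. -/
def moveField (γ : Gamma0 (N * q)) : ↥C.field ≃ₐ[Qbar] ↥C.field where
  toFun x := ⟨C.move hq hqN γ (C.fieldToBig x), C.move_mem_field hq hqN γ x.2⟩
  invFun x := ⟨C.move hq hqN γ⁻¹ (C.fieldToBig x), C.move_mem_field hq hqN γ⁻¹ x.2⟩
  left_inv x := Subtype.ext (congrArg (fun z : ↥C.big => (z : LaurentSeries Qbar)) (show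
    C.move hq hqN γ⁻¹ (C.move hq hqN γ (C.fieldToBig x)) = C.fieldToBig x by
      rw [← AlgEquiv.mul_apply, ← map_mul, inv_mul_cancel, map_one, AlgEquiv.one_apply]))
  right_inv x := Subtype.ext (congrArg (fun z : ↥C.big => (z : LaurentSeries Qbar)) (show
    C.move hq hqN γ (C.move hq hqN γ⁻¹ (C.fieldToBig x)) = C.fieldToBig x by
      rw [← AlgEquiv.mul_apply, ← map_mul, mul_inv_cancel, map_one, AlgEquiv.one_apply]))
  map_mul' x y := Subtype.ext (by
    show ((C.move hq hqN γ (C.fieldToBig (x * y)) : ↥C.big) : LaurentSeries Qbar) = _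
    rw [map_mul, map_mul]
    rfl)
  map_add' x y := Subtype.ext (by
    show ((C.move hq hqN γ (C.fieldToBig (x + y)) : ↥C.big) : LaurentSeries Qbar) = _
    rw [map_add, map_add]
    rfl)
  commutes' b := Subtype.ext (congrArg (fun z : ↥C.big => (z : LaurentSeries Qbar)) (show
    C.move hq hqN γ (C.fieldToBig (algebraMap Qbar _ b)) = algebraMap Qbar ↥C.big b by
      rw [AlgHom.commutes, AlgEquiv.commutes]))

theorem fieldToBig_moveField (γ : Gamma0 (N * q)) (x : ↥C.field) :
    C.fieldToBig (C.moveField hq hqN γ x) = C.move hq hqN γ (C.fieldToBig x) := Subtype.ext rfl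

theorem isOverBase_moveField (γ : Gamma0 (N * q)) : C.IsOverBase (C.moveField hq hqN γ) :=
  fun f hf => Subtype.ext (congrArg (fun z : ↥C.big => (z : LaurentSeries Qbar))
    (C.move_of_base hq hqN γ (x := C.fieldToBig f) hf))

theorem moveField_yEl (γ : Gamma0 (N * q)) :
    C.moveField hq hqN γ C.yEl = C.chiG γ⁻¹ • C.yEl := by
  refine Subtype.ext ((congrArg Subtype.val (C.move_yBig hq hqN γ)).trans ?_)
  rw [IntermediateField.coe_smul, Algebra.smul_def]
  rfl

theorem moveField_normRot {γ : Gamma0 (N * q)}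
    (hγ : ((γ⁻¹ : Gamma0 (N * q)) : SL(2, ℤ)) ∈ Gamma0 (N * q * q)) {c c' : ℤ}
    (hc : (q : ℤ) ∣ c' - c * ((γ⁻¹ : Gamma0 (N * q)) : SL(2, ℤ)) 1 1 *
      ((γ⁻¹ : Gamma0 (N * q)) : SL(2, ℤ)) 1 1)
    (x : ↥(FLevel Qbar (N * q * q))) :
    C.moveField hq hqN γ (C.normRot c x) = C.normRot c' x := by
  rw [normRot, normRot, ← C.move_rotMap hq hqN hγ hc x]
  exact C.norm_equivariant (e₁ := (C.moveField hq hqN γ).toRingEquiv)
    (e₂ := (C.move hq hqN γ).toRingEquiv) (C.fieldToBig_moveField hq hqN γ) (C.rotMap c x)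

end Norm

end TwistCover

end Fermat.Agent.XHLite

end
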